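import Fermat.Agent.LevelLowering.Away.KummerGauss
import Fermat.Agent.TwoComp.CuspResidue
import Fermat.Agent.JacCompare.HeckeClass
import Fermat.Agent.Hecke.Degree

/-!
# The Hecke norm of a Kummer function

`heckeNorm` commutes with the involution at `q`, preserves the constants of the inertia field and
Gauss units, and on an eigen class is a power up to constants and `n`-th powers.
-/

set_option autoImplicit false

noncomputable section

open ModularCurve AlgebraicCurve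
open Fermat.Agent.TwoComp (gres Conj upα upβ)
open Fermat.Agent.CarayolFF (gaussRing IsGaussUnit)
open Fermat.Agent.ModularFunctionField (twist)

namespace Fermat.Agent.LevelLowering.Away

local notation "Qb" => AlgebraicClosure ℚ
local notation "FB" => modularFunctionFieldBar

/-- Norms commute with automorphisms commuting with both maps. -/
theorem normAlong_comm {K F F' : Type*} [Field K] [Field F] [Field F'] [Algebra K F] [Algebra K F']
    (α β : F →ₐ[K] F') (w : F ≃ₐ[K] F) (w' : F' ≃ₐ[K] F') (hα : ∀ y, w' (α y) = α (w y))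
    (hβ : ∀ y, w' (β y) = β (w y)) (f : F) :
    TwoComp.normAlong α (β (w f)) = w (TwoComp.normAlong α (β f)) := by
  let := algebraAlong α
  show Algebra.norm F (β (w f)) = w (Algebra.norm F (β f))
  rw [← hβ]
  have h := Algebra.norm_eq_of_equiv_equiv w.toRingEquiv w'.toRingEquiv
    (RingHom.ext fun y => (hα y).symm) (β f)
  exact ((congrArg w h).trans (w.apply_symm_apply _)).symm

theorem coe_upα (N d : ℕ) [NeZero N] [NeZero d] (y : FB N) :
    ((upα N d y : FB (N * d)) : LaurentSeries Qb) = y :=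
  coe_heckeAlphaBar _ _ y

theorem coe_upβ (N d : ℕ) [NeZero N] [NeZero d] (y : FB N) :
    ((upβ N d y : FB (N * d)) : LaurentSeries Qb) = qExpand Qb d (y : LaurentSeries Qb) :=
  coe_heckeBetaBar _ _ y

/-- An automorphism read on an equal intermediate field. -/
theorem exists_congr_auto {K L : Type*} [Field K] [Field L] [Algebra K L]
    {F₁ F₂ : IntermediateField K L} (h : F₁ = F₂) (w : F₁ ≃ₐ[K] F₁) :
    ∃ w' : F₂ ≃ₐ[K] F₂, ∀ (z : F₂) (x : F₁), (z : L) = x → ((w' z : F₂) : L) = (w x : F₁) := by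
  subst h
  exact ⟨w, fun z x hzx => by rw [Subtype.ext hzx]⟩

/-- The involution at `q` at level `X ℓ`, read at level `X q ℓ`. -/
theorem exists_wLift {X q ℓ : ℕ} [NeZero X] [NeZero q] [NeZero ℓ] (hq : q.Prime)
    (hqXℓ : ¬ q ∣ X * ℓ) :
    ∃ w' : FB (X * q * ℓ) ≃ₐ[Qb] FB (X * q * ℓ), ∀ (y : FB (X * ℓ)) (z : FB (X * q * ℓ)),
      ((z : LaurentSeries Qb) = y →
        ((w' z : FB (X * q * ℓ)) : LaurentSeries Qb) = qExpand Qb q (y : LaurentSeries Qb)) ∧
      ((z : LaurentSeries Qb) = qExpand Qb q (y : LaurentSeries Qb) →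
        ((w' z : FB (X * q * ℓ)) : LaurentSeries Qb) = y) := by
  obtain ⟨C', -, -⟩ := TwoComp.exists_conj (X * ℓ) q hq hqXℓ
  obtain ⟨w', hw'⟩ := exists_congr_auto (congrArg FB (mul_right_comm X ℓ q)) C'.w
  refine ⟨w', fun y z => ⟨fun hz => ?_, fun hz => ?_⟩⟩
  · rw [hw' z (upα (X * ℓ) q y) (hz.trans (coe_upα (X * ℓ) q y).symm), C'.w_alpha]
    exact coe_upβ (X * ℓ) q y
  · rw [hw' z (upβ (X * ℓ) q y) (hz.trans (coe_upβ (X * ℓ) q y).symm), C'.w_beta]
    exact coe_upα (X * ℓ) q y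

/-- The Hecke norm commutes with the involution at `q`. -/
theorem heckeNorm_w {X q ℓ : ℕ} [NeZero X] [NeZero q] [NeZero ℓ] (hq : q.Prime)
    (hqX : ¬ q ∣ X) (hℓ : ℓ.Prime) (hℓM : ¬ ℓ ∣ X * q) (C : Conj X q) (f : FB (X * q)) :
    Hecke.heckeNorm Qb (X * q) ℓ (C.w f) = C.w (Hecke.heckeNorm Qb (X * q) ℓ f) := by
  have hqXℓ : ¬ q ∣ X * ℓ := fun h => (hq.dvd_mul.mp h).elim hqX fun h' =>
    hℓM (((Nat.prime_dvd_prime_iff_eq hq hℓ).mp h') ▸ dvd_mul_left q X)
  obtain ⟨w', hw'⟩ := exists_wLift (X := X) (ℓ := ℓ) hq hqXℓ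
  have hsα : ∀ y, w' (upα (X * q) ℓ y) = upα (X * q) ℓ (C.w y) := fun y =>
    TwoComp.hom_ext_alpha_beta hq
      (f := w'.toRingEquiv.toRingHom.comp (upα (X * q) ℓ).toRingHom)
      (g := (upα (X * q) ℓ).toRingHom.comp C.w.toRingEquiv.toRingHom)
      (fun x => Subtype.ext (by
        show ((w' (upα (X * q) ℓ (upα X q x)) : FB (X * q * ℓ)) : LaurentSeries Qb) =
          (upα (X * q) ℓ (C.w (upα X q x)) : LaurentSeries Qb)
        rw [C.w_alpha, coe_upα (X * q) ℓ, coe_upβ,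
          (hw' (upα X ℓ x) _).1 (by rw [coe_upα (X * q) ℓ, coe_upα, coe_upα]), coe_upα]))
      (fun x => Subtype.ext (by
        show ((w' (upα (X * q) ℓ (upβ X q x)) : FB (X * q * ℓ)) : LaurentSeries Qb) =
          (upα (X * q) ℓ (C.w (upβ X q x)) : LaurentSeries Qb)
        rw [C.w_beta, coe_upα (X * q) ℓ, coe_upα,
          (hw' (upα X ℓ x) _).2 (by rw [coe_upα (X * q) ℓ, coe_upβ, coe_upα]), coe_upα])) y
  have hsβ : ∀ y, w' (upβ (X * q) ℓ y) = upβ (X * q) ℓ (C.w y) := fun y =>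
    TwoComp.hom_ext_alpha_beta hq
      (f := w'.toRingEquiv.toRingHom.comp (upβ (X * q) ℓ).toRingHom)
      (g := (upβ (X * q) ℓ).toRingHom.comp C.w.toRingEquiv.toRingHom)
      (fun x => Subtype.ext (by
        show ((w' (upβ (X * q) ℓ (upα X q x)) : FB (X * q * ℓ)) : LaurentSeries Qb) =
          (upβ (X * q) ℓ (C.w (upα X q x)) : LaurentSeries Qb)
        rw [C.w_alpha, coe_upβ (X * q) ℓ, coe_upβ,
          (hw' (upβ X ℓ x) _).1 (by rw [coe_upβ (X * q) ℓ, coe_upα, coe_upβ]), coe_upβ,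
          qExpand_qExpand, qExpand_qExpand]
        exact qExpand_congr (mul_comm _ _) _))
      (fun x => Subtype.ext (by
        show ((w' (upβ (X * q) ℓ (upβ X q x)) : FB (X * q * ℓ)) : LaurentSeries Qb) =
          (upβ (X * q) ℓ (C.w (upβ X q x)) : LaurentSeries Qb)
        rw [C.w_beta, coe_upβ (X * q) ℓ, coe_upα,
          (hw' (upβ X ℓ x) _).2 (by
            rw [coe_upβ (X * q) ℓ, coe_upβ, coe_upβ, qExpand_qExpand, qExpand_qExpand]
            exact qExpand_congr (mul_comm _ _) _), coe_upβ])) y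
  exact normAlong_comm (upα (X * q) ℓ) (upβ (X * q) ℓ) C.w w' hsα hsβ f

variable {A : ValuationSubring Qb} {q : ℕ}

/-- The Hecke norm preserves the constants of the inertia field. -/
theorem heckeNorm_mem_levelField {M ℓ : ℕ} [NeZero M] [NeZero ℓ] (hA : A.LiesOverPrime q)
    (hq : q.Prime) (hql : ¬ q ∣ ℓ) (hℓ : ℓ.Prime) (hℓM : ¬ ℓ ∣ M) {f : FB M}
    (hf : (f : LaurentSeries Qb) ∈ Carayol.levelField (Carayol.inertiaField A) M) :
    (Hecke.heckeNorm Qb M ℓ f : LaurentSeries Qb) ∈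
      Carayol.levelField (Carayol.inertiaField A) M := by
  refine CarayolFF.mem_levelField_of_fixed (Hecke.heckeNorm Qb M ℓ f).2 fun σ hσ => ?_
  obtain ⟨z₀, hz₀⟩ := HasEnoughRootsOfUnity.exists_primitiveRoot Qb ℓ
  have hz : IsPrimitiveRoot (hz₀.isUnit hℓ.ne_zero).unit ℓ :=
    IsPrimitiveRoot.coe_units_iff.mp (by rwa [IsUnit.unit_spec])
  set z := (hz₀.isUnit hℓ.ne_zero).unit
  have hfix : coeffMap (σ : Qb →+* Qb) (f : LaurentSeries Qb) = f := by
    ext n
    rw [coeffMap_coeff]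
    exact Carayol.Local.mem_inertiaField_iff.mp
      (CarayolFF.coeff_mem_of_mem_levelField hf n) σ hσ
  have hzfix : Units.map ((σ : Qb →+* Qb) : Qb →* Qb) z = z := Units.ext (by
    rw [Units.coe_map]
    exact GaloisBasics.inertia_apply_of_pow_eq_one hA hq hql hσ
      (by rw [← Units.val_pow_eq_pow_val, hz.pow_eq_one, Units.val_one]))
  refine qExpand_injective ℓ ?_
  rw [← ModularFunctionField.coeffMap_qExpand', Hecke.qExpand_heckeNorm M ℓ hℓ hℓM hz, map_mul,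
    map_prod, ModularFunctionField.coeffMap_qExpand', hfix]
  refine congrArg (_ * ·) (Finset.prod_congr rfl fun i _ => ?_)
  rw [ModularFunctionField.coeffMap_twist, hfix, map_pow, hzfix]

/-- The Hecke norm of a Gauss unit is a Gauss unit, with the expected residue. -/
theorem isGaussUnit_heckeNorm {M ℓ : ℕ} [NeZero M] [NeZero ℓ] (hA : A.LiesOverPrime q)
    (hq : q.Prime) (hql : ¬ q ∣ ℓ) (hℓ : ℓ.Prime) (hℓM : ¬ ℓ ∣ M) {f : FB M}
    (hf : IsGaussUnit A (f : LaurentSeries Qb)) :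
    IsGaussUnit A (Hecke.heckeNorm Qb M ℓ f : LaurentSeries Qb) ∧
      ∃ z : (IsLocalRing.ResidueField A)ˣ, IsPrimitiveRoot z ℓ ∧
        qExpand _ ℓ (gres A (Hecke.heckeNorm Qb M ℓ f : LaurentSeries Qb)) =
          qExpand _ (ℓ * ℓ) (gres A (f : LaurentSeries Qb)) *
            ∏ i : Fin ℓ, twist (z ^ (i : ℕ)) (gres A (f : LaurentSeries Qb)) := by
  obtain ⟨z₀, hz₀⟩ := HasEnoughRootsOfUnity.exists_primitiveRoot Qb ℓ
  have hz : IsPrimitiveRoot (hz₀.isUnit hℓ.ne_zero).unit ℓ :=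
    IsPrimitiveRoot.coe_units_iff.mp (by rwa [IsUnit.unit_spec])
  set z := (hz₀.isUnit hℓ.ne_zero).unit
  obtain ⟨zb, hzb, htw⟩ := exists_primitive_residue hA hq hℓ hql hz
  have hne : gres A (f : LaurentSeries Qb) ≠ 0 := IsGaussUnit.gres_ne_zero hf
  obtain ⟨hP, hPe⟩ := TwoComp.gres_prod (A := A) (Finset.range ℓ)
    (fun i => twist (z ^ i) (f : LaurentSeries Qb))
    (fun i => twist (zb ^ i) (gres A (f : LaurentSeries Qb)))
    fun i _ => htw i hf.mem
  obtain ⟨hE, hEe⟩ := TwoComp.gres_qExpand (A := A) (ℓ * ℓ) hf.mem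
  have hid := Hecke.qExpand_heckeNorm M ℓ hℓ hℓM hz f
  have hmem : qExpand Qb ℓ (Hecke.heckeNorm Qb M ℓ f : LaurentSeries Qb) ∈ gaussRing A :=
    hid ▸ mul_mem hE hP
  obtain ⟨hN, hNe⟩ := TwoComp.gres_of_qExpand (N := M) (q := ℓ) hmem
  rw [hid, TwoComp.gres_mul hE hP, hPe, hEe] at hNe
  refine ⟨TwoComp.isGaussUnit_of_gres hN fun h0 => ?_, zb, hzb, ?_⟩
  · rw [h0, map_zero, mul_eq_zero, map_eq_zero, Finset.prod_eq_zero_iff] at hNe
    rcases hNe with h | ⟨i, -, h⟩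
    · exact hne h
    · exact hne ((map_eq_zero_iff _ (ModularFunctionField.twist_injective _)).mp h)
  · rw [← hNe, Fin.prod_univ_eq_prod_range
      (fun i => twist (zb ^ i) (gres A (f : LaurentSeries Qb))) ℓ]

/-- The Hecke norm of a constant. -/
theorem heckeNorm_algebraMap {M ℓ : ℕ} [NeZero M] [NeZero ℓ] (hℓ : ℓ.Prime) (hℓM : ¬ ℓ ∣ M)
    (c : Qb) :
    Hecke.heckeNorm Qb M ℓ (algebraMap Qb (FB M) c) = algebraMap Qb (FB M) (c ^ (ℓ + 1)) := by
  have hdeg := Hecke.finrankAlong_alpha M ℓ hℓ hℓM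
  let := algebraAlong (heckeAlphaBar Qb M ℓ)
  show Algebra.norm (FB M) (heckeBetaBar Qb M ℓ (algebraMap Qb _ c)) = _
  rw [AlgHom.commutes, ← (heckeAlphaBar Qb M ℓ).commutes c, map_pow, ← hdeg]
  exact Algebra.norm_algebraMap _

/-- The Hecke norm is multiplicative. -/
theorem heckeNorm_mul' {M ℓ : ℕ} [NeZero M] [NeZero ℓ] (f g : FB M) :
    Hecke.heckeNorm Qb M ℓ (f * g) =
      Hecke.heckeNorm Qb M ℓ f * Hecke.heckeNorm Qb M ℓ g := by
  let := algebraAlong (heckeAlphaBar Qb M ℓ)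
  show Algebra.norm (FB M) (heckeBetaBar Qb M ℓ (f * g)) = _
  rw [map_mul, map_mul]
  rfl

/-- On an eigen class the Hecke norm is a power up to constants and `n`-th powers. -/
theorem exists_heckeNorm_eq {M : ℕ} [NeZero M] (ℓ : Nat.Primes) [NeZero (ℓ : ℕ)] {n a : ℕ}
    {f : FB M} (hf : f ≠ 0) (D : Divisor.degZero (K := Qb) (F := FB M))
    (hD : ∀ v : Place Qb (FB M), (n : ℤ) * (D : Divisor Qb (FB M)) v = v.ord f)
    (hT : heckeOperatorBar M ℓ (Pic0.mk D) = a • (Pic0.mk D : JZero M)) :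
    ∃ (c : Qb) (h : FB M), h ≠ 0 ∧
      Hecke.heckeNorm Qb M (ℓ : ℕ) f = algebraMap Qb (FB M) c * (f ^ a * h ^ n) := by
  obtain ⟨D', hTD, hN0, hD'⟩ := JacCompare.exists_isKummerDiv_heckeNorm M ℓ one_ne_zero D
    (f := f) (n := n) ⟨hf, fun v => by rw [hD, Nat.cast_one, one_mul]⟩
  rw [hT] at hTD
  replace hTD := AddSubgroup.mem_addSubgroupOf.mp (QuotientAddGroup.eq.mp
    (show (QuotientAddGroup.mk (a • D) : JZero M) = QuotientAddGroup.mk D' from hTD))
  obtain ⟨h, hh, hhv⟩ := hTD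
  have key : ∀ v : Place Qb (FB M),
      v.ord (Hecke.heckeNorm Qb M (ℓ : ℕ) f / (f ^ a * h ^ n)) = 0 := by
    intro v
    have h1 := hhv v
    have h2 := hD' v
    rw [Nat.cast_one, one_mul] at h2
    rw [AddSubgroup.coe_add, NegMemClass.coe_neg, AddSubgroupClass.coe_nsmul, Finsupp.add_apply,
      Finsupp.neg_apply, Finsupp.smul_apply, nsmul_eq_mul] at h1
    rw [div_eq_mul_inv, v.ord_mul hN0 (inv_ne_zero (mul_ne_zero (pow_ne_zero _ hf)
      (pow_ne_zero _ hh))), v.ord_inv, v.ord_mul (pow_ne_zero _ hf) (pow_ne_zero _ hh),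
      FunctionField.ord_pow, FunctionField.ord_pow, ← hD, ← h1, ← h2]
    ring
  obtain ⟨c, hc⟩ := CarayolReduction.exists_const_of_forall_ord_eq_zero key
  refine ⟨c, h, hh, ?_⟩
  rw [hc, div_mul_cancel₀ _ (mul_ne_zero (pow_ne_zero _ hf) (pow_ne_zero _ hh))]

end Fermat.Agent.LevelLowering.Away
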