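import Fermat.Agent.LevelLowering.Away.Defs
import Fermat.Agent.LevelLowering.Away.KummerHecke
import Fermat.Agent.GoodReductionS18.Model.Export
import Fermat.Agent.AtP.ClassHecke

/-!
# Kummer functions of the eigen package

A class of the package is the class of a function with constants in the inertia field at `q` which
has residues on both components satisfying the Hecke relations.
-/

set_option autoImplicit false

noncomputable section

open ModularCurve AlgebraicCurve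
open Fermat.Agent.TwoComp (gres Conj NormEq upα upβ)
open Fermat.Agent.CarayolFF (gaussRing IsGaussUnit)
open Fermat.Agent.ModularFunctionField (twist)

namespace Fermat.Agent.LevelLowering.Away

local notation "Qb" => AlgebraicClosure ℚ
local notation "FB" => modularFunctionFieldBar

variable {A : ValuationSubring Qb} {q : ℕ}

theorem C_mem_levelField {M : ℕ} {c : Qb} (hc : c ∈ Carayol.inertiaField A) :
    HahnSeries.C c ∈ Carayol.levelField (Carayol.inertiaField A) M :=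
  Subfield.subset_closure (Or.inl ⟨c, hc, (hahnC_eq c).symm⟩)

theorem zpow_mem_inertiaField (k : ℤ) : (q : Qb) ^ k ∈ Carayol.inertiaField A :=
  zpow_mem (natCast_mem _ q) k

/-- The involution preserves the constants of the inertia field. -/
theorem w_mem_levelField {X : ℕ} [NeZero X] [NeZero q] (hq : q.Prime) (C : Conj X q)
    {f : FB (X * q)}
    (hf : (f : LaurentSeries Qb) ∈ Carayol.levelField (Carayol.inertiaField A) (X * q)) :
    (C.w f : LaurentSeries Qb) ∈ Carayol.levelField (Carayol.inertiaField A) (X * q) := by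
  refine CarayolFF.mem_levelField_of_fixed (C.w f).2 fun σ hσ => ?_
  have hfix : TwoComp.galF (X * q) σ f = f := by
    refine Subtype.ext ?_
    show coeffMap (σ : Qb →+* Qb) (f : LaurentSeries Qb) = f
    ext n
    rw [coeffMap_coeff]
    exact Carayol.Local.mem_inertiaField_iff.mp
      (CarayolFF.coeff_mem_of_mem_levelField hf n) σ hσ
  show ((TwoComp.galF (X * q) σ (C.w f) : FB (X * q)) : LaurentSeries Qb) = _
  rw [← C.w_galF hq, hfix]

/-- A function times the power of `q` making it a Gauss unit. -/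
theorem exists_scale {M : ℕ} [NeZero M] (hA : A.LiesOverPrime q) (hq : q.Prime) {f : FB M}
    (hf : (f : LaurentSeries Qb) ∈ Carayol.levelField (Carayol.inertiaField A) M) (hf0 : f ≠ 0) :
    ∃ z : ℤ,
      ((algebraMap Qb (FB M) ((q : Qb) ^ z) * f : FB M) : LaurentSeries Qb) ∈
        Carayol.levelField (Carayol.inertiaField A) M ∧
      IsGaussUnit A ((algebraMap Qb (FB M) ((q : Qb) ^ z) * f : FB M) : LaurentSeries Qb) := by
  obtain ⟨z, hz⟩ := exists_content hA hq hf fun h => hf0 (Subtype.ext h)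
  have e : ((algebraMap Qb (FB M) ((q : Qb) ^ z) * f : FB M) : LaurentSeries Qb) =
      HahnSeries.C ((q : Qb) ^ z) * (f : LaurentSeries Qb) := by
    rw [IntermediateField.coe_mul, coe_constFB]
  exact ⟨z, e ▸ mul_mem (C_mem_levelField (zpow_mem_inertiaField z)) hf, e ▸ hz⟩

/-- A Hecke relation over `ℚ̄` becomes one over the unramified integers. -/
theorem exists_unit_rel {M ℓ n a : ℕ} [NeZero M] [NeZero ℓ] (hA : A.LiesOverPrime q)
    (hq : q.Prime) (hn : n ≠ 0) (hql : ¬ q ∣ ℓ) (hℓ : ℓ.Prime) (hℓM : ¬ ℓ ∣ M) {f : FB M}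
    (hf : (f : LaurentSeries Qb) ∈ Carayol.levelField (Carayol.inertiaField A) M)
    (hfu : IsGaussUnit A (f : LaurentSeries Qb)) {c : Qb} {h : FB M} (hh : h ≠ 0)
    (he : Hecke.heckeNorm Qb M ℓ f = algebraMap Qb (FB M) c * (f ^ a * h ^ n)) :
    ∃ (u : Carayol.unramInt A) (g : FB M), IsUnit u ∧ IsGaussUnit A (g : LaurentSeries Qb) ∧
      (g : LaurentSeries Qb) ∈ Carayol.levelField (Carayol.inertiaField A) M ∧
      Hecke.heckeNorm Qb M ℓ f = algebraMap Qb (FB M) (u : Qb) * (f ^ a * g ^ n) := by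
  have hf0 : f ≠ 0 := fun h0 => hfu.ne_zero (by rw [h0]; rfl)
  obtain ⟨hNu, -⟩ := isGaussUnit_heckeNorm hA hq hql hℓ hℓM hfu
  set N := Hecke.heckeNorm Qb M ℓ f
  have hN0 : N ≠ 0 := fun h0 => hNu.ne_zero (by rw [h0]; rfl)
  have hmem : ((N * (f ^ a)⁻¹ : FB M) : LaurentSeries Qb) ∈
      Carayol.levelField (Carayol.inertiaField A) M := by
    push_cast
    exact mul_mem (heckeNorm_mem_levelField hA hq hql hℓ hℓM hf) (inv_mem (pow_mem hf a))
  set y : Carayol.levelField (Carayol.inertiaField A) M := ⟨_, hmem⟩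
  have hy : Carayol.Local.levelToBar M A y = N * (f ^ a)⁻¹ := Subtype.ext rfl
  have hy0 : y ≠ 0 := fun h0 => by
    rw [h0, map_zero] at hy
    exact mul_ne_zero hN0 (inv_ne_zero (pow_ne_zero a hf0)) hy.symm
  obtain ⟨u, j, g₀, hu, hg₀, hyg⟩ := Carayol.isConstPow_of_eq hA hq hn hy0 hh (c := c) (by
    rw [hy, he, mul_comm (f ^ a) (h ^ n), ← mul_assoc,
      mul_inv_cancel_right₀ (pow_ne_zero a hf0)])
  set g₁ : FB M := Carayol.Local.levelToBar M A g₀ with hg₁
  have hg₁0 : g₁ ≠ 0 := fun h0 => hg₀ ((Carayol.Local.levelToBar M A).injective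
    (h0.trans (map_zero _).symm))
  have hu' : Carayol.Local.levelToBar M A (algebraMap (Carayol.unramInt A) _ u) =
      algebraMap Qb (FB M) (u : Qb) := Subtype.ext (by
    rw [Carayol.Local.coe_levelToBar, Carayol.Local.coe_algebraMap_level]
    exact (algebraMap_laurentSeries_eq_single Qb _).symm)
  have hyg' := congrArg (Carayol.Local.levelToBar M A) hyg
  rw [hy, map_mul, map_mul, map_zpow₀, map_natCast, map_pow, hu', ← hg₁,
    mul_inv_eq_iff_eq_mul₀ (pow_ne_zero a hf0)] at hyg'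
  obtain ⟨m, hgm, hgu⟩ := exists_scale hA hq (f := g₁)
    (show (g₁ : LaurentSeries Qb) ∈ _ by
      rw [hg₁, Carayol.Local.coe_levelToBar]; exact g₀.2) hg₁0
  set g : FB M := algebraMap Qb (FB M) ((q : Qb) ^ m) * g₁ with hg
  have hq0 : (q : Qb) ≠ 0 := Nat.cast_ne_zero.mpr hq.ne_zero
  have hrel : N = algebraMap Qb (FB M) ((q : Qb) ^ (j - m * n)) *
      (algebraMap Qb (FB M) (u : Qb) * (f ^ a * g ^ n)) := by
    have hc : algebraMap Qb (FB M) ((q : Qb) ^ (j - m * n)) *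
        algebraMap Qb (FB M) ((q : Qb) ^ m) ^ n = (q : FB M) ^ j := by
      rw [← map_pow, ← map_mul, ← zpow_natCast ((q : Qb) ^ m) n, ← zpow_mul, ← zpow_add₀ hq0,
        sub_add_cancel, map_zpow₀, map_natCast]
    rw [hyg', hg, mul_pow, ← hc]
    ring
  have hX : IsGaussUnit A
      ((algebraMap Qb (FB M) (u : Qb) * (f ^ a * g ^ n) : FB M) : LaurentSeries Qb) := by
    rw [IntermediateField.coe_mul, IntermediateField.coe_mul, IntermediateField.coe_pow,
      IntermediateField.coe_pow, coe_constFB]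
    exact (isGaussUnit_C_of_isUnit hu).mul ((isGaussUnit_npow hfu a).mul (isGaussUnit_npow hgu n))
  have hk : j - m * n = 0 := by
    refine zpow_eq_zero_of_isGaussUnit hA hX ?_
    rw [← coe_constFB M, ← IntermediateField.coe_mul, ← hrel]
    exact hNu
  refine ⟨u, g, hu, hgu, hgm, ?_⟩
  rw [hrel, hk, zpow_zero, map_one, one_mul]

/-- The Hecke relation of residues. -/
theorem heckeResidue_of_rel {X ℓ n a : ℕ} [NeZero X] [NeZero q] [NeZero ℓ]
    (hA : A.LiesOverPrime q) (hq : q.Prime) (hql : ¬ q ∣ ℓ) (hℓ : ℓ.Prime) (hℓM : ¬ ℓ ∣ X * q)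
    (C : Conj X q) (HN : GoodReductionModular.GaussInput (FB X)
      (modularFunctionFieldFullC (IsLocalRing.ResidueField A) X) (IsLocalRing.residue A))
    {f g : FB (X * q)} (hf : IsGaussUnit A (f : LaurentSeries Qb))
    (hg : IsGaussUnit A (g : LaurentSeries Qb)) {u : Carayol.unramInt A} (hu : IsUnit u)
    (he : Hecke.heckeNorm Qb (X * q) ℓ f =
      algebraMap Qb (FB (X * q)) (u : Qb) * (f ^ a * g ^ n)) :
    HeckeResidue A X n ℓ a (gres A (f : LaurentSeries Qb)) := by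
  obtain ⟨-, z, hz, hze⟩ := isGaussUnit_heckeNorm hA hq hql hℓ hℓM hf
  have huA : (u : Qb) ∈ A := (Carayol.mem_unramInt_iff.mp u.2).1
  refine ⟨z, IsLocalRing.residue A ⟨(u : Qb), huA⟩, ⟨_, C.gres_mem hq hA HN hg.mem⟩, hz,
    residue_ne_zero_of_isUnit hu, ?_⟩
  rw [← hze, he, IntermediateField.coe_mul, IntermediateField.coe_mul, IntermediateField.coe_pow,
    IntermediateField.coe_pow, coe_constFB,
    TwoComp.gres_mul (TwoComp.gres_C huA).1 (mul_mem (pow_mem hf.mem a) (pow_mem hg.mem n)),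
    TwoComp.gres_mul (pow_mem hf.mem a) (pow_mem hg.mem n), TwoComp.gres_pow hf.mem,
    TwoComp.gres_pow hg.mem, (TwoComp.gres_C huA).2, mul_assoc]

/-- The relation for the other component and the congruence of its content. -/
theorem swap_rel {X ℓ n a : ℕ} [NeZero X] [NeZero q] [NeZero ℓ] (hA : A.LiesOverPrime q)
    (hq : q.Prime) (hqX : ¬ q ∣ X) (hql : ¬ q ∣ ℓ) (hℓ : ℓ.Prime) (hℓM : ¬ ℓ ∣ X * q)
    (C : Conj X q) {f g : FB (X * q)} {u : Carayol.unramInt A} (hu : IsUnit u)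
    (hgl : (g : LaurentSeries Qb) ∈ Carayol.levelField (Carayol.inertiaField A) (X * q))
    (hg : g ≠ 0)
    (he : Hecke.heckeNorm Qb (X * q) ℓ f =
      algebraMap Qb (FB (X * q)) (u : Qb) * (f ^ a * g ^ n)) {z : ℤ}
    (hz : IsGaussUnit A ((algebraMap Qb (FB (X * q)) ((q : Qb) ^ z) * C.w f : FB (X * q)) :
      LaurentSeries Qb)) :
    (n : ℤ) ∣ z * ((ℓ : ℤ) + 1 - a) ∧
      ∃ g' : FB (X * q), IsGaussUnit A (g' : LaurentSeries Qb) ∧
        Hecke.heckeNorm Qb (X * q) ℓ (algebraMap Qb (FB (X * q)) ((q : Qb) ^ z) * C.w f) =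
          algebraMap Qb (FB (X * q)) (u : Qb) *
            ((algebraMap Qb (FB (X * q)) ((q : Qb) ^ z) * C.w f) ^ a * g' ^ n) := by
  obtain ⟨m, -, hm⟩ := exists_scale hA hq (w_mem_levelField hq C hgl) (by simpa using hg)
  obtain ⟨hNu, -⟩ := isGaussUnit_heckeNorm hA hq hql hℓ hℓM hz
  set f' := algebraMap Qb (FB (X * q)) ((q : Qb) ^ z) * C.w f with hf'
  set g' := algebraMap Qb (FB (X * q)) ((q : Qb) ^ m) * C.w g with hg'
  have hq0 : (q : Qb) ≠ 0 := Nat.cast_ne_zero.mpr hq.ne_zero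
  set k : ℤ := z * ((ℓ : ℤ) + 1 - a) - m * n
  have hrel : Hecke.heckeNorm Qb (X * q) ℓ f' = algebraMap Qb (FB (X * q)) ((q : Qb) ^ k) *
      (algebraMap Qb (FB (X * q)) (u : Qb) * (f' ^ a * g' ^ n)) := by
    have hc : algebraMap Qb (FB (X * q)) (((q : Qb) ^ z) ^ (ℓ + 1)) =
        algebraMap Qb (FB (X * q)) ((q : Qb) ^ k) *
          (algebraMap Qb (FB (X * q)) ((q : Qb) ^ z) ^ a *
            algebraMap Qb (FB (X * q)) ((q : Qb) ^ m) ^ n) := by
      rw [← map_pow, ← map_pow, ← map_mul, ← map_mul, ← zpow_natCast ((q : Qb) ^ z) (ℓ + 1),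
        ← zpow_natCast ((q : Qb) ^ z) a, ← zpow_natCast ((q : Qb) ^ m) n, ← zpow_mul, ← zpow_mul,
        ← zpow_mul, ← zpow_add₀ hq0, ← zpow_add₀ hq0]
      congr 2
      simp only [k, Nat.cast_add, Nat.cast_one]
      ring
    rw [hf', heckeNorm_mul', heckeNorm_algebraMap hℓ hℓM, heckeNorm_w hq hqX hℓ hℓM, he, hc,
      map_mul, map_mul, map_pow, map_pow, AlgEquiv.commutes, hg', mul_pow, mul_pow]
    ring
  have hX : IsGaussUnit A
      ((algebraMap Qb (FB (X * q)) (u : Qb) * (f' ^ a * g' ^ n) : FB (X * q)) :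
        LaurentSeries Qb) := by
    rw [IntermediateField.coe_mul, IntermediateField.coe_mul, IntermediateField.coe_pow,
      IntermediateField.coe_pow, coe_constFB]
    exact (isGaussUnit_C_of_isUnit hu).mul ((isGaussUnit_npow hz a).mul (isGaussUnit_npow hm n))
  have hk : k = 0 := by
    refine zpow_eq_zero_of_isGaussUnit hA hX ?_
    rw [← coe_constFB (X * q), ← IntermediateField.coe_mul, ← hrel]
    exact hNu
  have hk' : z * ((ℓ : ℤ) + 1 - a) - m * n = 0 := hk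
  exact ⟨⟨m, by linear_combination hk'⟩, g', hm, by
    rw [hrel, hk, zpow_zero, map_one, one_mul]⟩

/-- A class of the package has a Kummer function with Hecke relations on both residues. -/
theorem kummerStep : KummerStep := by
  intro W p X q _ _ hΔ _ hp hp2 hirr hq hqp hsq _ C _ P A hA x hx
  have := Fact.mk hp
  have hqX : ¬ q ∣ X := fun h => by
    obtain ⟨t, rfl⟩ := h
    exact hq.ne_one (Nat.isUnit_iff.mp (hsq q ⟨t, by ring⟩))
  have : IsAlgClosed (IsLocalRing.ResidueField A) := GaloisBasics.residueField_isAlgClosed A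
  have HN : GoodReductionModular.GaussInput (FB X)
      (modularFunctionFieldFullC (IsLocalRing.ResidueField A) X) (IsLocalRing.residue A) :=
    GoodReductionS18.gaussInput_level IsLocalRing.residue_surjective
      (TwoComp.natCast_residue_ne_zero hq hA (hq.coprime_iff_not_dvd.mpr hqX).symm)
  obtain ⟨D, f₀, hDx, hf₀, hf₀l, -, hD₀⟩ := CarayolReduction.exists_descended_function
    (A.inertiaSubgroupIn ℚ) hp.ne_zero (P.torsion x hx) fun σ hσ => P.inertia A hA σ hσ x hx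
  obtain ⟨z₀, hfl, hfu⟩ := exists_scale hA hq (M := X * q) hf₀l hf₀
  set f : FB (X * q) := algebraMap Qb (FB (X * q)) ((q : Qb) ^ z₀) * f₀ with hfdef
  have hq0 : (q : Qb) ≠ 0 := Nat.cast_ne_zero.mpr hq.ne_zero
  have hc0 : algebraMap Qb (FB (X * q)) ((q : Qb) ^ z₀) ≠ 0 :=
    (map_ne_zero _).mpr (zpow_ne_zero _ hq0)
  have hf0 : f ≠ 0 := mul_ne_zero hc0 hf₀
  have hD : ∀ v : Place Qb (FB (X * q)),
      (p : ℤ) * (D : Divisor Qb (FB (X * q))) v = v.ord f := fun v => by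
    rw [hfdef, v.ord_mul hc0 hf₀, FunctionField.ord_algebraMap, zero_add, hD₀]
  -- the eigen relations
  have hrel : ∀ (ℓ : ℕ) [NeZero ℓ], ℓ.Prime → ℓ ∉ P.S → ¬ q ∣ ℓ ∧ ¬ ℓ ∣ X * q ∧
      ∃ (u : Carayol.unramInt A) (g : FB (X * q)), IsUnit u ∧
        IsGaussUnit A (g : LaurentSeries Qb) ∧
        (g : LaurentSeries Qb) ∈ Carayol.levelField (Carayol.inertiaField A) (X * q) ∧
        Hecke.heckeNorm Qb (X * q) ℓ f =
          algebraMap Qb (FB (X * q)) (u : Qb) * (f ^ aExp W p ℓ * g ^ p) := by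
    intro ℓ _ hℓ hℓS
    have hℓM : ¬ ℓ ∣ X * q := fun h => hℓS (P.bad_mem ℓ hℓ (Or.inl h))
    have hql : ¬ q ∣ ℓ := fun h =>
      hℓM (((Nat.prime_dvd_prime_iff_eq hq hℓ).mp h) ▸ dvd_mul_left q X)
    have : NeZero (((⟨ℓ, hℓ⟩ : Nat.Primes) : ℕ)) := ⟨hℓ.ne_zero⟩
    have hT : heckeOperatorBar (X * q) ⟨ℓ, hℓ⟩ (Pic0.mk D) =
        aExp W p ℓ • (Pic0.mk D : JZero (X * q)) := by
      rw [hDx, P.hecke ⟨ℓ, hℓ⟩ hℓS x hx]
      obtain ⟨t, ht⟩ : (p : ℤ) ∣ W.apOfModel ℓ - (aExp W p ℓ : ℤ) := by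
        rw [← ZMod.intCast_zmod_eq_zero_iff_dvd, Int.cast_sub, Int.cast_natCast, aExp,
          ZMod.natCast_zmod_val, sub_self]
      rw [show W.apOfModel ℓ = (aExp W p ℓ : ℤ) + t * p by linarith, add_zsmul, natCast_zsmul,
        mul_zsmul, natCast_zsmul, P.torsion x hx, zsmul_zero, add_zero]
    obtain ⟨c, h, hh, he⟩ := exists_heckeNorm_eq ⟨ℓ, hℓ⟩ hf0 D hD hT
    exact ⟨hql, hℓM, exists_unit_rel hA hq hp.ne_zero hql hℓ hℓM hfl hfu hh he⟩
  -- the second component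
  obtain ⟨z, -, hwu⟩ := exists_scale hA hq (w_mem_levelField hq C hfl) (by simpa using hf0)
  obtain ⟨y, hy⟩ : (p : ℤ) ∣ z := by
    obtain ⟨ℓ, hℓ, hℓS, hne⟩ := AtP.exists_prime_trace_ne hΔ hp2 hirr P.S
    have : NeZero ℓ := ⟨hℓ.ne_zero⟩
    obtain ⟨hql, hℓM, u, g, hu, hgu, hgl, he⟩ := hrel ℓ hℓ hℓS
    obtain ⟨hdvd, -⟩ := swap_rel hA hq hqX hql hℓ hℓM C hu hgl
      (fun h0 => hgu.ne_zero (by rw [h0]; rfl)) he hwu
    refine (Int.Prime.dvd_mul' hp hdvd).resolve_right fun h => hne ?_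
    rw [← ZMod.intCast_zmod_eq_zero_iff_dvd] at h
    push_cast at h
    rw [aExp, ZMod.natCast_zmod_val] at h
    linear_combination (sub_eq_zero.mp h).symm
  set f' : FB (X * q) := algebraMap Qb (FB (X * q)) ((q : Qb) ^ z) * C.w f with hf'
  refine ⟨f, gres A (f : LaurentSeries Qb), gres A (f' : LaurentSeries Qb), ⟨hf0, D, hDx, hD⟩,
    ⟨hf0, fun v => hD v ▸ dvd_mul_right _ _, hfl, w_mem_levelField hq C hfl, ?_, ?_,
      C.gres_mem hq hA HN hfu.mem, C.gres_mem hq hA HN hwu.mem, ?_, ?_⟩, P.S,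
    fun ℓ _ hℓ hℓS => ?_⟩
  · refine ⟨IsGaussUnit.gres_ne_zero hfu, 1, one_mem _, one_ne_zero, ?_⟩
    rw [map_one, one_pow, mul_one]
    exact ⟨hfu.mem, rfl⟩
  · refine ⟨IsGaussUnit.gres_ne_zero hwu, (q : Qb) ^ y, zpow_mem_inertiaField y,
      zpow_ne_zero _ hq0, ?_⟩
    have e : (C.w f : LaurentSeries Qb) * HahnSeries.C ((q : Qb) ^ y) ^ p =
        (f' : LaurentSeries Qb) := by
      rw [hf', IntermediateField.coe_mul, coe_constFB, hy, ← map_pow, ← zpow_natCast, ← zpow_mul,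
        mul_comm y, mul_comm]
    rw [e]
    exact ⟨hwu.mem, rfl⟩
  · have h1 : X * 1 ∣ X * q := mul_dvd_mul_left X (one_dvd q)
    obtain ⟨c, k, -, -, hck⟩ := CarayolReduction.norm_eq_of_pushPic_eq_zero
      (CarayolReduction.dilHom X (X * q) 1 h1) D (hDx ▸ P.push_one h1 x hx) hf0 hD
    rw [CarayolReduction.dilHom_eq_alpha] at hck
    exact ⟨c, k, hck⟩
  · obtain ⟨c, k, -, -, hck⟩ := CarayolReduction.norm_eq_of_pushPic_eq_zero
      (CarayolReduction.dilHom X (X * q) q dvd_rfl) D (hDx ▸ P.push_q dvd_rfl x hx) hf0 hD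
    rw [CarayolReduction.dilHom_eq_beta] at hck
    exact ⟨c, k, hck⟩
  · obtain ⟨hql, hℓM, u, g, hu, hgu, hgl, he⟩ := hrel ℓ hℓ hℓS
    obtain ⟨-, g', hgu', he'⟩ := swap_rel hA hq hqX hql hℓ hℓM C hu hgl
      (fun h0 => hgu.ne_zero (by rw [h0]; rfl)) he hwu
    exact ⟨heckeResidue_of_rel hA hq hql hℓ hℓM C HN hfu hgu hu he,
      heckeResidue_of_rel hA hq hql hℓ hℓM C HN hwu hgu' hu he'⟩

end Fermat.Agent.LevelLowering.Away
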