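import Fermat.Agent.CarayolReduction.NormComm
import Fermat.Agent.GoodReductionS18.Model.Export
import Fermat.Agent.HeckeCommute

/-!
# Norms and reduction along a map of levels prime to the residue characteristic

If a finite extension of function fields reduces to one of the same degree, lifts of a basis of
the residual extension form an integral basis, so the residue of a norm is the norm of the residue.
For the inclusion of level `X` in level `Y`, both degrees are `ψ(Y) / ψ(X)`.
-/

set_option autoImplicit false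

noncomputable section

open AlgebraicCurve ModularCurve IntermediateField
open Fermat.Agent.CarayolReduction (nmAlong dilHom)

namespace Fermat.Agent.LevelLowering.Away

section Generic

variable {K k F₀ κ₀ F κ : Type*} [Field K] [Field k] [Field F₀] [Field κ₀] [Field F] [Field κ]
variable [Algebra K F₀] [Algebra k κ₀] [Algebra K F] [Algebra k κ]
variable {A : ValuationSubring K} {π : A →+* k}
variable (red₀ : GoodReduction.Reduction F₀ κ₀ A π) (red : GoodReduction.Reduction F κ A π)
variable (ι : F₀ →ₐ[K] F) (j : κ₀ →ₐ[k] κ)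

/-- The residue of the norm is the norm of the residue, in an extension without loss of degree. -/
theorem exists_norm_res (hcompat : ∀ x : red₀.V, ∃ y : red.V, (y : F) = ι x ∧
      red.res y = j (red₀.res x))
    (hfin : FiniteAlong k j) (hdeg : finrankAlong K ι = finrankAlong k j)
    (hsurj : Function.Surjective red.res) (x : red.V) :
    ∃ x₀ : red₀.V, (x₀ : F₀) = nmAlong ι (x : F) ∧ red₀.res x₀ = nmAlong j (red.res x) := by
  classical
  let := algebraAlong ι
  let := algebraAlong j
  have : Module.Finite κ₀ κ := hfin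
  set n := Module.finrank κ₀ κ with hn
  let bb : Module.Basis (Fin n) κ₀ κ := Module.finBasis κ₀ κ
  choose b hb using fun i => hsurj (bb i)
  -- residues of combinations with integral coefficients
  have hres : ∀ c : Fin n → red₀.V, ∃ y : red.V,
      (y : F) = ∑ i, (c i : F₀) • (b i : F) ∧ red.res y = ∑ i, red₀.res (c i) • bb i := by
    intro c
    choose y hy hy' using fun i => hcompat (c i)
    refine ⟨∑ i, y i * b i, ?_, ?_⟩
    · push_cast
      refine Finset.sum_congr rfl fun i _ => ?_
      rw [hy, Algebra.smul_def]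
      rfl
    · rw [map_sum]
      refine Finset.sum_congr rfl fun i _ => ?_
      rw [map_mul, hy', hb, Algebra.smul_def]
      rfl
  -- normalisation of the coefficients
  have hscale : ∀ a : Fin n → F₀, (∃ i, a i ≠ 0) → ∃ (c : K) (a' : Fin n → red₀.V),
      c ≠ 0 ∧ (∀ i, (a' i : F₀) = c • a i) ∧ ∃ i, red₀.res (a' i) ≠ 0 := by
    intro a ⟨i₁, hi₁⟩
    have hx : ∀ i, ∃ (c : K) (x : red₀.V), c ≠ 0 ∧ (x : F₀) = c • a i ∧
        (a i ≠ 0 → red₀.res x ≠ 0) := fun i => by
      rcases eq_or_ne (a i) 0 with h | h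
      · exact ⟨1, 0, one_ne_zero, by simp [h], fun h' => absurd h h'⟩
      · obtain ⟨c, hc, x, hx, hx0⟩ := red₀.exists_smul_res_ne_zero h
        exact ⟨c, x, hc, hx, fun _ => hx0⟩
    choose c x hc hx hx0 using hx
    obtain ⟨i₀, hi₀, hmin⟩ := (Finset.univ.filter fun i => a i ≠ 0).exists_min_image
      (fun i => A.valuation (c i)) ⟨i₁, by simp [hi₁]⟩
    have hmem : ∀ i, a i ≠ 0 → c i₀ / c i ∈ A := fun i hi => by
      rw [← A.valuation_le_one_iff, map_div₀]
      exact div_le_one_of_le₀ (hmin i (by simp [hi])) zero_le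
    have ha' : ∀ i, c i₀ • a i ∈ red₀.V := fun i => by
      rcases eq_or_ne (a i) 0 with h | h
      · rw [h, smul_zero]; exact zero_mem _
      · rw [show c i₀ • a i = algebraMap K F₀ (c i₀ / c i) * (c i • a i) by
          rw [← Algebra.smul_def, smul_smul, div_mul_cancel₀ _ (hc i)], ← hx i]
        exact mul_mem (red₀.algebraMap_mem ⟨_, hmem i h⟩) (x i).2
    refine ⟨c i₀, fun i => ⟨_, ha' i⟩, hc i₀, fun i => rfl, i₀, ?_⟩
    show red₀.res ⟨c i₀ • a i₀, ha' i₀⟩ ≠ 0
    rw [show (⟨c i₀ • a i₀, ha' i₀⟩ : red₀.V) = x i₀ from Subtype.ext (hx i₀).symm]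
    exact hx0 i₀ (Finset.mem_filter.mp hi₀).2
  have hne : ∀ c : Fin n → κ₀, (∃ i, c i ≠ 0) → ∑ i, c i • bb i ≠ 0 := fun c ⟨i, hi⟩ h =>
    hi (Fintype.linearIndependent_iff.mp bb.linearIndependent c h i)
  -- the lifts are independent
  have hli : LinearIndependent F₀ fun i => (b i : F) := by
    rw [Fintype.linearIndependent_iff]
    intro a ha i
    by_contra hai
    obtain ⟨c, a', hc, ha', hex⟩ := hscale a ⟨i, hai⟩
    obtain ⟨y, hy, hy'⟩ := hres a'
    refine hne _ hex ?_
    rw [← hy', show y = 0 from Subtype.ext ?_, map_zero]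
    rw [hy, ZeroMemClass.coe_zero]
    calc ∑ i, (a' i : F₀) • (b i : F) = ∑ i, algebraMap K F₀ c • (a i • (b i : F)) :=
          Finset.sum_congr rfl fun i _ => by rw [ha', smul_smul, ← Algebra.smul_def]
      _ = 0 := by rw [← Finset.smul_sum, ha, smul_zero]
  have hd : Module.finrank F₀ F = n := hdeg
  rcases Nat.eq_zero_or_pos n with h0 | hpos
  · exact absurd (Module.finrank_eq_zero_iff_of_free (R := κ₀) (M := κ) |>.mp h0)
      (not_subsingleton κ)
  have : Nonempty (Fin n) := ⟨⟨0, hpos⟩⟩
  let B : Module.Basis (Fin n) F₀ F :=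
    basisOfLinearIndependentOfCardEqFinrank hli (by rw [Fintype.card_fin, hd])
  have hB : ∀ i, B i = b i := fun i => by simp [B]
  -- integrality of the coordinates
  have hint : ∀ z : red.V, ∀ i, B.repr (z : F) i ∈ red₀.V := by
    intro z
    set a : Fin n → F₀ := fun i => B.repr (z : F) i with ha
    by_cases hall : ∃ i, a i ≠ 0
    swap
    · intro i
      push Not at hall
      rw [show B.repr (z : F) i = 0 from hall i]
      exact zero_mem _
    obtain ⟨c, a', hc, ha', hex⟩ := hscale a hall
    obtain ⟨y, hy, hy'⟩ := hres a'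
    have hsum : ∑ i, a i • (b i : F) = z := by simpa [hB, ha] using B.sum_repr (z : F)
    have hyz : (y : F) = algebraMap K F c * z := by
      rw [hy, ← hsum, Finset.mul_sum]
      refine Finset.sum_congr rfl fun i _ => ?_
      rw [ha', Algebra.smul_def, Algebra.smul_def, Algebra.smul_def, ← mul_assoc]
      refine congrArg (· * (b i : F)) ?_
      rw [map_mul]
      exact congrArg (· * _) (ι.commutes c)
    have hcinv : c⁻¹ ∈ A := by
      by_contra hcinv
      have hcA : c ∈ A := (A.mem_or_inv_mem c).resolve_right hcinv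
      have hnu : ¬ IsUnit (⟨c, hcA⟩ : A) := by
        rintro ⟨v, hv⟩
        have h1 : ((v : A) : K) * ((↑v⁻¹ : A) : K) = 1 := congrArg Subtype.val v.mul_inv
        rw [hv] at h1
        exact hcinv (eq_inv_of_mul_eq_one_right h1 ▸ (↑v⁻¹ : A).2)
      refine hne _ hex ?_
      rw [← hy', show y = ⟨_, red.algebraMap_mem ⟨c, hcA⟩⟩ * z from Subtype.ext hyz, map_mul,
        red.res_algebraMap, (red.map_eq_zero_iff _).mpr hnu, map_zero, zero_mul]
    intro i
    show a i ∈ red₀.V
    rw [show a i = algebraMap K F₀ c⁻¹ * a' i by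
      rw [ha', ← Algebra.smul_def, inv_smul_smul₀ hc]]
    exact mul_mem (red₀.algebraMap_mem ⟨_, hcinv⟩) (a' i).2
  -- the matrix of the multiplication
  let M₀ : Matrix (Fin n) (Fin n) red₀.V := fun i l =>
    ⟨Algebra.leftMulMatrix B (x : F) i l, by
      rw [Algebra.leftMulMatrix_eq_repr_mul, hB]
      exact hint (x * b l) i⟩
  refine ⟨M₀.det, ?_, ?_⟩
  · show red₀.V.subtype M₀.det = Algebra.norm F₀ (x : F)
    rw [RingHom.map_det, Algebra.norm_eq_matrix_det B]
    rfl
  · show red₀.res M₀.det = Algebra.norm κ₀ (red.res x)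
    rw [RingHom.map_det, Algebra.norm_eq_matrix_det bb]
    congr 1
    ext i l
    obtain ⟨y, hy, hy'⟩ := hres fun i => M₀ i l
    have hxy : y = x * b l := Subtype.ext <| by
      rw [hy]
      have := B.sum_repr ((x : F) * (b l : F))
      simpa [M₀, hB, Algebra.leftMulMatrix_eq_repr_mul] using this
    rw [hxy, map_mul, hb] at hy'
    rw [Algebra.leftMulMatrix_eq_repr_mul, hy', Module.Basis.repr_sum_self]
    rfl

end Generic

section Levels

local notation "Qb" => AlgebraicClosure ℚ

variable (k : Type*) [Field k]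

/-- The residual fields of level increase along divisibility. -/
theorem fullC_le_of_dvd {X Y : ℕ} (h : X ∣ Y) :
    modularFunctionFieldFullC k X ≤ modularFunctionFieldFullC k Y := by
  rw [modularFunctionFieldFullC, adjoin_le_iff]
  rintro _ ⟨d, hd0, hd, rfl⟩
  exact @jqModCd_mem_full k _ Y d hd0 (hd.trans h)

/-- The inclusion of level `X` in level `Y` has degree `ψ(Y) / ψ(X)` on the residual fields. -/
theorem finrankAlong_inclusion {X Y : ℕ} [NeZero X] [NeZero Y] (h : X ∣ Y) (hY : (Y : k) ≠ 0) :
    dedekindPsi X * finrankAlong k (IntermediateField.inclusion (fullC_le_of_dvd k h)) =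
      dedekindPsi Y := by
  have hX : (X : k) ≠ 0 := by
    obtain ⟨d, rfl⟩ := h
    rw [Nat.cast_mul] at hY
    exact left_ne_zero_of_mul hY
  have hle : ModularFunctionField.jField k ≤ modularFunctionFieldFullC k X :=
    adjoin_simple_le_iff.mpr (jqModC_mem_full k X)
  have key := relfinrank_mul_relfinrank hle (fullC_le_of_dvd k h)
  rw [GoodReductionS18.relfinrank_jField_fullC k X hX,
    GoodReductionS18.relfinrank_jField_fullC k Y hY,
    relfinrank_eq_finrank_of_le (fullC_le_of_dvd k h)] at key
  exact key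

/-- The inclusion of levels on the residual fields is finite. -/
theorem finite_inclusion {X Y : ℕ} [NeZero X] [NeZero Y] (h : X ∣ Y) (hY : (Y : k) ≠ 0) :
    FiniteAlong k (IntermediateField.inclusion (fullC_le_of_dvd k h)) := by
  let := algebraAlong (IntermediateField.inclusion (fullC_le_of_dvd k h))
  refine Module.finite_of_finrank_pos (Nat.pos_of_ne_zero fun h0 => HeckeCommute.dedekindPsi_ne_zero Y ?_)
  rw [← finrankAlong_inclusion k h hY]
  exact mul_eq_zero_of_right _ h0

end Levels

end Fermat.Agent.LevelLowering.Away
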