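import Fermat.Agent.LevelLowering.Away.Defs
import Fermat.Agent.LevelLowering.Away.NormGauss
import Fermat.Agent.MazurPoint.ReductionKernel
import Fermat.Agent.Specialization.Gauss

/-!
# The class attached to a residue with orders divisible by `p`

A residue `u` of level `X` with divisor `p E` at the auxiliary level lifts to a divisor class of
`J₀(X)` which is an eigen class modulo the kernel of reduction; if it lies in the kernel, `u` is a
`p`-th power.
-/

set_option autoImplicit false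

noncomputable section

attribute [-instance] IsLocalRing.ResidueField.algebraOfIsIntegral
attribute [local instance 2000] SubalgebraClass.toAlgebra

open AlgebraicCurve ModularCurve
open Fermat.Agent.GoodReduction Fermat.Agent.Specialization
open Fermat.Agent.GoodReductionModular (GaussInput gaussReduction exists_gaussReduction_quotient
  gaussReduction_res_eq)
open Fermat.Agent.MazurPoint (divisorKernel mk_mem_divisorKernel exists_norm_residue
  lowerDivMap_hecke_eq_zero map_eq_zero_of_lowerDivMap_eq_zero)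
open Fermat.Agent.CarayolReduction (nmAlong dilHom dilHom_integral coe_dilHom)
open Fermat.Agent.ModularFunctionField (twist)

namespace Fermat.Agent.LevelLowering.Away

local notation "Qb" => AlgebraicClosure ℚ
local notation "FB" => modularFunctionFieldBar

section General

variable {K F : Type*} [Field K] [Field F] [Algebra K F]

theorem pullbackAlong_id [HasPrincipalDivisors K F] (h : (AlgHom.id K F).toRingHom.IsIntegral)
    (D : Divisor K F) : Divisor.pullbackAlong (AlgHom.id K F) h D = D := by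
  ext w
  let := algebraAlong (AlgHom.id K F)
  have := isScalarTower_along (AlgHom.id K F)
  have := isIntegral_along (AlgHom.id K F) h
  show Divisor.pullback F D w = D w
  rw [Divisor.pullback_apply]
  have hr : w.restrict F = w := Place.ext (SetLike.ext fun x => Iff.rfl)
  obtain ⟨g, -, hg⟩ := w.exists_ord_eq_ramificationIndex (F := F)
  have h1 := w.ord_restrict (F := F) g
  rw [hr, hg] at h1
  rw [show w.ord g = w.ord (algebraMap F F g) from rfl, hg] at h1
  have he := w.ramificationIndex_pos (F := F)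
  rw [hr, show ((w.ramificationIndex F : ℕ) : ℤ) = 1 by nlinarith, one_mul]

theorem scales_pushforwardAlong {F₀ : Type*} [Field F₀] [Algebra K F₀] (φ : F₀ →ₐ[K] F)
    (hφ : φ.toRingHom.IsIntegral) : Scales (Divisor.pushforwardAlong φ hφ) 1 := by
  classical
  refine ⟨fun D hD v => ?_, fun D => by
    rw [Divisor.degree_pushforwardAlong, Nat.cast_one, one_mul]⟩
  let := algebraAlong φ
  have := isScalarTower_along φ
  have := isIntegral_along φ hφ
  show 0 ≤ Divisor.pushforward F₀ D v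
  rw [Divisor.pushforward_apply]
  refine Finset.sum_nonneg fun w _ => ?_
  split
  · exact mul_nonneg (hD w) (Int.natCast_nonneg _)
  · exact le_rfl

theorem div_pow' {g : ℕ} {c : ℤ} (R : RiemannData K F g c) (f : F) (n : ℕ) :
    R.div (f ^ n) = n • R.div f :=
  Finsupp.ext fun v => by rw [Finsupp.smul_apply, R.div_apply, R.div_apply, ord_pow', nsmul_eq_mul]

/-- A function whose divisor is `p / d` times that of another, `d` prime to `p`, is a `p`-th
power. -/
theorem exists_pow_eq_of_div_eq [IsAlgClosed K] {F₀ : Type*} [Field F₀] [Algebra K F₀]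
    {g : ℕ} {c : ℤ} (R : RiemannData K F g c) (j : F₀ →ₐ[K] F) {p d : ℕ} (hp : p ≠ 0)
    (hcop : d.Coprime p) {u w : F₀} (hu : u ≠ 0) (hw : w ≠ 0)
    (h : p • R.div (j w) = d • R.div (j u)) : ∃ v : F₀, u = v ^ p := by
  have hju : j u ≠ 0 := (map_ne_zero j).mpr hu
  have hjw : j w ≠ 0 := (map_ne_zero j).mpr hw
  obtain ⟨c₁, hc₁⟩ := R.mem_LSpace_zero (f := j u ^ d * (j w ^ p)⁻¹) (by
    refine (mem_LSpace (mul_ne_zero (pow_ne_zero _ hju) (inv_ne_zero (pow_ne_zero _ hjw)))).mpr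
      fun v => ?_
    have h1 := congrArg (fun Z : Divisor K F => Z v) h
    simp only [Finsupp.smul_apply, nsmul_eq_mul, R.div_apply] at h1
    rw [Finsupp.coe_zero, Pi.zero_apply, v.ord_mul (pow_ne_zero _ hju)
      (inv_ne_zero (pow_ne_zero _ hjw)), v.ord_inv, ord_pow', ord_pow', ← h1]
    omega)
  obtain ⟨c₂, hc₂⟩ := IsAlgClosed.exists_pow_nat_eq c₁ (Nat.pos_of_ne_zero hp)
  obtain ⟨v₀, hv₀⟩ : ∃ v₀, v₀ = algebraMap K F₀ c₂ * w := ⟨_, rfl⟩
  have hpow : u ^ d = v₀ ^ p := by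
    have : u ^ d = algebraMap K F₀ c₁ * w ^ p := j.toRingHom.injective (by
      show j (u ^ d) = j (algebraMap K F₀ c₁ * w ^ p)
      rw [map_mul, AlgHom.commutes, hc₁, map_pow, map_pow,
        inv_mul_cancel_right₀ (pow_ne_zero _ hjw)])
    rw [this, hv₀, mul_pow, ← map_pow, hc₂]
  obtain ⟨s, t, hst⟩ := Nat.isCoprime_iff_coprime.mpr hcop
  refine ⟨v₀ ^ s * u ^ t, ?_⟩
  calc u = u ^ ((d : ℤ) * s + (p : ℤ) * t) := by
        rw [mul_comm (d : ℤ), mul_comm (p : ℤ), hst, zpow_one]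
    _ = (v₀ ^ p) ^ s * (u ^ p) ^ t := by
        rw [zpow_add₀ hu, zpow_mul, zpow_mul, zpow_natCast, zpow_natCast, hpow]
    _ = (v₀ ^ s * u ^ t) ^ p := by
        rw [mul_pow, ← zpow_natCast (v₀ ^ s), ← zpow_natCast (u ^ t), ← zpow_mul, ← zpow_mul,
          mul_comm s, mul_comm t, zpow_mul, zpow_mul, zpow_natCast, zpow_natCast]

theorem mk_nsmul' (n : ℕ) (D : Divisor.degZero (K := K) (F := F)) :
    Pic0.mk (n • D) = n • Pic0.mk D :=
  map_nsmul (QuotientAddGroup.mk' _) n D

theorem mk_eq_of_sub_principal {D E : Divisor.degZero (K := K) (F := F)}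
    (h : ((D : Divisor K F) - E) ∈ Divisor.principal (K := K) (F := F)) :
    Pic0.mk D = Pic0.mk E := by
  refine (QuotientAddGroup.eq_iff_sub_mem).mpr ?_
  exact AddSubgroup.mem_addSubgroupOf.mpr h

end General

/-- The Hecke operator on classes of degree zero is given by a positive map on divisors. -/
theorem exists_heckeBar_eq (N : ℕ) [NeZero N] {ℓ : ℕ} [NeZero ℓ] (hℓ : ℓ.Prime) :
    ∃ (T : Divisor Qb (FB N) →+ Divisor Qb (FB N)) (b : ℕ), Scales T b ∧
      (∀ (f : FB N) (D : Divisor Qb (FB N)), f ≠ 0 → (∀ v, D v = v.ord f) →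
        ∀ v, T D v = v.ord (Hecke.heckeNorm Qb N ℓ f)) ∧
      ∀ D : Divisor.degZero (K := Qb) (F := FB N),
        ∃ h : T (D : Divisor Qb (FB N)) ∈ Divisor.degZero (K := Qb) (F := FB N),
          heckeOperatorBar N ⟨ℓ, hℓ⟩ (Pic0.mk D) = Pic0.mk ⟨T (D : Divisor Qb (FB N)), h⟩ := by
  obtain ⟨hα, hβ, hP, hfin, hFI, hNF, hop⟩ := Hecke.heckeOperatorAlong_eq_pic0 Qb N ℓ
  refine ⟨heckeDivBar hα hβ, _, scales_heckeDivBar hα hβ hFI,
    fun f D hf hD => Hecke.heckeDivBar_principal hα hβ hfin hNF hf hD,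
    fun D => ⟨Divisor.correspondence_mem_degZero _ _ hβ hα hFI D.2, ?_⟩⟩
  refine (heckeOperatorBar_apply N ⟨ℓ, hℓ⟩ (Pic0.mk D)).trans ?_
  show heckeOperatorAlong Qb N ℓ (Pic0.mk D) = _
  rw [hop]
  exact Pic0.correspondence_mk _ _ hβ hα hFI hfin hNF D

/-- A primitive root of prime order of the residue field lifts. -/
theorem exists_unit_lift (A : ValuationSubring Qb) {ℓ : ℕ} (hℓ : ℓ.Prime)
    (hℓk : (ℓ : IsLocalRing.ResidueField A) ≠ 0) {z : (IsLocalRing.ResidueField A)ˣ}
    (hz : IsPrimitiveRoot z ℓ) :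
    ∃ u : Aˣ, IsPrimitiveRoot (Units.map (A.subtype : A →* Qb) u) ℓ ∧
      Units.map (IsLocalRing.residue A : A →* IsLocalRing.ResidueField A) u = z := by
  have : NeZero ℓ := ⟨hℓ.ne_zero⟩
  have : NeZero ((ℓ : ℕ) : Qb) := ⟨Nat.cast_ne_zero.mpr hℓ.ne_zero⟩
  obtain ⟨z₀, hz₀⟩ := HasEnoughRootsOfUnity.exists_primitiveRoot Qb ℓ
  obtain ⟨z₁, rfl⟩ := hz₀.isUnit hℓ.ne_zero
  replace hz₀ := IsPrimitiveRoot.coe_units_iff.mp hz₀
  obtain ⟨u, hu, -⟩ := exists_unit_val_eq A hℓ.ne_zero hz₀.pow_eq_one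
  rw [← hu] at hz₀
  have huA : IsPrimitiveRoot ((u : A)) ℓ :=
    IsPrimitiveRoot.of_map_of_injective
      (f := A.subtype) (IsPrimitiveRoot.coe_units_iff.mpr hz₀) Subtype.val_injective
  set π := IsLocalRing.residue A with hπ
  have hub : IsPrimitiveRoot (π (u : A)) ℓ := by
    have h1 : π (u : A) ^ ℓ = 1 := by rw [← map_pow, huA.pow_eq_one, map_one]
    have h2 : π (u : A) ≠ 1 := by
      intro h
      apply hℓk
      have h3 := congrArg π (huA.geom_sum_eq_zero hℓ.one_lt)
      rw [map_sum, map_zero, Finset.sum_congr rfl fun i _ => by rw [map_pow, h, one_pow],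
        Finset.sum_const, Finset.card_range, nsmul_one] at h3
      exact h3
    have : Fact ℓ.Prime := ⟨hℓ⟩
    have h4 := IsPrimitiveRoot.orderOf (π (u : A))
    rwa [orderOf_eq_prime h1 h2] at h4
  have hz' := IsPrimitiveRoot.coe_units_iff.mpr hz
  obtain ⟨i, hi, hiz⟩ := hub.eq_pow_of_pow_eq_one hz'.pow_eq_one
  have hi0 : ¬ ℓ ∣ i := fun hd => by
    have hi0 := Nat.eq_zero_of_dvd_of_lt hd hi
    rw [hi0, pow_zero] at hiz
    exact hℓ.one_lt.ne' (hz'.unique (hiz ▸ IsPrimitiveRoot.one))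
  refine ⟨u ^ i, ?_, Units.ext ?_⟩
  · rw [map_pow]
    exact hz₀.pow_of_coprime i (hℓ.coprime_iff_not_dvd.mpr hi0).symm
  · show π ((u ^ i : Aˣ) : A) = z
    rw [Units.val_pow_eq_pow_val, map_pow, hiz]

section Core

variable {A : ValuationSubring Qb}

variable {N M : ℕ} [NeZero N] [NeZero M] {g : ℕ} {c : ℤ} {H : Divisor Qb (FB M)}
  {Hb : Divisor (IsLocalRing.ResidueField A)
    (modularFunctionFieldFullC (IsLocalRing.ResidueField A) M)}
  {red : Reduction (FB M) (modularFunctionFieldFullC (IsLocalRing.ResidueField A) M) A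
    (IsLocalRing.residue A)}
  (G : GoodModel red g c H Hb)
  (red₀ : Reduction (FB N) (modularFunctionFieldFullC (IsLocalRing.ResidueField A) N) A
    (IsLocalRing.residue A))
  (ι : FB N →ₐ[Qb] FB M) (hιint : ι.toRingHom.IsIntegral)
  (j : modularFunctionFieldFullC (IsLocalRing.ResidueField A) N →ₐ[IsLocalRing.ResidueField A]
    modularFunctionFieldFullC (IsLocalRing.ResidueField A) M)
  (hcompat : ∀ x : red₀.V, ∃ y : red.V, (y : FB M) = ι x ∧ red.res y = j (red₀.res x))
  (hfin : FiniteAlong (IsLocalRing.ResidueField A) j)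
  (hdeg : finrankAlong Qb ι = finrankAlong (IsLocalRing.ResidueField A) j)
  (hsurj : Function.Surjective red.res) (hsurj₀ : Function.Surjective red₀.res)

local notation "k" => IsLocalRing.ResidueField A
local notation "π" => IsLocalRing.residue A

include hcompat hfin hdeg hsurj

/-- Pushforward, pullback and reduction kill the kernel of reduction. -/
theorem lowerDivMap_push_eq_zero {E : Divisor Qb (FB M)} (hE : Divisor.degree E = 0)
    (hLE : G.divMap E = 0) :
    G.lowerDivMap ι hιint (Divisor.pushforwardAlong ι hιint E) = 0 := by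
  have hid : (AlgHom.id Qb (FB M)).toRingHom.IsIntegral :=
    Hecke.isIntegral_of_isFunctionField _
  have key : ∀ (f : FB M) (x : red.V), (x : FB M) = f → red.res x ≠ 0 →
      G.lowerDivMap ι hιint (Divisor.pushforwardAlong ι hιint (G.riemann.div f)) =
        G.riemann'.div (j (nmAlong j (red.res x))) := by
    intro f x hx hx0
    have hf : f ≠ 0 := hx ▸ red.coe_ne_zero hx0
    obtain ⟨x₀, h1, h2⟩ := exists_norm_res red₀ red ι j hcompat hfin hdeg hsurj x
    obtain ⟨y, hy, hy'⟩ := hcompat x₀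
    have hy0 : red.res y ≠ 0 := by
      rw [hy', h2, map_ne_zero]
      exact CarayolReduction.nmAlong_ne_zero hfin hx0
    rw [G.lowerDivMap_div ι hιint
      (f := nmAlong ι f) (fun v => CarayolReduction.pushforwardAlong_div ι hιint hf
        (fun w => G.riemann.div_apply f w) v) (x := y) (by rw [hy, h1, hx]) hy0, hy', h2]
  exact map_eq_zero_of_lowerDivMap_eq_zero G (AlgHom.id Qb (FB M)) hid
    (Hecke.fundamentalIdentityAlong _ hid) G.riemann
    (ψ := (G.lowerDivMap ι hιint).comp (Divisor.pushforwardAlong ι hιint))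
    ((scales_pushforwardAlong ι hιint).comp
      (G.scales_lowerDivMap ι hιint (Hecke.fundamentalIdentityAlong ι hιint)))
    (fun f f' x y hx hy hx0 hxy => by
      rw [AddMonoidHom.comp_apply, AddMonoidHom.comp_apply, key f x hx hx0,
        key f' y hy (hxy ▸ hx0), hxy])
    hE (by rw [G.lowerDivMap_apply, pullbackAlong_id, hLE])

omit hcompat hfin hdeg hsurj

/-- The reduction of the divisor of a Hecke norm, for a residue with a Hecke relation. -/
theorem lowerDivMap_hecke_div (hred : IsSeriesReduction red)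
    (hι : ∀ f, (ι f : LaurentSeries Qb) = (f : LaurentSeries Qb))
    (hj : ∀ y, (j y : LaurentSeries k) = (y : LaurentSeries k))
    {ℓ : ℕ} [NeZero ℓ] (hℓ : ℓ.Prime) (hℓN : ¬ ℓ ∣ N) (hℓk : (ℓ : k) ≠ 0)
    {T : Divisor Qb (FB N) →+ Divisor Qb (FB N)}
    (hTdiv : ∀ (f : FB N) (D : Divisor Qb (FB N)), f ≠ 0 → (∀ v, D v = v.ord f) →
      ∀ v, T D v = v.ord (Hecke.heckeNorm Qb N ℓ f))
    {φ : FB N} {D : Divisor Qb (FB N)} (hD : ∀ v, D v = v.ord φ) {x : red.V}
    (hx : (x : FB M) = ι φ) (hx0 : red.res x ≠ 0) {n a : ℕ} (hn : n ≠ 0)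
    (hrel : HeckeResidue A N n ℓ a (red.res x : LaurentSeries k)) :
    ∃ h : modularFunctionFieldFullC k N, h ≠ 0 ∧
      G.lowerDivMap ι hιint (T D) =
        a • G.riemann'.div (red.res x) + n • G.riemann'.div (j h) := by
  obtain ⟨z, c₀, h, hz, hc₀, hrel⟩ := hrel
  obtain ⟨u, hu, rfl⟩ := exists_unit_lift A hℓ hℓk hz
  have hφ : φ ≠ 0 := fun h0 => red.coe_ne_zero hx0 (by rw [hx, h0, map_zero])
  obtain ⟨x', hx', hx'0, hq⟩ := exists_norm_residue hred ι hι hℓ hℓN hu φ x hx hx0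
  have heq : red.res x' = algebraMap k (modularFunctionFieldFullC k M) c₀ * red.res x ^ a *
      j h ^ n := by
    refine Subtype.ext (qExpand_injective ℓ ?_)
    rw [hq, normSeries_apply]
    push_cast
    rw [hj, algebraMap_laurentSeries_eq_single, ← HahnSeries.C_apply, ← hrel,
      ← Fin.prod_univ_eq_prod_range]
  have hh : j h ≠ 0 := fun h0 => hx'0 (by rw [heq, h0, zero_pow hn, mul_zero])
  refine ⟨h, fun h0 => hh (by rw [h0, map_zero]), ?_⟩
  have hca : algebraMap k (modularFunctionFieldFullC k M) c₀ ≠ 0 := by simpa using hc₀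
  rw [G.lowerDivMap_div ι hιint (hTdiv φ D hφ hD) hx' hx'0, heq,
    G.riemann'.div_mul (mul_ne_zero hca (pow_ne_zero _ hx0)) (pow_ne_zero _ hh),
    G.riemann'.div_mul hca (pow_ne_zero _ hx0), div_pow', div_pow',
    ← G.riemann'.div_eq (D := (0 : Divisor k (modularFunctionFieldFullC k M)))
      (f := algebraMap k _ c₀) (fun v => by
        rw [ord_algebraMap_eq_zero, Finsupp.coe_zero, Pi.zero_apply]), zero_add]

variable {g₀ : ℕ} {c₀ : ℤ} (R₀ : RiemannData Qb (FB N) g₀ c₀)

include hιint hcompat hfin hdeg hsurj hsurj₀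

/-- The pushforward of a lift of `(1 / p) div u`. -/
theorem exists_lift_divisor {p : ℕ} (hp : p ≠ 0) {u : modularFunctionFieldFullC k N} (hu : u ≠ 0)
    {Eb : Divisor k (modularFunctionFieldFullC k M)} (hEb : p • Eb = G.riemann'.div (j u)) :
    ∃ (φ : red₀.V) (P E : Divisor Qb (FB N)),
      (φ : FB N) ≠ 0 ∧ Divisor.degree P = 0 ∧ Divisor.degree E = 0 ∧
      G.lowerDivMap ι hιint E = 0 ∧
      G.lowerDivMap ι hιint (R₀.div (φ : FB N)) = G.riemann'.div (j u) ∧
      p • P = E + finrankAlong k j • R₀.div (φ : FB N) ∧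
      (∃ x : red.V, (x : FB M) = ι φ ∧ red.res x = j u) := by
  classical
  obtain ⟨φ, hφu⟩ := hsurj₀ u
  obtain ⟨x, hx, hxu⟩ := hcompat φ
  rw [hφu] at hxu
  have hx0 : red.res x ≠ 0 := by rw [hxu]; exact (map_ne_zero j).mpr hu
  have hφ0 : (φ : FB N) ≠ 0 := red₀.coe_ne_zero (hφu ▸ hu)
  obtain ⟨D', hD'm⟩ : ∃ D' : Divisor Qb (FB M), G.divMap D' = Eb := by
    refine ⟨Finsupp.mapDomain (Function.surjInv G.placeMap_surjective) Eb, ?_⟩
    rw [G.divMap_apply, ← Finsupp.mapDomain_comp,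
      show G.placeMap ∘ Function.surjInv G.placeMap_surjective = id from
        funext (Function.surjInv_eq G.placeMap_surjective), Finsupp.mapDomain_id]
  have hD'0 : Divisor.degree D' = 0 := by
    have h1 := congrArg Divisor.degree hEb
    rw [map_nsmul, G.riemann'.degree_div, nsmul_eq_mul, mul_eq_zero] at h1
    rw [← G.degree_divMap, hD'm]
    exact h1.resolve_left (by exact_mod_cast hp)
  have hpush : Divisor.pushforwardAlong ι hιint (G.riemann.div (x : FB M)) =
      finrankAlong k j • R₀.div (φ : FB N) := by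
    rw [← div_pow']
    refine R₀.div_eq fun v => ?_
    rw [CarayolReduction.pushforwardAlong_div ι hιint (red.coe_ne_zero hx0)
      (fun w => G.riemann.div_apply _ w), hx, ← hdeg]
    let := algebraAlong ι
    exact congrArg v.ord (Algebra.norm_algebraMap (S := FB M) (φ : FB N))
  refine ⟨φ, Divisor.pushforwardAlong ι hιint D',
    Divisor.pushforwardAlong ι hιint (p • D' - G.riemann.div (x : FB M)), hφ0, ?_, ?_, ?_, ?_, ?_,
    x, hx, hxu⟩
  · rw [Divisor.degree_pushforwardAlong, hD'0]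
  · rw [Divisor.degree_pushforwardAlong, map_sub, map_nsmul, hD'0, smul_zero,
      G.riemann.degree_div, sub_zero]
  · refine lowerDivMap_push_eq_zero G red₀ ι hιint j hcompat hfin hdeg hsurj ?_ ?_
    · rw [map_sub, map_nsmul, hD'0, smul_zero, G.riemann.degree_div, sub_zero]
    · rw [map_sub, map_nsmul, hD'm, G.divMap_div hx0, hEb, hxu, sub_self]
  · rw [G.lowerDivMap_div ι hιint (fun v => R₀.div_apply _ v) hx hx0, hxu]
  · rw [← hpush, ← map_add, sub_add_cancel, map_nsmul]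

omit hfin hdeg hsurj hsurj₀

/-- If the lifted class lies in the kernel of reduction, the residue is a power. -/
theorem isResiduePow_of_mem_kernel [IsAlgClosed k] {p d : ℕ} (hp : p ≠ 0) (hcop : d.Coprime p)
    {u : modularFunctionFieldFullC k N} (hu : u ≠ 0)
    {D : Divisor.degZero (K := Qb) (F := FB N)}
    (hLP : p • G.lowerDivMap ι hιint (D : Divisor Qb (FB N)) = d • G.riemann'.div (j u))
    (hy : (Pic0.mk D : JZero N) ∈ divisorKernel G ι hιint) :
    IsResiduePow A p N (u : LaurentSeries k) := by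
  obtain ⟨DK, hDK, hmk⟩ := hy
  rw [Pic0.mk, Pic0.mk, eq_comm, QuotientAddGroup.eq_iff_sub_mem,
    AddSubgroup.mem_addSubgroupOf, AddSubgroupClass.coe_sub] at hmk
  obtain ⟨f, hf, hfv⟩ := hmk
  obtain ⟨a, ha, w, hw, hw0⟩ := red₀.exists_smul_res_ne_zero hf
  obtain ⟨w', hw', hw'res⟩ := hcompat w
  have hjW : j (red₀.res w) ≠ 0 := (map_ne_zero j).mpr hw0
  have hdiv : G.lowerDivMap ι hιint ((D : Divisor Qb (FB N)) - DK) =
      G.riemann'.div (j (red₀.res w)) := by
    rw [← hw'res]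
    refine G.lowerDivMap_div ι hιint (f := a • f) (fun v => ?_) (by rw [hw', hw])
      (by rw [hw'res]; exact hjW)
    rw [hfv v, Algebra.smul_def, v.ord_mul (by simpa using ha) hf, ord_algebraMap_eq_zero, zero_add]
  rw [map_sub, hDK, sub_zero] at hdiv
  rw [hdiv] at hLP
  obtain ⟨v₀, hv₀⟩ := exists_pow_eq_of_div_eq G.riemann' j hp hcop hu hw0 hLP
  exact ⟨v₀, by rw [hv₀, IntermediateField.coe_pow]⟩

include hsurj₀

/-- The lifted class is an eigen class modulo the kernel of reduction. -/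
theorem hecke_sub_mem_kernel (hred : IsSeriesReduction red)
    (hι : ∀ f, (ι f : LaurentSeries Qb) = (f : LaurentSeries Qb))
    (hj : ∀ y, (j y : LaurentSeries k) = (y : LaurentSeries k))
    {ℓ : ℕ} (hℓ : ℓ.Prime) (hℓN : ¬ ℓ ∣ N) (hℓk : (ℓ : k) ≠ 0)
    {p d a : ℕ} (hp : p ≠ 0) {u : modularFunctionFieldFullC k N} (hu : u ≠ 0)
    (hrel : haveI : NeZero ℓ := ⟨hℓ.ne_zero⟩; HeckeResidue A N p ℓ a (u : LaurentSeries k))
    {φ : FB N} {x : red.V} (hx : (x : FB M) = ι φ) (hxu : red.res x = j u)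
    {D : Divisor.degZero (K := Qb) (F := FB N)} {E : Divisor Qb (FB N)}
    (hE0 : Divisor.degree E = 0) (hLE : G.lowerDivMap ι hιint E = 0)
    (hpP : p • (D : Divisor Qb (FB N)) = E + d • R₀.div φ) :
    heckeOperatorBar N ⟨ℓ, hℓ⟩ (Pic0.mk D) - a • Pic0.mk D ∈ divisorKernel G ι hιint := by
  have : NeZero ℓ := ⟨hℓ.ne_zero⟩
  have hx0 : red.res x ≠ 0 := by rw [hxu]; exact (map_ne_zero j).mpr hu
  obtain ⟨T, b, hT, hTdiv, hgen⟩ := exists_heckeBar_eq N hℓ
  obtain ⟨hTP, hgen⟩ := hgen D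
  obtain ⟨h, hh, hLT⟩ := lowerDivMap_hecke_div G ι hιint j hred hι hj hℓ hℓN hℓk
    hTdiv (fun v => R₀.div_apply φ v) hx hx0 hp (by rw [hxu, hj]; exact hrel)
  rw [hxu] at hLT
  obtain ⟨φh, hφh⟩ := hsurj₀ h
  obtain ⟨xh, hxh, hxhres⟩ := hcompat φh
  rw [hφh] at hxhres
  have hxh0 : red.res xh ≠ 0 := by rw [hxhres]; exact (map_ne_zero j).mpr hh
  have hφh0 : (φh : FB N) ≠ 0 := red₀.coe_ne_zero (hφh ▸ hh)
  have hLh : G.lowerDivMap ι hιint (R₀.div (φh : FB N)) = G.riemann'.div (j h) := by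
    rw [G.lowerDivMap_div ι hιint (fun v => R₀.div_apply _ v) hxh hxh0, hxhres]
  have hLφ : G.lowerDivMap ι hιint (R₀.div φ) = G.riemann'.div (j u) := by
    rw [G.lowerDivMap_div ι hιint (fun v => R₀.div_apply _ v) hx hx0, hxu]
  have hTE : G.lowerDivMap ι hιint (T E) = 0 :=
    lowerDivMap_hecke_eq_zero G ι hιint hred hι hℓ hℓN hT hTdiv hE0 hLE
  set P : Divisor Qb (FB N) := (D : Divisor Qb (FB N)) with hP
  have hLP : p • G.lowerDivMap ι hιint P = d • G.riemann'.div (j u) := by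
    rw [← map_nsmul, hpP, map_add, hLE, map_nsmul, hLφ, zero_add]
  have hzero : G.lowerDivMap ι hιint (T P - a • P - d • R₀.div (φh : FB N)) = 0 := by
    have h1 : p • G.lowerDivMap ι hιint (T P - a • P - d • R₀.div (φh : FB N)) = 0 := by
      have h2 : p • G.lowerDivMap ι hιint (T P) =
          d • (a • G.riemann'.div (j u) + p • G.riemann'.div (j h)) := by
        rw [← map_nsmul, ← map_nsmul, hpP, map_add, map_add, hTE, map_nsmul, map_nsmul,
          hLT, zero_add]
      rw [map_sub, map_sub, map_nsmul, map_nsmul, hLh, nsmul_sub, nsmul_sub, h2,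
        smul_comm p a, hLP]
      simp only [nsmul_add, smul_smul]
      rw [mul_comm a d, mul_comm p d]
      abel
    exact (smul_eq_zero.mp h1).resolve_left hp
  have hz0 : T P - a • P - d • R₀.div (φh : FB N) ∈ Divisor.degZero (K := Qb) (F := FB N) := by
    refine sub_mem (sub_mem hTP (nsmul_mem D.2 _)) (nsmul_mem ?_ _)
    exact Divisor.mem_degZero.mpr (R₀.degree_div _)
  rw [hgen, ← mk_nsmul', show (Pic0.mk ⟨T P, hTP⟩ : JZero N) - Pic0.mk (a • D) =
    Pic0.mk ((⟨T P, hTP⟩ : Divisor.degZero (K := Qb) (F := FB N)) - a • D) from rfl,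
    mk_eq_of_sub_principal (E := ⟨_, hz0⟩)]
  · exact mk_mem_divisorKernel hzero
  · refine ⟨(φh : FB N) ^ d, pow_ne_zero _ hφh0, fun v => ?_⟩
    show (T P - a • P - (T P - a • P - d • R₀.div (φh : FB N)) : Divisor Qb (FB N)) v = _
    rw [sub_sub_cancel, ← div_pow', R₀.div_apply]

include hfin hdeg hsurj

/-- The lifted class is an eigen class outside the kernel, or the residue is a power. -/
theorem exists_eigen_or_isResiduePow [IsAlgClosed k] (hred : IsSeriesReduction red)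
    (hι : ∀ f, (ι f : LaurentSeries Qb) = (f : LaurentSeries Qb))
    (hj : ∀ y, (j y : LaurentSeries k) = (y : LaurentSeries k))
    {p : ℕ} (hp : p ≠ 0) (hcop : (finrankAlong k j).Coprime p)
    {u : modularFunctionFieldFullC k N} (hu : u ≠ 0)
    {Eb : Divisor k (modularFunctionFieldFullC k M)} (hEb : p • Eb = G.riemann'.div (j u))
    (S : Finset ℕ) (hSk : ∀ ℓ : ℕ, ℓ.Prime → ℓ ∉ S → (ℓ : k) ≠ 0) (e : ℕ → ℕ)
    (hrel : ∀ (ℓ : ℕ) [NeZero ℓ], ℓ.Prime → ℓ ∉ S →
      HeckeResidue A N p ℓ (e ℓ) (u : LaurentSeries k)) :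
    (∃ (K : AddSubgroup (JZero N)) (y : JZero N),
      (∀ ℓ : Nat.Primes, ¬ (ℓ : ℕ) ∣ N → ∀ x ∈ K, heckeOperatorBar N ℓ x ∈ K) ∧
      y ∉ K ∧ p • y ∈ K ∧
      ∀ ℓ : Nat.Primes, ¬ (ℓ : ℕ) ∣ N → (ℓ : ℕ) ∉ S → heckeOperatorBar N ℓ y - e ℓ • y ∈ K) ∨
    IsResiduePow A p N (u : LaurentSeries k) := by
  obtain ⟨b₀, hb₀⟩ := exists_riemannData Qb (FB N)
  set R₀ := hb₀ b₀ le_rfl with hR₀
  obtain ⟨φ, P, E, hφ0, hP, hE0, hLE, hLφ, hpP, x, hx, hxu⟩ :=
    exists_lift_divisor G red₀ ι hιint j hcompat hfin hdeg hsurj hsurj₀ R₀ hp hu hEb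
  by_cases hy : (Pic0.mk ⟨P, Divisor.mem_degZero.mpr hP⟩ : JZero N) ∈ divisorKernel G ι hιint
  · refine Or.inr (isResiduePow_of_mem_kernel G red₀ ι hιint j hcompat hp hcop hu ?_ hy)
    rw [← map_nsmul, hpP, map_add, hLE, map_nsmul, hLφ, zero_add]
  refine Or.inl ⟨divisorKernel G ι hιint, _, ?_, hy, ?_, ?_⟩
  · rintro ⟨ℓ, hℓ⟩ hℓN _ ⟨D, hD, rfl⟩
    have : NeZero ℓ := ⟨hℓ.ne_zero⟩
    obtain ⟨T, b, hT, hTdiv, hgen⟩ := exists_heckeBar_eq N hℓ
    obtain ⟨hTD, hgen⟩ := hgen D
    rw [hgen]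
    exact mk_mem_divisorKernel (lowerDivMap_hecke_eq_zero G ι hιint hred hι hℓ hℓN hT hTdiv
      (Divisor.mem_degZero.mp D.2) hD)
  · rw [← mk_nsmul', mk_eq_of_sub_principal (E := ⟨E, Divisor.mem_degZero.mpr hE0⟩)]
    · exact mk_mem_divisorKernel hLE
    · refine ⟨(φ : FB N) ^ finrankAlong k j, pow_ne_zero _ hφ0, fun v => ?_⟩
      show (p • P - E : Divisor Qb (FB N)) v = _
      rw [hpP, add_sub_cancel_left, ← div_pow', R₀.div_apply]
  · rintro ⟨ℓ, hℓ⟩ hℓN hℓS
    have : NeZero ℓ := ⟨hℓ.ne_zero⟩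
    exact hecke_sub_mem_kernel G red₀ ι hιint j hcompat hsurj₀ R₀ hred hι hj hℓ hℓN (hSk ℓ hℓ hℓS)
      hp hu (hrel ℓ hℓ hℓS) hx hxu hE0 hLE hpP

end Core

section Levels

variable {A : ValuationSubring Qb}

local notation "k" => IsLocalRing.ResidueField A
local notation "π" => IsLocalRing.residue A

/-- The inclusion of levels commutes with the Gauss reductions. -/
theorem exists_gauss_compat {X Y : ℕ} [NeZero X] [NeZero Y] (h : X ∣ Y)
    (HX : GaussInput (FB X) (modularFunctionFieldFullC k X) π)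
    (HY : GaussInput (FB Y) (modularFunctionFieldFullC k Y) π) (x : (gaussReduction HX).V) :
    ∃ y : (gaussReduction HY).V,
      (y : FB Y) = dilHom X Y 1 (by rwa [mul_one]) x ∧
      (gaussReduction HY).res y =
        IntermediateField.inclusion (fullC_le_of_dvd k h) ((gaussReduction HX).res x) := by
  obtain ⟨y₁, y₂, h₁, h₂, h0, e⟩ := exists_gaussReduction_quotient HX x
  set ιx := dilHom X Y 1 (by rwa [mul_one]) (x : FB X) with hιx
  have hcoe : (ιx : LaurentSeries Qb) = ((x : FB X) : LaurentSeries Qb) := by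
    rw [hιx, coe_dilHom, qExpand_one_apply]
  have hmem : ιx ∈ (gaussReduction HY).V :=
    ⟨y₁, y₂, CarayolReduction.bar_mono h h₁, CarayolReduction.bar_mono h h₂, h0,
      by rw [hcoe]; exact e⟩
  refine ⟨⟨ιx, hmem⟩, rfl, Subtype.ext ?_⟩
  rw [IntermediateField.coe_inclusion, gaussReduction_res_eq HY ⟨ιx, hmem⟩ h0
    (by rw [hcoe]; exact e),
    gaussReduction_res_eq HX x h0 e]

end Levels

theorem auxLevel_degree {p q X : ℕ} [NeZero X] (hp : p.Prime) (hp2 : p ≠ 2)
    (hadm : Admissible p q X) {d : ℕ} (hd : dedekindPsi X * d = dedekindPsi (auxLevel q X)) :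
    d.Coprime p := by
  have hX0 : 0 < dedekindPsi X := Nat.pos_of_ne_zero (HeckeCommute.dedekindPsi_ne_zero X)
  by_cases hh : auxPrime q ∣ X
  · rw [auxLevel, Nat.lcm_eq_left hh] at hd
    rw [(Nat.mul_eq_left hX0.ne').mp hd]
    exact Nat.coprime_one_left p
  have hc : Nat.Coprime X (auxPrime q) := ((auxPrime_prime q).coprime_iff_not_dvd.mpr hh).symm
  rw [auxLevel, hc.lcm_eq_mul, Gamma0Cosets.dedekindPsi_mul hc,
    GoodReductionS18.dedekindPsi_prime (auxPrime_eq q)] at hd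
  have hd' : d = auxPrime q + 1 := Nat.eq_of_mul_eq_mul_left hX0 hd
  subst hd'
  rcases hadm with h5 | ⟨rfl, hq2, h2⟩ | ⟨rfl, rfl, -⟩
  · refine (hp.coprime_iff_not_dvd.mpr fun hdvd => ?_).symm
    have := Nat.le_of_dvd (Nat.succ_pos _) hdvd
    rcases auxPrime_eq q with h | h <;> omega
  · simp only [auxPrime, if_neg hq2] at hh
    exact absurd h2 hh
  · simp only [auxPrime]
    decide

/-- A residue with orders divisible by `p` and the Hecke relations is a `p`-th power,
unless the system occurs at level `X`. -/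
theorem classStep (hA1 : EigenQuotient) : ClassStep := by
  intro W p X q _ _ hΔ hss hp hp2 hirr hq hqp hsq hadm A hA S u hu0 huX hY hdvd hrel
  classical
  have hqX : ¬ q ∣ X := fun h => by
    have h2 : q * q ∣ X * q := mul_dvd_mul_right h q
    exact hq.one_lt.ne' (Nat.isUnit_iff.mp (hsq q h2))
  set Y := auxLevel q X with hYdef
  have hqY : ¬ q ∣ Y := not_dvd_auxLevel hq hqX
  have hXY : X ∣ Y := dvd_auxLevel q X
  have : IsAlgClosed (IsLocalRing.ResidueField A) := GaloisBasics.residueField_isAlgClosed A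
  have : CharP (IsLocalRing.ResidueField A) q := GaloisBasics.residueField_charP hA hq
  have hXk : (X : IsLocalRing.ResidueField A) ≠ 0 :=
    fun h => hqX ((CharP.cast_eq_zero_iff _ q X).mp h)
  have hYk : (Y : IsLocalRing.ResidueField A) ≠ 0 :=
    fun h => hqY ((CharP.cast_eq_zero_iff _ q Y).mp h)
  obtain ⟨HY, g, c, Hd, Hb, G⟩ :=
    TwoComp.hasGoodModel_split hq hqY (two_or_three_dvd_auxLevel q X) hA
  have HX : GaussInput (FB X) (modularFunctionFieldFullC (IsLocalRing.ResidueField A) X)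
      (IsLocalRing.residue A) :=
    GoodReductionS18.gaussInput_level IsLocalRing.residue_surjective hXk
  have hsY := GoodReductionS18.gaussReduction_res_surjective hYk HY
    ((GoodReductionS18.laurentBaseChange_full_eq Qb Y).ge (jqModC_mem_full Qb Y))
    ((GoodReductionS18.laurentBaseChange_full_eq Qb Y).ge
      (modularFunctionFieldC_le_full Qb Y (jqNModC_mem Qb Y)))
  have hsX := GoodReductionS18.gaussReduction_res_surjective hXk HX
    ((GoodReductionS18.laurentBaseChange_full_eq Qb X).ge (jqModC_mem_full Qb X))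
    ((GoodReductionS18.laurentBaseChange_full_eq Qb X).ge
      (modularFunctionFieldC_le_full Qb X (jqNModC_mem Qb X)))
  have hdk := finrankAlong_inclusion (IsLocalRing.ResidueField A) hXY hYk
  have hdQ := HeckeCommute.dedekindPsi_mul_finrank (A := X) (B := Y) (by rwa [mul_one])
  set uY : modularFunctionFieldFullC (IsLocalRing.ResidueField A) Y :=
    IntermediateField.inclusion (fullC_le_of_dvd _ hXY) ⟨u, huX⟩ with huY
  set Eb := (G.riemann'.div uY).mapRange (· / (p : ℤ)) (Int.zero_ediv _) with hEbdef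
  have hEb : p • Eb = G.riemann'.div uY := Finsupp.ext fun v => by
    rw [Finsupp.smul_apply, hEbdef, Finsupp.mapRange_apply, nsmul_eq_mul]
    exact Int.mul_ediv_cancel' (by rw [G.riemann'.div_apply]; exact hdvd v)
  rcases exists_eigen_or_isResiduePow G (gaussReduction HX) (dilHom X Y 1 (by rwa [mul_one]))
      (dilHom_integral X Y 1 _) (IntermediateField.inclusion (fullC_le_of_dvd _ hXY))
      (exists_gauss_compat hXY HX HY) (finite_inclusion _ hXY hYk)
      (Nat.eq_of_mul_eq_mul_left (Nat.pos_of_ne_zero (HeckeCommute.dedekindPsi_ne_zero X))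
        (hdQ.trans hdk.symm))
      hsY hsX (isSeriesReduction_gauss HY)
      (fun f => by rw [coe_dilHom, qExpand_one_apply]) (fun y => rfl)
      hp.ne_zero (auxLevel_degree hp hp2 hadm hdk)
      (u := ⟨u, huX⟩) (fun h => hu0 (congrArg Subtype.val h)) hEb (insert q S)
      (fun ℓ hℓ hℓS h0 => hℓS (Finset.mem_insert.mpr (Or.inl
        ((Nat.prime_dvd_prime_iff_eq hq hℓ).mp ((CharP.cast_eq_zero_iff _ q ℓ).mp h0)).symm)))
      (aExp W p)
      (fun ℓ _ hℓ hℓS => hrel ℓ hℓ fun h => hℓS (Finset.mem_insert_of_mem h)) with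
    ⟨K, y, hK, hy, hpy, hTy⟩ | hpow
  · refine Or.inl (hA1 W p X hΔ hss hp hp2 hirr (insert q S) K (fun ℓ hℓX _ => hK ℓ hℓX)
      y hy hpy
      fun ℓ hℓX hℓS => ?_)
    have : NeZero p := ⟨hp.ne_zero⟩
    have hv : (aExp W p ℓ : ℤ) = W.apOfModel ℓ % p := ZMod.val_intCast _
    have hsplit : W.apOfModel ℓ • y = aExp W p ℓ • y + (W.apOfModel ℓ / (p : ℤ)) • (p • y) := by
      rw [← natCast_zsmul y (aExp W p ℓ), ← natCast_zsmul y p, smul_smul, hv]
      exact ((congrArg (· • y) (Int.emod_add_ediv_mul (W.apOfModel ℓ) (p : ℤ))).symm).trans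
        (add_smul (W.apOfModel ℓ % (p : ℤ)) _ y)
    rw [hsplit, ← sub_sub]
    exact K.sub_mem (hTy ℓ hℓX hℓS) (K.zsmul_mem hpy _)
  · exact Or.inr hpow

end Fermat.Agent.LevelLowering.Away
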