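import Fermat.Agent.LevelLowering.Away.Defs
import Fermat.Agent.TwoComp.Orders
import Fermat.Agent.TwoComp.QuadExport

/-!
# The residues at the poles of `j`

The first residue of a Kummer function has orders divisible by `n` at the poles of `j`.
-/

set_option autoImplicit false

noncomputable section

open ModularCurve AlgebraicCurve Fermat.Agent.GaloisBasics Fermat.Agent.TwoComp
open Fermat.Agent.CarayolFF (gaussRing)

namespace Fermat.Agent.LevelLowering.Away

variable {N q : ℕ} [NeZero N] [NeZero q]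

/-- The involution does not depend on the conjugation data. -/
theorem conj_w_eq (hq : q.Prime) (C C' : Conj N q) (φ : FB (N * q)) : C'.w φ = C.w φ :=
  TwoComp.hom_ext_alpha_beta hq (f := C'.w.toRingEquiv.toRingHom) (g := C.w.toRingEquiv.toRingHom)
    (fun x => (C'.w_alpha x).trans (C.w_alpha x).symm)
    (fun x => (C'.w_beta x).trans (C.w_beta x).symm) φ

variable {A : ValuationSubring Qbar}

local notation "k" => IsLocalRing.ResidueField A

omit [NeZero N] in
/-- Every `q * q`-th power is an image of the square of Frobenius. -/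
theorem exists_frobG_frobG (hq : q.Prime) (hA : A.LiesOverPrime q)
    (u : modularFunctionFieldFullC k N) :
    ∃ x, frobG N hq hA (frobG N hq hA x) = u ^ (q * q) := by
  have := Fact.mk hq
  have := residueField_charP hA hq
  exact ⟨coeffG N ((frobenius k q).comp (frobenius k q)) u,
    frobG_frobG_coeffG hq hA (fun c => by
      rw [RingHom.comp_apply, frobenius_def, frobenius_def, ← pow_mul]) u⟩

/-- The first residue has orders divisible by `n` at the poles of `j`. -/
theorem cuspPlaces : CuspPlaces := by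
  intro N q n _ _ hq hqN hN hn0 hn C _ A hA f u₀ u₁ hK v hv
  obtain ⟨C', htr, hC'⟩ := exists_conj N q hq hqN
  obtain ⟨HN, g, c, Hd, Hb, Gm⟩ := hasGoodModel_split hq hqN hN hA
  have : NeZero n := ⟨hn0⟩
  obtain ⟨hu₀, y₀, -, hy₀, hg₀, he₀⟩ := hK.res₀
  obtain ⟨hu₁, y₁, -, hy₁, hg₁, he₁⟩ := hK.res₁
  set T := C'.setting hq hA HN Gm hqN htr
  let γ : Fin 2 → Qbar := ![y₀, y₁]
  let u : Fin 2 → modularFunctionFieldFullC (IsLocalRing.ResidueField A) N :=
    ![⟨u₀, hK.mem₀⟩, ⟨u₁, hK.mem₁⟩]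
  have hγ : ∀ i, γ i ≠ 0 := Fin.forall_fin_two.mpr ⟨hy₀, hy₁⟩
  have hu : ∀ i, u i ≠ 0 := Fin.forall_fin_two.mpr
    ⟨fun h => hu₀ (congrArg Subtype.val h), fun h => hu₁ (congrArg Subtype.val h)⟩
  have hcoe : ∀ (φ : FB (N * q)) (y : Qbar),
      ((φ * algebraMap Qbar _ y ^ n : FB (N * q)) : LaurentSeries Qbar) =
        (φ : LaurentSeries Qbar) * HahnSeries.C y ^ n := fun φ y => by
    push_cast
    rw [algebraMap_laurentSeries_eq_single, HahnSeries.C_apply]
  have h0 : ((f * algebraMap Qbar _ y₀ ^ n : FB (N * q)) : LaurentSeries Qbar) ∈ gaussRing A :=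
    hcoe f y₀ ▸ hg₀
  have hw : ∀ φ, C'.w φ = C.w φ := conj_w_eq hq C C'
  have h1 : ((C'.w f * algebraMap Qbar _ y₁ ^ n : FB (N * q)) : LaurentSeries Qbar) ∈ gaussRing A := by
    rw [hw, hcoe]; exact hg₁
  have e0 : u₀ = gres A ((f * algebraMap Qbar _ y₀ ^ n : FB (N * q)) : LaurentSeries Qbar) := by
    rw [hcoe, he₀]
  have e1 : u₁ = gres A ((C'.w f * algebraMap Qbar _ y₁ ^ n : FB (N * q)) : LaurentSeries Qbar) := by
    rw [hw, hcoe, he₁]
  have hemb : ∀ i, C'.emb i (f * algebraMap Qbar _ (γ i) ^ n) ∈ gaussRing A ∧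
      gres A (C'.emb i (f * algebraMap Qbar _ (γ i) ^ n)) = (u i : LaurentSeries _) := by
    refine Fin.forall_fin_two.mpr ⟨?_, ?_⟩
    · rw [C'.emb_zero]; exact ⟨h0, e0.symm⟩
    · rw [C'.emb_one, map_mul, map_pow, C'.w.commutes]; exact ⟨h1, e1.symm⟩
  have hW : ∀ i, f * algebraMap Qbar _ (γ i) ^ n ∈ T.M.W i := fun i =>
    (C'.mem_W_iff hq hA HN i _).mpr (hemb i).1
  have hrd : ∀ i, T.M.rd i (f * algebraMap Qbar _ (γ i) ^ n) = u i := fun i =>
    Subtype.ext ((C'.coe_rd hq hA HN (hemb i).1).trans (hemb i).2)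
  obtain ⟨cβ, hβ, hfβ⟩ := hK.normβ
  obtain ⟨b, hb⟩ := C'.frobG_rel hq hA hC' hn0 (f := C'.w f) (c := cβ) (h := hβ)
    (x := y₁ ^ n) (y := y₀ ^ n) (u := u 1) (v := u 0)
    ((normAlong_upβ_eq C' f).symm.trans hfβ) HN (by rw [map_pow]; exact h1)
    (by rw [C'.w_w, map_pow]; exact h0) (hu 1) (hu 0) (by rw [map_pow]; exact e1)
    (by rw [C'.w_w, map_pow]; exact e0)
  have hsum := T.dvd_ord_add hn (exists_frobG_frobG hq hA) (hu 0) (hu 1) hb
  exact T.dvd_ord_of_ne_node hK.ne_zero hK.ord hγ hW hu hrd hsum fun s hs => by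
    have h := T.Hb_place s 0
    rw [hs, T.hj] at h
    have h' : max (-v.ord (jR (IsLocalRing.ResidueField A) N)) 0 = 0 := h
    omega

end Fermat.Agent.LevelLowering.Away
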