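import Fermat.Agent.LevelLowering.Away.Defs
import Fermat.Agent.Hecke.NormFormula
import Fermat.Agent.Hecke.Degree
import Fermat.Agent.TwoComp.LevelSetting
import Fermat.Agent.HeckeCommute

/-!
# Multiplicities of places between the levels `h Y` and `Y`

Every place of `X₀(Y)` modulo `q` lies under one of `X₀(h Y)` with multiplicity at most `h`.
-/

set_option autoImplicit false

noncomputable section

open ModularCurve AlgebraicCurve
open Fermat.Agent.TwoComp (jR degFun_jR)
open Fermat.Agent.FunctionField (IsFunctionField)

namespace Fermat.Agent.LevelLowering.Away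

section Above

variable {K F L : Type*} [Field K] [Field F] [Field L] [Algebra K F] [Algebra K L] [Algebra F L]
  [IsScalarTower K F L] [FiniteDimensional F L] [IsFunctionField K L]

/-- Every place has a place above it. -/
theorem exists_place_over (v : Place K F) : ∃ w : Place K L, w.restrict F = v := by
  by_contra h
  push Not at h
  obtain ⟨π, hπ0, hπ⟩ := FFPlaces.exists_uniformizer v
  have hint : IsIntegral v.toValuationSubring (algebraMap F L π⁻¹) :=
    Hecke.isIntegral_of_forall_ord_nonneg v fun w hw => absurd hw (h w)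
  obtain ⟨y, hy⟩ := IsIntegrallyClosed.isIntegral_iff.mp
    ((isIntegral_algebraMap_iff (algebraMap F L).injective).mp hint)
  have h0 : 0 ≤ v.ord π⁻¹ := (FFPlaces.mem_iff v).mp (hy ▸ y.2)
  rw [v.ord_inv, hπ] at h0
  omega

end Above

/-- A place of the lower level has a place above it, with multiplicity at most the degree. -/
theorem exists_place_mult {K F L : Type*} [Field K] [Field F] [Field L] [Algebra K F]
    [Algebra K L] [IsFunctionField K F] [IsFunctionField K L] (φ : F →ₐ[K] L) (v : Place K F) :
    ∃ (w : Place K L) (e : ℕ), 0 < e ∧ e ≤ finrankAlong K φ ∧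
      ∀ f, w.ord (φ f) = e * v.ord f := by
  let := algebraAlong φ
  have := isScalarTower_along φ
  have : FiniteDimensional F L := Hecke.finiteAlong_of_isFunctionField φ
  obtain ⟨w, hw⟩ := exists_place_over (L := L) v
  refine ⟨w, w.ramificationIndex F, w.ramificationIndex_pos (F := F), ?_, fun f => ?_⟩
  · have := Differentials.sum_ramificationIndex_le v {w} (by simpa using hw)
    simpa [finrankAlong] using this
  · exact hw ▸ w.ord_restrict (F := F) f

variable (k : Type) [Field k]

/-- The inclusion of levels on the reduced curves. -/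
def inclR {Y Z : ℕ} [NeZero Y] [NeZero Z] (h : Y ∣ Z) :
    modularFunctionFieldFullC k Y →ₐ[k] modularFunctionFieldFullC k Z :=
  IntermediateField.inclusion (full_degeneracyC_le k h)

/-- Raising the level by a prime already dividing it has degree that prime. -/
theorem finrankAlong_inclR {Y Z l : ℕ} [NeZero Y] [NeZero Z] (hl : l.Prime) (hlY : l ∣ Y)
    (hZ : Z = l * Y) (hk : (Z : k) ≠ 0) : finrankAlong k (inclR k (hZ ▸ dvd_mul_left Y l)) = l := by
  have hkY : (Y : k) ≠ 0 := fun h => hk (by rw [hZ, Nat.cast_mul, h, mul_zero])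
  have e := Hecke.finrank_adjoin_map (inclR k (hZ ▸ dvd_mul_left Y l : Y ∣ Z)) (jR k Y)
  rw [show inclR k (hZ ▸ dvd_mul_left Y l : Y ∣ Z) (jR k Y) = jR k Z from rfl] at e
  rw [show Module.finrank _ (modularFunctionFieldFullC k Z) = dedekindPsi Z from degFun_jR hk,
    show Module.finrank _ (modularFunctionFieldFullC k Y) = dedekindPsi Y from degFun_jR hkY,
    show dedekindPsi Z = dedekindPsi Y * l by
      rw [hZ, mul_comm l Y, HeckeCommute.dedekindPsi_mul_prime hl (NeZero.ne Y), if_pos hlY]] at e
  exact (Nat.eq_of_mul_eq_mul_left (Nat.pos_of_ne_zero (HeckeCommute.dedekindPsi_ne_zero Y)) e).symm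

/-- Below a place at which the orders are divisible by `p`, with multiplicity prime to `p`,
the orders are divisible by `p`. -/
theorem dvd_of_dvd_mult_mul {p e : ℕ} {a : ℤ} (hp : p.Prime) (he : ¬ p ∣ e)
    (h : (p : ℤ) ∣ e * a) : (p : ℤ) ∣ a :=
  ((Nat.prime_iff_prime_int.mp hp).dvd_or_dvd h).resolve_left fun hd =>
    he (Int.natCast_dvd_natCast.mp hd)

end Fermat.Agent.LevelLowering.Away
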