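import Fermat.Agent.Carayol.BaseDataH
import Fermat.Agent.CarayolFF.Range
import Fermat.Agent.TwoComp.Export
import Fermat.Agent.TwoComp.LevelSetting

/-!
# The finite places of the curve of a rigidified level in characteristic `q`

The reduction of the model lies in the function field, has it as fraction field and is regular at
the finite places; the Hauptmodul takes uniformising values there.
-/

set_option autoImplicit false

noncomputable section

attribute [-instance] IsLocalRing.ResidueField.algebraOfIsIntegral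
attribute [local instance 2000] SubalgebraClass.toAlgebra

open ModularCurve AlgebraicCurve Polynomial
open Fermat.Agent.GaloisBasics (Qbar)
open Fermat.Agent.Carayol (unramInt model)
open Fermat.Agent.CarayolFF (redBase redModel coe_redModel)
open Fermat.Agent.TwoComp (jR gres)
open Fermat.Agent.KummerReduction (ResidueData)
open Fermat.Agent.Hauptmodul (uC hElem)

namespace Fermat.Agent.LevelLowering.Away

section Line

variable {K F : Type} [Field K] [Field F] [Algebra K F] (v : Place K F)

/-- Residues are constants over an algebraically closed field. -/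
theorem exists_residue_const [IsAlgClosed K] [FunctionField.IsFunctionField K F] {f : F}
    (hf : 0 ≤ v.ord f) : ∃ c : K, f = algebraMap K F c ∨ 0 < v.ord (f - algebraMap K F c) := by
  obtain ⟨c, hc⟩ := TwoComp.exists_residue (FunctionField.deg_eq_one v)
    ((FFPlaces.mem_iff v).mpr hf)
  rcases (FunctionField.adicValuation_lt_one_iff v).mp hc with h | h
  · exact ⟨c, Or.inl (sub_eq_zero.mp h)⟩
  · exact ⟨c, Or.inr h⟩

theorem aeval_mem_place {u : F} (hu : 0 ≤ v.ord u) (P : K[X]) :
    aeval u P ∈ v.toValuationSubring := by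
  rw [aeval_eq_sum_range]
  exact sum_mem fun i _ => by
    rw [Algebra.smul_def]
    exact mul_mem (v.algebraMap_mem' _) (pow_mem ((FFPlaces.mem_iff v).mpr hu) i)

/-- The value of a polynomial at `u` where it does not vanish at the value of `u`. -/
theorem ord_aeval_eq_zero {u : F} (hu0 : 0 ≤ v.ord u) {a : K}
    (hua : 0 < v.ord (u - algebraMap K F a)) {Q : K[X]} (hQ : Q.eval a ≠ 0) :
    aeval u Q ≠ 0 ∧ v.ord (aeval u Q) = 0 := by
  obtain ⟨R, hR⟩ : X - C a ∣ Q - C (Q.eval a) := dvd_iff_isRoot.mpr (by simp)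
  have hQu : aeval u Q = algebraMap K F (Q.eval a) + (u - algebraMap K F a) * aeval u R := by
    have h := congrArg (aeval u) hR
    simp only [map_sub, map_mul, aeval_X, aeval_C] at h
    rw [← h]; ring
  have hR0 := (FFPlaces.mem_iff v).mp (aeval_mem_place v hu0 R)
  have hne : u - algebraMap K F a ≠ 0 := fun h => by rw [h, v.ord_zero] at hua; omega
  have hord : v.ord (aeval u Q) = 0 := by
    rw [hQu, FFPlaces.ord_add_eq_of_lt v ((_root_.map_ne_zero _).mpr hQ), FFPlaces.ord_algebraMap]
    rcases eq_or_ne (aeval u R) 0 with h | h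
    · exact Or.inl (by rw [h, mul_zero])
    · exact Or.inr (by rw [v.ord_mul hne h, FFPlaces.ord_algebraMap]; omega)
  refine ⟨fun h => ?_, hord⟩
  rw [h, eq_comm, add_eq_zero_iff_eq_neg] at hQu
  have h' := congrArg v.ord hQu
  rw [FFPlaces.ord_algebraMap, FFPlaces.ord_neg] at h'
  rcases eq_or_ne (aeval u R) 0 with h2 | h2
  · rw [h2, mul_zero, neg_zero] at hQu
    exact hQ ((map_eq_zero _).mp hQu)
  · rw [v.ord_mul hne h2] at h'; omega

/-- A polynomial positive at `u` vanishes at the value of `u`. -/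
theorem eval_eq_zero_of_ord_pos {u : F} (hu0 : 0 ≤ v.ord u) {a : K}
    (hua : 0 < v.ord (u - algebraMap K F a)) {Q : K[X]} (hQ : 0 < v.ord (aeval u Q)) :
    Q.eval a = 0 := by
  by_contra hne
  have := (ord_aeval_eq_zero v hu0 hua hne).2
  omega

/-- A simple zero of a polynomial at a uniformiser. -/
theorem ord_aeval_eq_one {u : F} (hu0 : 0 ≤ v.ord u) {a : K}
    (hu : v.ord (u - algebraMap K F a) = 1) {P : K[X]}
    (h0 : P.eval a = 0) (h1 : P.derivative.eval a ≠ 0) : v.ord (aeval u P) = 1 := by
  obtain ⟨R, hR⟩ : X - C a ∣ P := dvd_iff_isRoot.mpr h0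
  have hRa : R.eval a ≠ 0 := by
    rw [hR] at h1
    simpa [derivative_mul] using h1
  have hne : u - algebraMap K F a ≠ 0 := fun h => by rw [h, v.ord_zero] at hu; omega
  obtain ⟨hR0, hord⟩ := ord_aeval_eq_zero v hu0 (by omega) hRa
  rw [hR, map_mul, map_sub, aeval_X, aeval_C, v.ord_mul hne hR0, hu, hord, add_zero]

end Line

section RedBase

variable {A : ValuationSubring Qbar} {q N : ℕ} [NeZero N]

local notation "k" => IsLocalRing.ResidueField A

/-- The reduction of the model consists of functions of level `N`. -/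
theorem redBase_le_fullC (hA : A.LiesOverPrime q) (hq : q.Prime) (hqN : ¬ q ∣ N)
    (hN : 2 ∣ N ∨ 3 ∣ N) {y : LaurentSeries k} (hy : y ∈ redBase A N) :
    y ∈ modularFunctionFieldFullC k N := by
  obtain ⟨HN, -⟩ := TwoComp.hasGoodModel_split hq hqN hN hA
  obtain ⟨x, -, hx, rfl⟩ := CarayolFF.mem_redBase.mp hy
  obtain ⟨hg, he⟩ := TwoComp.gres_of_intSeries (A := A) (x := (x : LaurentSeries Qbar))
    (a := ⟨_, hx⟩) (b := 1) (by rw [map_one]; exact one_ne_zero) (by simp)
  rw [map_one, div_one] at he
  exact he ▸ TwoComp.gres_mem_of_input HN x hg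

theorem qExpand_jqModC_mem_redBase (hA : A.LiesOverPrime q) (hq : q.Prime) {d : ℕ} [NeZero d]
    (hd : d ∣ N) : qExpand k d (jqModC k) ∈ redBase A N := by
  have hm := Carayol.coeffEmb_qExpand_jq_mem_model A hd
  have hi := CarayolFF.coe_mem_intSeries_of_model hA hq hm
  refine CarayolFF.mem_redBase.mpr ⟨_, hm, hi, ?_⟩
  obtain ⟨-, he⟩ := TwoComp.gres_of_intSeries (A := A)
    (x := qExpand Qbar d (jqModC Qbar)) (a := ⟨_, hi⟩) (b := 1)
    (by rw [map_one]; exact one_ne_zero) (by
      show qExpand Qbar d (jqModC Qbar) * 1 = coeffEmb Qbar (qExpand ℚ d jq)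
      rw [mul_one, ModularAnalytic.coeffEmb_qExpand_jq])
  rw [map_one, div_one, (TwoComp.gres_jd d).2] at he
  exact he.symm

theorem C_mem_redBase (hA : A.LiesOverPrime q) (hq : q.Prime) (c : k) :
    algebraMap k (LaurentSeries k) c ∈ redBase A N := by
  have h := CarayolFF.aeval_jqModC_mem_redBase (N := N) hA hq (Polynomial.C c)
  rwa [aeval_C] at h

/-- The reduction of a constant. -/
theorem coe_redModel_algebraMap (hA : A.LiesOverPrime q) (hq : q.Prime) {c : Qbar} (hc : c ∈ A)
    (x : model A N) (hx : (x : modularFunctionFieldBar N) = algebraMap Qbar _ c) :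
    (redModel hA hq x : LaurentSeries k) =
      algebraMap k (LaurentSeries k) (IsLocalRing.residue A ⟨c, hc⟩) := by
  have hx' : ((x : modularFunctionFieldBar N) : LaurentSeries Qbar) = HahnSeries.single 0 c := by
    rw [hx]
    exact algebraMap_laurentSeries_eq_single Qbar c
  rw [coe_redModel, algebraMap_laurentSeries_eq_single]
  ext n
  rw [ResidueData.redSeries_coeff]
  rcases eq_or_ne n 0 with rfl | hn
  · rw [HahnSeries.coeff_single_same]
    refine congrArg (IsLocalRing.residue A) (Subtype.ext ?_)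
    show ((x : modularFunctionFieldBar N) : LaurentSeries Qbar).coeff 0 = c
    rw [hx', HahnSeries.coeff_single_same]
  · rw [HahnSeries.coeff_single_of_ne hn]
    refine (congrArg (IsLocalRing.residue A) (Subtype.ext ?_ : _ = (0 : A))).trans (map_zero _)
    show ((x : modularFunctionFieldBar N) : LaurentSeries Qbar).coeff n = 0
    rw [hx', HahnSeries.coeff_single_of_ne hn]

/-- Functions of level `N` are quotients of elements of the reduction of the model. -/
theorem exists_mul_mem_redBase_fullC (hA : A.LiesOverPrime q) (hq : q.Prime) {g : LaurentSeries k}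
    (hg : g ∈ modularFunctionFieldFullC k N) :
    ∃ a ∈ redBase A N, ∃ b ∈ redBase A N, b ≠ 0 ∧ g * b = a := by
  induction hg using IntermediateField.adjoin_induction with
  | mem y hy =>
    obtain ⟨d, _, hd, rfl⟩ := hy
    exact ⟨_, qExpand_jqModC_mem_redBase hA hq hd, 1, one_mem _, one_ne_zero, mul_one _⟩
  | algebraMap c => exact ⟨_, C_mem_redBase hA hq c, 1, one_mem _, one_ne_zero, mul_one _⟩
  | add x y _ _ hx hy =>
    obtain ⟨a, ha, b, hb, hb0, e⟩ := hx
    obtain ⟨a', ha', b', hb', hb0', e'⟩ := hy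
    exact ⟨a * b' + a' * b, add_mem (mul_mem ha hb') (mul_mem ha' hb), b * b', mul_mem hb hb',
      mul_ne_zero hb0 hb0', by rw [← e, ← e']; ring⟩
  | mul x y _ _ hx hy =>
    obtain ⟨a, ha, b, hb, hb0, e⟩ := hx
    obtain ⟨a', ha', b', hb', hb0', e'⟩ := hy
    exact ⟨a * a', mul_mem ha ha', b * b', mul_mem hb hb', mul_ne_zero hb0 hb0',
      by rw [← e, ← e']; ring⟩
  | inv x _ hx =>
    obtain ⟨a, ha, b, hb, hb0, e⟩ := hx
    rcases eq_or_ne x 0 with rfl | h0
    · exact ⟨0, zero_mem _, 1, one_mem _, one_ne_zero, by rw [inv_zero, zero_mul]⟩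
    · exact ⟨b, hb, a, ha, e ▸ mul_ne_zero h0 hb0, by rw [← e, inv_mul_cancel_left₀ h0]⟩

/-- The reduction of the model is regular at the finite places. -/
theorem ord_nonneg_of_mem_redBase (hA : A.LiesOverPrime q) (hq : q.Prime)
    (w : Place k (modularFunctionFieldFullC k N)) (hw : 0 ≤ w.ord (jR k N))
    {y : modularFunctionFieldFullC k N} (hy : (y : LaurentSeries k) ∈ redBase A N) :
    0 ≤ w.ord y := by
  obtain ⟨x, hx⟩ := CarayolFF.redModel_surjective hA hq (⟨_, hy⟩ : redBase A N)
  obtain ⟨Q, hQ, hQx⟩ := CarayolFF.exists_poly_of_mem_model x.2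
  let ψ : model A N →+* LaurentSeries k := (redBase A N).subtype.comp (redModel hA hq)
  let O := w.toValuationSubring
  let θ : O →+* LaurentSeries k :=
    (modularFunctionFieldFullC k N).val.toRingHom.comp O.subtype
  let hc : unramInt A →+* model A N :=
    ((algebraMap Qbar (modularFunctionFieldBar N)).comp (unramInt A).subtype).codRestrict _
      fun c => CarayolFF.algebraMap_mem_model c.2
  let φ : (unramInt A)[X] →+* model A N :=
    Polynomial.eval₂RingHom hc ⟨_, CarayolFF.jElem_mem_model A N⟩
  have hφ : (model A N).subtype.comp φ =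
      (aeval (R := Qbar) (Carayol.jElem N)).toRingHom.comp (mapRingHom (unramInt A).subtype) :=
    Polynomial.ringHom_ext (fun c => by simp [φ, hc]) (by simp [φ])
  have hψC : ∀ c : unramInt A, ψ (hc c) ∈ θ.range := fun c =>
    ⟨⟨algebraMap k _ (IsLocalRing.residue A ⟨_, (Carayol.mem_unramInt_iff.mp c.2).1⟩),
      w.algebraMap_mem' _⟩, (coe_redModel_algebraMap hA hq _ (hc c) rfl).symm⟩
  have hψφ : ∀ P, ψ (φ P) ∈ θ.range := by
    intro P
    induction P using Polynomial.induction_on' with
    | add P R hP hR => rw [map_add, map_add]; exact add_mem hP hR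
    | monomial i c =>
      show ψ (eval₂ hc _ (monomial i c)) ∈ θ.range
      rw [eval₂_monomial, map_mul, map_pow]
      refine mul_mem (hψC c) (pow_mem ?_ i)
      exact ⟨⟨jR k N, (FFPlaces.mem_iff w).mpr hw⟩, (CarayolFF.coe_redModel_jElem hA hq).symm⟩
  have hQ0 : eval₂ φ x Q = 0 := by
    refine Subtype.val_injective (?_ : (model A N).subtype (eval₂ φ x Q) = 0)
    rw [Polynomial.hom_eval₂, hφ]
    exact hQx
  have h1 := congrArg ψ hQ0
  rw [map_zero, Polynomial.hom_eval₂, ← Polynomial.eval_map] at h1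
  obtain ⟨Q', hQ', -, hQm⟩ := Polynomial.lifts_and_degree_eq_and_monic
    (f := θ) (p := Q.map (ψ.comp φ)) ((Polynomial.lifts_iff_coeff_lifts _).mpr fun n => by
      rw [Polynomial.coeff_map]; exact hψφ _) (hQ.map _)
  rw [← hQ', Polynomial.eval_map] at h1
  have hyx : ψ x = (y : LaurentSeries k) := congrArg Subtype.val hx
  rw [hyx] at h1
  have hint : IsIntegral O y := ⟨Q', hQm, (modularFunctionFieldFullC k N).val.toRingHom.injective
    (by rw [map_zero, Polynomial.hom_eval₂]; exact h1)⟩
  obtain ⟨z, hz⟩ := (IsIntegrallyClosed.isIntegral_iff (R := O)).mp hint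
  exact (FFPlaces.mem_iff w).mp (hz ▸ z.2)

variable {M N' : ℕ} [NeZero M] [NeZero N'] (H : Hauptmodul.BaseHyp q A M N')

include H

/-- The expansion of the reduced Hauptmodul. -/
theorem coe_redModel_hElem :
    (redModel H.liesOver H.prime (hElem H) : LaurentSeries k) = uC k (M * M) := by
  rw [coe_redModel, ← Hauptmodul.coeffMap_uC (IsLocalRing.residue A) (M * M)]
  ext n
  rw [ResidueData.redSeries_coeff, coeffMap_coeff]
  refine congrArg (IsLocalRing.residue A) (Subtype.ext ?_)
  show (uC Qbar (M * M)).coeff n = _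
  rw [← Hauptmodul.coeffMap_uC A.subtype (M * M), coeffMap_coeff]
  rfl

/-- The Hauptmodul takes uniformising values at the finite places. -/
theorem ord_sub_eq_one (w : Place k (modularFunctionFieldFullC k (M * N')))
    (hw : 0 ≤ w.ord (jR k (M * N'))) (hN : 2 ∣ M * N' ∨ 3 ∣ M * N')
    {u : modularFunctionFieldFullC k (M * N')} (hu : (u : LaurentSeries k) = uC k (M * M))
    {a : k} (ha : 0 < w.ord (u - algebraMap k _ a)) : w.ord (u - algebraMap k _ a) = 1 := by
  classical
  have : IsAlgClosed (IsLocalRing.ResidueField A) := GaloisBasics.residueField_isAlgClosed A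
  set m := w.ord (u - algebraMap k _ a) with hm
  let ι : redBase A (M * N') →+* modularFunctionFieldFullC k (M * N') :=
    (redBase A (M * N')).subtype.codRestrict _ fun y =>
      redBase_le_fullC H.liesOver H.prime H.coprime hN y.2
  have hinj : Function.Injective ι := fun x y h => Subtype.ext (congrArg Subtype.val h :)
  have hnn : ∀ y, 0 ≤ w.ord (ι y) := fun y =>
    ord_nonneg_of_mem_redBase H.liesOver H.prime w hw y.2
  let ιO : redBase A (M * N') →+* w.toValuationSubring :=
    ι.codRestrict _ fun y => (FFPlaces.mem_iff w).mpr (hnn y)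
  set P := (IsLocalRing.maximalIdeal w.toValuationSubring).comap ιO
  have hone : w.ord (1 : modularFunctionFieldFullC k (M * N')) = 0 := by
    simp
  have hP : ∀ y, y ∈ P ↔ y = 0 ∨ 0 < w.ord (ι y) := fun y => by
    rcases eq_or_ne y 0 with rfl | hy
    · simp
    rw [Ideal.mem_comap, IsLocalRing.mem_maximalIdeal, mem_nonunits_iff]
    simp only [hy, false_or]
    rw [not_iff_comm, not_lt]
    constructor
    · intro hle
      have hne : ι y ≠ 0 := (map_ne_zero_iff ι hinj).mpr hy
      refine IsUnit.of_mul_eq_one ⟨(ι y)⁻¹, (FFPlaces.mem_iff w).mpr ?_⟩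
        (Subtype.ext (mul_inv_cancel₀ hne))
      rw [w.ord_inv]; omega
    · rintro ⟨z, hz⟩
      have h1 := congrArg (fun t : w.toValuationSubring =>
        (t : modularFunctionFieldFullC k (M * N'))) z.mul_inv
      rw [hz] at h1
      change ι y * ((↑z⁻¹ : w.toValuationSubring) : modularFunctionFieldFullC k (M * N')) = 1 at h1
      have h2 := congrArg w.ord h1
      have h3 : ((↑z⁻¹ : w.toValuationSubring) : modularFunctionFieldFullC k (M * N')) ≠ 0 :=
        fun h0 => by rw [h0, mul_zero] at h1; exact zero_ne_one h1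
      rw [w.ord_mul ((map_ne_zero_iff ι hinj).mpr hy) h3, hone] at h2
      have h4 := (FFPlaces.mem_iff w).mp (↑z⁻¹ : w.toValuationSubring).2
      omega
  let cst : k → redBase A (M * N') := fun c => ⟨_, C_mem_redBase H.liesOver H.prime c⟩
  have hcst : ∀ c, ι (cst c) = algebraMap k _ c := fun c => Subtype.ext rfl
  have : P.IsMaximal := by
    refine Ideal.isMaximal_iff.mpr ⟨fun h1 => ?_, fun J x hPJ hxP hxJ => ?_⟩
    · rcases (hP 1).mp h1 with h | h
      · exact one_ne_zero h
      · rw [map_one, hone] at h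
        omega
    · obtain ⟨c, hc⟩ := exists_residue_const w (hnn x)
      have hxc : x - cst c ∈ P := by
        refine (hP _).mpr ?_
        rw [map_sub, hcst]
        rcases hc with hc | hc
        · exact Or.inl (sub_eq_zero.mpr (hinj (by rw [hc, hcst])))
        · exact Or.inr hc
      have hc0 : c ≠ 0 := fun h => hxP (by
        have : cst c = 0 := hinj (by rw [hcst, h, map_zero, map_zero])
        rwa [this, sub_zero] at hxc)
      have hcJ : cst c ∈ J := by simpa using J.sub_mem hxJ (hPJ hxc)
      have : cst c⁻¹ * cst c = 1 := hinj (by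
        rw [map_mul, hcst, hcst, ← map_mul, inv_mul_cancel₀ hc0, map_one, map_one])
      exact this ▸ J.mul_mem_left _ hcJ
  obtain ⟨c, hc, hca⟩ := Carayol.Local.exists_unramInt_residue H.liesOver H.prime a
  let a' : model A (M * N') := ⟨_, CarayolFF.algebraMap_mem_model (M := M * N') hc⟩
  set R := redModel (N := M * N') H.liesOver H.prime
  have ha' : ι (R a') = algebraMap k _ a :=
    Subtype.ext ((coe_redModel_algebraMap H.liesOver H.prime c.2 a' rfl).trans (by rw [← hca]; rfl))
  have hgen : ι (R (hElem H - a')) = u - algebraMap k _ a := by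
    rw [map_sub, map_sub, ha']
    congr 1
    exact Subtype.ext ((coe_redModel_hElem H).trans hu.symm)
  have hgP : R (hElem H - a') ∈ P := (hP _).mpr (Or.inr (by rw [hgen]; exact ha))
  have hq0 : R ((q : ℕ) : model A (M * N')) = 0 := by
    have := GaloisBasics.residueField_charP H.liesOver H.prime
    refine hinj ?_
    rw [map_natCast, map_natCast, map_zero,
      ← map_natCast (algebraMap k (modularFunctionFieldFullC k (M * N'))), CharP.cast_eq_zero,
      map_zero]
  have hdvd : ∀ (n : ℕ) (y : redBase A (M * N')), y ≠ 0 → w.ord (ι y) = n → m ∣ (n : ℤ) := by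
    intro n
    induction n using Nat.strong_induction_on with
    | _ n ih =>
      intro y hy hn
      rcases Nat.eq_zero_or_pos n with rfl | hn0
      · exact dvd_zero _
      have hyP : y ∈ P := (hP y).mpr (Or.inr (by omega))
      obtain ⟨x, rfl⟩ := CarayolFF.redModel_surjective H.liesOver H.prime y
      obtain ⟨s, hs, hsx⟩ := Hauptmodul.unramified_hElem H P inferInstance a' ⟨_, hc⟩ rfl hgP x hyP
      obtain ⟨t, t', htt⟩ := Ideal.mem_span_pair.mp hsx
      have he := congrArg ι (congrArg R htt.symm)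
      rw [map_mul, map_mul, map_add, map_add, map_mul, map_mul, map_mul, map_mul, hq0, map_zero,
        mul_zero, zero_add, hgen] at he
      have hs' : R s ≠ 0 := fun h => hs ((hP _).mpr (Or.inl h))
      have hs0 : w.ord (ι (R s)) = 0 := by
        have h1 : ¬ 0 < w.ord (ι (R s)) := fun h => hs ((hP _).mpr (Or.inr h))
        have h2 := hnn (R s)
        omega
      have hne := mul_ne_zero ((map_ne_zero_iff ι hinj).mpr hs') ((map_ne_zero_iff ι hinj).mpr hy)
      rw [he] at hne
      have ho := congrArg w.ord he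
      rw [w.ord_mul ((map_ne_zero_iff ι hinj).mpr hs') ((map_ne_zero_iff ι hinj).mpr hy),
        w.ord_mul (left_ne_zero_of_mul hne) (right_ne_zero_of_mul hne), hs0, hn, zero_add] at ho
      obtain ⟨n', hn'⟩ := Int.eq_ofNat_of_zero_le (hnn (R t'))
      have := ih n' (by omega) (R t')
        (fun h => left_ne_zero_of_mul hne (by rw [h, map_zero])) hn'
      rw [ho, hn']
      exact dvd_add this dvd_rfl
  obtain ⟨π, hπ0, hπ⟩ := FFPlaces.exists_uniformizer w
  obtain ⟨b, hb, d, hd, hd0, hbd⟩ := exists_mul_mem_redBase_fullC H.liesOver H.prime π.2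
  have hd' : (⟨d, hd⟩ : redBase A (M * N')) ≠ 0 := fun h => hd0 (congrArg Subtype.val h)
  have hbd' : π * ι ⟨d, hd⟩ = ι ⟨b, hb⟩ := Subtype.ext hbd
  have hb' : (⟨b, hb⟩ : redBase A (M * N')) ≠ 0 := fun h =>
    mul_ne_zero hπ0 ((map_ne_zero_iff ι hinj).mpr hd') (by rw [hbd', h, map_zero])
  obtain ⟨nb, hnb⟩ := Int.eq_ofNat_of_zero_le (hnn ⟨b, hb⟩)
  obtain ⟨nd, hnd⟩ := Int.eq_ofNat_of_zero_le (hnn ⟨d, hd⟩)
  have ho := congrArg w.ord hbd'
  rw [w.ord_mul hπ0 ((map_ne_zero_iff ι hinj).mpr hd'), hπ, hnd, hnb] at ho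
  have h1 : m ∣ 1 := by
    have := dvd_sub (hdvd nb _ hb' hnb) (hdvd nd _ hd' hnd)
    rwa [← ho, add_sub_cancel_right] at this
  exact Int.eq_one_of_dvd_one ha.le h1

end RedBase

end Fermat.Agent.LevelLowering.Away
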