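import Fermat.Agent.LevelLowering.Away.Defs
import Fermat.Agent.LevelLowering.Away.RedBasePlaces
import Fermat.Agent.ResidualCarayol.Geometry.Orders

/-!
# The auxiliary prime `3` in residue characteristic `2`

In characteristic `2` at a level `Z` divisible by `9` the Hauptmodul `u` of level `9` is a
uniformiser and `j = (u + 1) ^ 12 / (u ^ 9 (u² + u + 1))`.  If `Y` has a prime divisor `2` modulo
`3`, three divides the orders of the zeros of `j` at level `Y`, hence no ramification index of
level `3 Y` over level `Y`.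
-/

set_option autoImplicit false

noncomputable section

attribute [-instance] IsLocalRing.ResidueField.algebraOfIsIntegral
attribute [local instance 2000] SubalgebraClass.toAlgebra

open ModularCurve AlgebraicCurve Polynomial
open Fermat.Agent.GaloisBasics (Qbar)
open Fermat.Agent.CarayolFF (redBase redModel)
open Fermat.Agent.TwoComp (jR jB)
open Fermat.Agent.Hauptmodul (polyA polyB uC hElem)

namespace Fermat.Agent.LevelLowering.Away

/-- No root of `x² + x + 1` modulo a level with a prime divisor `2` modulo `3`. -/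
theorem nuThree_eq_zero_of_prime {N r : ℕ} (hr : r.Prime) (hrN : r ∣ N) (hr3 : r % 3 = 2) :
    nuThree N = 0 := by
  have := Fact.mk hr
  have : IsEmpty {x : ZMod N // x ^ 2 + x + 1 = 0} := ⟨fun x => by
    have h := congrArg (ZMod.castHom hrN (ZMod r)) x.2
    simp only [map_add, map_pow, map_one, map_zero] at h
    generalize ZMod.castHom hrN (ZMod r) x.1 = y at h
    have h3 : y ^ 3 = 1 := by linear_combination (y - 1) * h
    have hy : y ≠ 0 := fun h0 => one_ne_zero (h3.symm.trans (by rw [h0]; ring))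
    have hd : orderOf y ∣ Nat.gcd 3 (r - 1) := Nat.dvd_gcd (orderOf_dvd_of_pow_eq_one h3)
      (ZMod.orderOf_dvd_card_sub_one hy)
    have hg : Nat.gcd 3 (r - 1) = 1 := by
      rcases (Nat.dvd_prime Nat.prime_three).mp (Nat.gcd_dvd_left 3 (r - 1)) with hg | hg
      · exact hg
      · have := hg ▸ Nat.gcd_dvd_right 3 (r - 1)
        omega
    rw [hg, Nat.dvd_one, orderOf_eq_one_iff] at hd
    have h30 : ((3 : ℕ) : ZMod r) = 0 := by rw [hd] at h; linear_combination h
    have := (Nat.prime_dvd_prime_iff_eq hr Nat.prime_three).mp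
      ((ZMod.natCast_eq_zero_iff 3 r).mp h30)
    omega⟩
  exact Nat.card_of_isEmpty

theorem polyA_nine {R : Type*} [CommRing R] (h2 : (2 : R) = 0) (x : R) :
    polyA (3 * 3) x = (x + 1) ^ 4 := by
  simp only [polyA, show ¬ (3 * 3 = 4) by decide, if_false]
  linear_combination (-2 * x ^ 3 - 3 * x ^ 2 - 2 * x + 126 * x ^ 3 + 2187 * x ^ 2 + 13122 * x
    + 29524) * h2

theorem polyB_nine {R : Type*} [CommRing R] (h2 : (2 : R) = 0) (x : R) :
    polyB (3 * 3) x = x ^ 9 * (x ^ 2 + x + 1) := by
  simp only [polyB, show ¬ (3 * 3 = 4) by decide, if_false]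
  linear_combination (x ^ 9 * (4 * x + 13)) * h2

theorem derivative_eval_nine {K : Type*} [Field K] (h2 : (2 : K) = 0) (c a : K) :
    ((X + 1) ^ 12 - C c * (X ^ 9 * (X ^ 2 + X + 1)) : K[X]).derivative.eval a =
      c * (a ^ 8 * (a + 1) ^ 2) := by
  simp only [derivative_sub, derivative_pow, derivative_add, derivative_X, derivative_one,
    derivative_C, derivative_mul, eval_sub, eval_mul, eval_pow, eval_add, eval_C, eval_X,
    eval_one, eval_zero]
  push_cast
  linear_combination (6 * (a + 1) ^ 11 - c * a ^ 8 * (5 * a ^ 2 + 4 * a + 4)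
    - c * a ^ 8 * (a ^ 2 + 2 * a + 1)) * h2

variable {A : ValuationSubring Qbar}

local notation "k" => IsLocalRing.ResidueField A

/-- In characteristic `2` at a level divisible by `9`, `j` has zeros of order twelve and separable
finite fibres otherwise. -/
theorem ord_jR_sub (hA : A.LiesOverPrime 2) {Y : ℕ} [NeZero Y] (h2 : ¬ 2 ∣ Y) (h3 : 3 ∣ Y)
    (w : Place k (modularFunctionFieldFullC k (3 * Y))) (c : k)
    (hc : 0 < w.ord (jR k (3 * Y) - algebraMap k _ c)) :
    (c = 0 → w.ord (jR k (3 * Y) - algebraMap k _ c) = 12) ∧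
      (c ≠ 0 → w.ord (jR k (3 * Y) - algebraMap k _ c) = 1) := by
  have : IsAlgClosed (IsLocalRing.ResidueField A) := GaloisBasics.residueField_isAlgClosed A
  have hqZ : ¬ 2 ∣ 3 * Y := fun h => (Nat.prime_two.dvd_mul.mp h).elim (by norm_num) h2
  have H : Hauptmodul.BaseHyp 2 A 3 Y := ⟨Or.inr rfl, h3, hA, Nat.prime_two, hqZ⟩
  have := GaloisBasics.residueField_charP hA Nat.prime_two
  have h2k : (2 : k) = 0 := CharP.cast_eq_zero k 2
  have h2F : (2 : modularFunctionFieldFullC k (3 * Y)) = 0 := by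
    rw [← map_ofNat (algebraMap k (modularFunctionFieldFullC k (3 * Y))) 2, h2k, map_zero]
  have hw : 0 ≤ w.ord (jR k (3 * Y)) := by
    refine (FFPlaces.mem_iff w).mp ?_
    rw [← sub_add_cancel (jR k (3 * Y)) (algebraMap k (modularFunctionFieldFullC k (3 * Y)) c)]
    exact add_mem ((FFPlaces.mem_iff w).mpr hc.le) (w.algebraMap_mem' c)
  have huR : uC k (3 * 3) ∈ redBase A (3 * Y) := coe_redModel_hElem H ▸ SetLike.coe_mem _
  have hN : 2 ∣ 3 * Y ∨ 3 ∣ 3 * Y := Or.inr (dvd_mul_right 3 Y)
  let u : modularFunctionFieldFullC k (3 * Y) :=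
    ⟨_, redBase_le_fullC hA Nat.prime_two hqZ hN huR⟩
  have hu0 : 0 ≤ w.ord u := ord_nonneg_of_mem_redBase hA Nat.prime_two w hw huR
  obtain ⟨a, ha⟩ := exists_residue_const w hu0
  have hua : u ≠ algebraMap k (modularFunctionFieldFullC k (3 * Y)) a := fun h =>
    Hauptmodul.redModel_hElem_ne H a ((coe_redModel_hElem H).trans
      ((congrArg Subtype.val h).trans (algebraMap_laurentSeries_eq_single k a)))
  have hpos := ha.resolve_left hua
  have ha1 := ord_sub_eq_one H w hw hN (u := u) rfl hpos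
  -- the equation of `j`
  let B : k[X] := X ^ 9 * (X ^ 2 + X + 1)
  let P : k[X] := (X + 1) ^ 12 - C c * B
  have hB' : polyB (3 * 3) u = aeval u B := by
    simp only [B, map_mul, map_pow, map_add, map_one, aeval_X, polyB_nine h2F]
  have heq : jR k (3 * Y) * polyB (3 * 3) u = polyA (3 * 3) u ^ 3 := by
    refine (modularFunctionFieldFullC k (3 * Y)).val.toRingHom.injective ?_
    rw [map_mul, map_pow, Hauptmodul.polyA_map, Hauptmodul.polyB_map]
    exact Hauptmodul.jqModC_mul_polyB H.level_sq k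
  have hPu : (jR k (3 * Y) - algebraMap k (modularFunctionFieldFullC k (3 * Y)) c) * aeval u B =
      aeval u P := by
    simp only [P, map_sub, map_mul, map_pow, map_add, aeval_X, aeval_C, map_one]
    rw [polyA_nine h2F u, hB'] at heq
    linear_combination heq
  obtain ⟨hB0, hBord⟩ : aeval u B ≠ 0 ∧ w.ord (aeval u B) = 0 := by
    rw [← hB']
    obtain ⟨e, he⟩ := ((Hauptmodul.isUnit_polyB_hElem H).map (redModel H.liesOver H.prime))
    have hcoe : ((polyB (3 * 3) u : modularFunctionFieldFullC k (3 * Y)) : LaurentSeries k) =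
        (redModel H.liesOver H.prime (polyB (3 * 3) (hElem H)) : LaurentSeries k) := by
      refine (Hauptmodul.polyB_map
        (modularFunctionFieldFullC k (3 * Y)).val.toRingHom (3 * 3) u).trans ?_
      show polyB (3 * 3) (uC k (3 * 3)) = _
      rw [← coe_redModel_hElem H]
      exact (Hauptmodul.polyB_map ((redBase A (3 * Y)).subtype.comp
        (redModel H.liesOver H.prime)) (3 * 3) (hElem H)).symm
    have hne : polyB (3 * 3) u ≠ 0 := fun h => e.ne_zero (Subtype.ext (by
      rw [he, ← hcoe]; exact congrArg Subtype.val h))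
    have hinv : ((polyB (3 * 3) u)⁻¹ : modularFunctionFieldFullC k (3 * Y)).1 ∈
        redBase A (3 * Y) := by
      have h1 := congrArg Subtype.val e.mul_inv
      rw [Subring.coe_mul, he, ← hcoe] at h1
      show ((polyB (3 * 3) u : modularFunctionFieldFullC k (3 * Y)) : LaurentSeries k)⁻¹ ∈ _
      rw [inv_eq_of_mul_eq_one_right h1]
      exact SetLike.coe_mem _
    refine ⟨hne, le_antisymm ?_ (ord_nonneg_of_mem_redBase hA Nat.prime_two w hw
      (y := polyB (3 * 3) u) (hcoe ▸ SetLike.coe_mem _))⟩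
    have := ord_nonneg_of_mem_redBase hA Nat.prime_two w hw hinv
    rw [w.ord_inv] at this
    omega
  have hj0 : jR k (3 * Y) - algebraMap k (modularFunctionFieldFullC k (3 * Y)) c ≠ 0 :=
    fun h => by rw [h, w.ord_zero] at hc; omega
  have hord : w.ord (jR k (3 * Y) - algebraMap k (modularFunctionFieldFullC k (3 * Y)) c) =
      w.ord (aeval u P) := by
    rw [← hPu, w.ord_mul hj0 hB0, hBord, add_zero]
  have hPa : P.eval a = 0 := eval_eq_zero_of_ord_pos w hu0 hpos (hord ▸ hc)
  rw [hord]
  constructor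
  · rintro rfl
    simp only [P, map_zero, zero_mul, sub_zero, eval_pow, eval_add, eval_X, eval_one] at hPa ⊢
    have ha0 : a + 1 = 0 := eq_zero_of_pow_eq_zero hPa
    have h1 : w.ord (aeval u (X + 1 : k[X])) = 1 := by
      rw [show (X + 1 : k[X]) = X - C a from by
        rw [eq_neg_of_add_eq_zero_left ha0, map_neg, map_one]; ring, map_sub, aeval_X, aeval_C]
      exact ha1
    rw [map_pow, FFPlaces.ord_pow, h1]
    norm_num
  · intro hc0
    refine ord_aeval_eq_one w hu0 ha1 hPa ?_
    have hder : P.derivative.eval a = c * (a ^ 8 * (a + 1) ^ 2) := derivative_eval_nine h2k c a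
    simp only [P, B, eval_sub, eval_mul, eval_pow, eval_add, eval_C, eval_X, eval_one] at hPa
    have haz : a ≠ 0 := fun h => by
      rw [h] at hPa
      simp at hPa
    have ha1' : a + 1 ≠ 0 := fun h => hc0 (by
      rw [h, eq_neg_of_add_eq_zero_left h] at hPa
      linear_combination hPa)
    rw [hder]
    exact mul_ne_zero hc0 (mul_ne_zero (pow_ne_zero _ haz) (pow_ne_zero _ ha1'))

/-- Three divides the orders of the zeros of `j` in characteristic `q` at a level without elliptic
points. -/
theorem three_dvd_ord_jR {q Y : ℕ} [NeZero Y] (hq : q.Prime) (hqY : ¬ q ∣ Y) (h3 : 3 ∣ Y)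
    (hν : nuThree Y = 0) (hA : A.LiesOverPrime q) (v : Place k (modularFunctionFieldFullC k Y))
    (hv : 0 < v.ord (jR k Y)) : (3 : ℤ) ∣ v.ord (jR k Y) := by
  classical
  obtain ⟨HN, g, c, Hd, Hb, G⟩ := TwoComp.hasGoodModel_split hq hqY (Or.inr h3) hA
  have hy : GoodReductionModular.liftK A (jqModC A) = jqModC Qbar :=
    ModularFunctionField.coeffMap_jqC _
  have hmem : jB Y ∈ (GoodReductionModular.gaussReduction HN).V :=
    ⟨jqModC A, 1, by rw [hy]; exact TwoComp.jqModC_mem_FB Y, by rw [map_one]; exact one_mem _,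
      by rw [map_one]; exact one_ne_zero, by rw [map_one, mul_one, hy]; rfl⟩
  have hres : (GoodReductionModular.gaussReduction HN).res ⟨jB Y, hmem⟩ = jR k Y :=
    Subtype.ext (by
      rw [GoodReductionModular.gaussReduction_res_eq HN ⟨jB Y, hmem⟩ (y₁ := jqModC A) (y₂ := 1)
        (by simp) (by rw [map_one, mul_one, hy]; rfl), map_one, div_one,
        ModularFunctionField.coeffMap_jqC]
      rfl)
  have hne : jR k Y ≠ 0 := fun h => by rw [h, v.ord_zero] at hv; omega
  have hdiv := G.divMap_div (x := ⟨jB Y, hmem⟩) (hres ▸ hne)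
  rw [hres] at hdiv
  set E := G.riemann.div (jB Y) + TwoComp.jPoles Y with hE
  have hEdvd : ∀ P, (3 : ℤ) ∣ E P := by
    intro P
    rw [hE, Finsupp.add_apply, G.riemann.div_apply, TwoComp.jPoles, TwoComp.poleDiv_apply]
    rcases le_or_gt (P.ord (jB Y)) 0 with h | h
    · rw [max_eq_left (by omega)]; simp
    · rw [max_eq_right (by omega), add_zero]
      have h' : 0 < P.ord (ModCurveGenus.jEl Y - algebraMap Qbar _ 0) := by
        rwa [map_zero, sub_zero, ← TwoComp.jB_eq_jEl]
      have := ResidualCarayol.ord_jEl_sub_eq (ResidualCarayol.nuTwo_eq_zero_of_three_dvd h3) hν 0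
        P h'
      rw [map_zero, sub_zero, map_zero, ModCurveGenus.ellMult, if_pos rfl,
        ← TwoComp.jB_eq_jEl] at this
      exact ⟨1, by rw [this]; norm_num⟩
  have h := congrArg (fun D : Divisor k _ => D v) (map_add G.divMap (G.riemann.div (jB Y))
    (TwoComp.jPoles Y))
  change G.divMap E v = _ at h
  have : NeZero q := ⟨hq.ne_zero⟩
  rw [Finsupp.add_apply, hdiv, TwoComp.Conj.jPoles_divMap hq hA HN G hqY, TwoComp.poleDiv_apply,
    G.riemann'.div_apply, max_eq_right (by omega), add_zero] at h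
  rw [← h, G.divMap_apply_eq_sum]
  exact Finset.dvd_sum fun P _ => by
    split_ifs
    · exact hEdvd P
    · exact dvd_zero _

set_option linter.unusedVariables false in
variable (A) in
/-- No ramification index of level `3 Y` over level `Y` is divisible by three. -/
theorem not_three_dvd_mult (hA : A.LiesOverPrime 2)
    {Y Z : ℕ} [NeZero Y] [NeZero Z]
    (hZ : Z = 3 * Y) (h2 : ¬ 2 ∣ Y) (hY : Squarefree Y) (h3 : 3 ∣ Y)
    (hr : ∃ r, r.Prime ∧ r ∣ Y ∧ r % 3 = 2 ∧ r ≠ 2)
    (v : Place k (modularFunctionFieldFullC k Y)) (w : Place k (modularFunctionFieldFullC k Z))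
    (e : ℕ)
    (hvw : ∀ (f : modularFunctionFieldFullC k Y)
      (hf : (f : LaurentSeries k) ∈ modularFunctionFieldFullC k Z),
      w.ord ⟨f, hf⟩ = e * v.ord f)
    (hv : 0 ≤ v.ord (jR k Y)) : ¬ 3 ∣ e := by
  have : IsAlgClosed (IsLocalRing.ResidueField A) := GaloisBasics.residueField_isAlgClosed A
  subst hZ
  obtain ⟨r, hr1, hr2, hr3, -⟩ := hr
  rintro ⟨e', rfl⟩
  obtain ⟨c, hc⟩ := exists_residue_const v hv
  have hc' : 0 < v.ord (jR k Y - algebraMap k _ c) := hc.resolve_left fun h =>
    TwoComp.transcendental_jR k Y (h ▸ isAlgebraic_algebraMap c)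
  have hle : w.ord (jR k (3 * Y) - algebraMap k _ c) =
      ((3 * e' : ℕ) : ℤ) * v.ord (jR k Y - algebraMap k _ c) :=
    hvw (jR k Y - algebraMap k _ c) (jR k (3 * Y) - algebraMap k _ c).2
  rcases Nat.eq_zero_or_pos e' with rfl | he'
  · -- the index is positive as `j` is not constant at `w`
    have hw : w.ord (jR k (3 * Y)) = 0 :=
      (hvw (jR k Y) (jR k (3 * Y)).2).trans (by simp)
    obtain ⟨d, hd⟩ := exists_residue_const w hw.ge
    have hd' : 0 < w.ord (jR k (3 * Y) - algebraMap k _ d) := hd.resolve_left fun h =>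
      TwoComp.transcendental_jR k (3 * Y) (h ▸ isAlgebraic_algebraMap d)
    have hd0 : w.ord (jR k (3 * Y) - algebraMap k _ d) = 0 :=
      (hvw (jR k Y - algebraMap k _ d) (jR k (3 * Y) - algebraMap k _ d).2).trans (by simp)
    omega
  have hpos : 0 < w.ord (jR k (3 * Y) - algebraMap k _ c) := by
    rw [hle]; exact mul_pos (by omega) hc'
  obtain ⟨h12, h1⟩ := ord_jR_sub hA h2 h3 w c hpos
  rw [hle] at h12 h1
  push_cast at h12 h1
  by_cases hc0 : c = 0
  · have h := h12 hc0
    subst hc0
    rw [map_zero, sub_zero] at hc' h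
    obtain ⟨t, ht⟩ := three_dvd_ord_jR Nat.prime_two h2 h3 (nuThree_eq_zero_of_prime hr1 hr2 hr3)
      hA v hc'
    rw [ht] at h
    have h4 : (3 : ℤ) ∣ 4 := ⟨(e' : ℤ) * t, by linarith⟩
    norm_num at h4
  · have h := h1 hc0
    have : (e' : ℤ) * v.ord (jR k Y - algebraMap k _ c) * 3 = 1 := by linarith
    omega

end Fermat.Agent.LevelLowering.Away
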