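import Fermat.Agent.LevelLowering.Away.DescendMult
import Fermat.Agent.LevelLowering.Away.DescendTwo

/-!
# Descent of divisibility from the level `h Y` to the level `Y`

The multiplicities are at most `h`, so prime to `p` except for `p = 3`, `q = 2`, where a prime
`r ≡ 2 mod 3` dividing `Y` removes the multiplicity `3`.
-/

set_option autoImplicit false

noncomputable section

open ModularCurve AlgebraicCurve
open Fermat.Agent.TwoComp (jR)

namespace Fermat.Agent.LevelLowering.Away

/-- Divisibility at the finite places descends from `h Y` to `Y`. -/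
theorem descendPlaces : DescendPlaces := by
  intro Y q p _ _ hq hp hp2 hqp hsq hhY hadm A hA u hY hZ hu v hv
  have : IsAlgClosed (IsLocalRing.ResidueField A) := GaloisBasics.residueField_isAlgClosed A
  obtain ⟨hco, hYsq, -⟩ := Nat.squarefree_mul_iff.mp hsq
  have hqY : ¬ q ∣ Y := hq.coprime_iff_not_dvd.mp hco.symm
  have hcoZ : (auxPrime q * Y).Coprime q := Nat.Coprime.mul_left
    ((Nat.coprime_primes (auxPrime_prime q) hq).mpr auxPrime_ne) hco
  have : NeZero q := ⟨hq.ne_zero⟩
  have hk := TwoComp.natCast_residue_ne_zero hq hA hcoZ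
  obtain ⟨w, e, he0, hle, hw⟩ := exists_place_mult
    (inclR (IsLocalRing.ResidueField A) (dvd_mul_left Y (auxPrime q))) v
  rw [finrankAlong_inclR (IsLocalRing.ResidueField A) (auxPrime_prime q) hhY rfl hk] at hle
  have hwj : 0 ≤ w.ord (jR (IsLocalRing.ResidueField A) (auxPrime q * Y)) := by
    rw [show jR (IsLocalRing.ResidueField A) (auxPrime q * Y) =
      inclR (IsLocalRing.ResidueField A) (dvd_mul_left Y (auxPrime q))
        (jR (IsLocalRing.ResidueField A) Y) from rfl, hw]
    positivity
  have hdvd : (p : ℤ) ∣ e * v.ord ⟨u, hY⟩ := hw ⟨u, hY⟩ ▸ hu w hwj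
  refine dvd_of_dvd_mult_mul hp (fun hpe => ?_) hdvd
  have hple : p ≤ auxPrime q := (Nat.le_of_dvd he0 hpe).trans hle
  have hp3 : 3 ≤ p := by
    have := hp.two_le
    omega
  by_cases hq2 : q = 2
  · subst hq2
    have h3 : auxPrime 2 = 3 := if_pos rfl
    have hp' : p = 3 := by omega
    subst hp'
    rcases hadm with h5 | ⟨-, h2, -⟩ | ⟨-, -, hr⟩
    · omega
    · exact h2 rfl
    · exact not_three_dvd_mult A hA (by rw [h3]) hqY hYsq (h3 ▸ hhY) hr v w e
        (fun f hf => hw f) hv hpe
  · have : auxPrime q = 2 := if_neg hq2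
    omega

end Fermat.Agent.LevelLowering.Away
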