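import Fermat.Agent.EisensteinDescent.HeckeGalois
import Fermat.Agent.EisensteinDescent.JZeroDivisible
import Fermat.Agent.JacCompare.Main
import Fermat.Agent.MW.Form.Descent
import Fermat.Agent.MW.Weak.Translate

/-!
# Hecke operators vanishing on cusp forms vanish on `J₀(N)`

An endomorphism of a divisible Galois module of classes which commutes with Galois and kills the
torsion vanishes: by the height, a Galois orbit of bounded size meets only finitely many torsion
classes and no infinitely divisible class of infinite order.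
-/

set_option autoImplicit false

noncomputable section

open scoped TensorProduct
open ModularCurve
open Fermat.Agent.HeckeDatum (AwayPoly toHeckeAlg evalForms)

namespace Fermat.Agent.LevelLowering.Away

local notation "Qb" => AlgebraicClosure ℚ
local notation "GQ" => AlgebraicClosure ℚ ≃ₐ[ℚ] AlgebraicClosure ℚ

section Height

variable {A₀ : Type} [CommRing A₀] [Algebra ℚ A₀] [IsDedekindDomain (Qb ⊗[ℚ] A₀)]

/-- A height on the classes: multiplied by about `4` under doubling, with finitely many classes of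
bounded height and bounded orbit. -/
theorem exists_classHeight (D₀ : MW.CurveBasis ℚ A₀) :
    ∃ (h : Additive (ClassGroup (Qb ⊗[ℚ] A₀)) → ℝ) (C : ℝ),
      (∀ x, |h (2 • x) - 4 * h x| ≤ C) ∧
      ∀ (d : ℕ) (B : ℝ), {x | Nat.card (MulAction.orbit GQ x) ≤ d ∧ h x ≤ B}.Finite := by
  classical
  set hd := MW.Global.heightData D₀
  obtain ⟨S, hS⟩ := MW.exists_translates (D₀.baseChange Qb)
  obtain ⟨Cp, hCp, hpar⟩ := hd.exists_parallelogram
  obtain ⟨Cg, hCg, hgood⟩ := hd.exists_q_good
    fun E φ Qs hz hΔ => (MW.Global.DQ D₀).notMem_fibre_of_eval_ne_zero E φ Qs hz hΔ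
  refine ⟨hd.q, 2 * Cp, fun x => ?_, fun d B => ?_⟩
  · have h1 := abs_le.mp (hpar x x)
    have h0 := abs_le.mp (hpar 0 0)
    rw [← two_nsmul, sub_self] at h1
    rw [add_zero, sub_self] at h0
    rw [abs_le]
    constructor <;> linarith [h1.1, h1.2, h0.1, h0.2]
  set Q := ∑ c ∈ S, |hd.q c|
  set T := 2 * |B| + 2 * Q + Cp + 2 * Cg
  set N := d * (∑ c ∈ S, Nat.card (MulAction.orbit GQ c)) * (MW.Global.DQ D₀).genus
  have hT := MW.Global.finite_points D₀ N ((MW.Global.DQ D₀).embDeg * T)
  set Es : Finset (Multiset (MW.Pt Qb (Qb ⊗[ℚ] A₀))) := hT.toFinset.powerset.image Finset.val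
  refine (Finset.finite_toSet ((Es ×ˢ S).image fun z => MW.cl z.1 - z.2)).subset ?_
  rintro x ⟨hxd, hxB⟩
  obtain ⟨c, hc, ⟨E, hE, hEc⟩, ⟨F, hF, hFc⟩⟩ := hS x
  have horb : Nat.card (MulAction.orbit GQ (x + c)) ≤
      d * ∑ c ∈ S, Nat.card (MulAction.orbit GQ c) := by
    have hfx := MW.Global.finite_orbit_class D₀ x
    have hfc := MW.Global.finite_orbit_class D₀ c
    have : Finite (MulAction.orbit GQ x) := hfx.to_subtype
    have : Finite (MulAction.orbit GQ c) := hfc.to_subtype
    have hsub : MulAction.orbit GQ (x + c) ⊆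
        Set.range fun w : MulAction.orbit GQ x × MulAction.orbit GQ c =>
          (w.1 : Additive (ClassGroup (Qb ⊗[ℚ] A₀))) + w.2 := by
      rintro _ ⟨σ, rfl⟩
      exact ⟨(⟨_, MulAction.mem_orbit x σ⟩, ⟨_, MulAction.mem_orbit c σ⟩), (smul_add σ x c).symm⟩
    refine (Nat.card_mono (Set.finite_range _) hsub).trans ((Finite.card_range_le _).trans ?_)
    rw [Nat.card_prod]
    exact Nat.mul_le_mul hxd (Finset.single_le_sum
      (f := fun c => Nat.card (MulAction.orbit GQ c)) (fun _ _ => Nat.zero_le _) hc)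
  rw [Finset.mem_coe, Finset.mem_image]
  refine ⟨(E, c), Finset.mem_product.mpr ⟨?_, hc⟩, show MW.cl E - c = _ by rw [hEc]; abel⟩
  refine Finset.mem_image.mpr ⟨⟨E, hE.1⟩, Finset.mem_powerset.mpr fun P hP => ?_, rfl⟩
  have hPE : P ∈ E := hP
  rw [Set.Finite.mem_toFinset]
  refine ⟨?_, ?_⟩
  · refine (MW.Global.card_orbit_le_of_good D₀ 0 (x + c) (fun σ => smul_zero σ) E hE
      (by rw [zero_add, hEc]) hPE).trans ?_
    exact Nat.mul_le_mul_right _ horb
  · have hQc : |hd.q c| ≤ Q :=
      Finset.single_le_sum (f := fun c => |hd.q c|) (fun _ _ => abs_nonneg _) hc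
    have h1 := (abs_le.mp (hpar x c)).2
    have h3 := hgood F hF
    have h3' : 0 ≤ (F.map hd.hO).sum := Multiset.sum_nonneg fun r hr => by
      obtain ⟨P', -, rfl⟩ := Multiset.mem_map.mp hr
      exact hd.hO_nonneg P'
    rw [hFc] at h3
    have h4 := hgood E hE
    rw [hEc] at h4
    have h5 := abs_le.mp hQc
    have h6 : hd.hO P ≤ (E.map hd.hO).sum := by
      obtain ⟨E', rfl⟩ := Multiset.exists_cons_of_mem hPE
      rw [Multiset.map_cons, Multiset.sum_cons]
      refine le_add_of_nonneg_right (Multiset.sum_nonneg fun r hr => ?_)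
      obtain ⟨P', -, rfl⟩ := Multiset.mem_map.mp hr
      exact hd.hO_nonneg P'
    have h7 : hd.hO P ≤ T := by
      have := le_abs_self B
      linarith [h5.2]
    have ha := MW.Global.embDeg_pos D₀
    have h8 : hd.hO P = MW.Global.hpt D₀ P / (MW.Global.DQ D₀).embDeg := rfl
    rw [h8, div_le_iff₀ ha] at h7
    linarith

end Height

section Module

variable {M : Type*} [AddCommGroup M]

/-- Iterating the doubling estimate. -/
theorem abs_pow_four_mul_sub_le {h : M → ℝ} {C : ℝ} (hC : ∀ x, |h (2 • x) - 4 * h x| ≤ C) (z : M)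
    (k : ℕ) : |h (2 ^ k • z) - 4 ^ k * h z| ≤ C * (4 ^ k - 1) / 3 := by
  induction k with
  | zero => simp
  | succ k ih =>
    rw [pow_succ' 2 k, mul_smul]
    have h1 := abs_le.mp (hC (2 ^ k • z))
    have h2 := abs_le.mp ih
    rw [abs_le]
    constructor <;> · rw [pow_succ]; nlinarith [h1.1, h1.2, h2.1, h2.2]

/-- Torsion has bounded height. -/
theorem height_le_of_isOfFinAddOrder {h : M → ℝ} {C : ℝ}
    (hC : ∀ x, |h (2 • x) - 4 * h x| ≤ C) {z : M} (hz : IsOfFinAddOrder z) : h z ≤ C := by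
  have hC0 : 0 ≤ C := (abs_nonneg _).trans (hC z)
  have hfin : (Set.range fun k : ℕ => 2 ^ k • z).Finite :=
    (hz.finite_multiples).subset (by rintro _ ⟨k, rfl⟩; exact ⟨2 ^ k, rfl⟩)
  obtain ⟨k, -, m, -, hkm, he⟩ :=
    Set.infinite_univ.exists_lt_map_eq_of_mapsTo (f := fun k : ℕ => 2 ^ k • z)
      (fun k _ => Set.mem_range_self k) hfin
  set w := 2 ^ k • z with hw
  obtain ⟨j, rfl⟩ : ∃ j, m = k + 1 + j := ⟨m - k - 1, by omega⟩
  have hloop : 2 ^ (1 + j) • w = w := by
    rw [hw, ← mul_smul, ← pow_add, show 1 + j + k = k + 1 + j by ring]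
    exact he.symm
  have h1 := abs_pow_four_mul_sub_le hC w (1 + j)
  rw [hloop, abs_le] at h1
  have h4 : (4 : ℝ) ≤ 4 ^ (1 + j) := le_self_pow₀ (by norm_num) (by omega)
  have hwC : h w ≤ C / 3 := by nlinarith [h1.1, h1.2]
  have h2 := abs_pow_four_mul_sub_le hC z k
  rw [← hw, abs_le] at h2
  have h5 : (1 : ℝ) ≤ 4 ^ k := one_le_pow₀ (by norm_num)
  nlinarith [h2.1, h2.2]

variable [DistribMulAction GQ M]

/-- An endomorphism commuting with Galois which kills the torsion of a divisible module with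
height is zero. -/
theorem endo_eq_zero_of_torsion {h : M → ℝ} {C : ℝ} (hC : ∀ x, |h (2 • x) - 4 * h x| ≤ C)
    (hN : ∀ (d : ℕ) (B : ℝ), {x | Nat.card (MulAction.orbit GQ x) ≤ d ∧ h x ≤ B}.Finite)
    (horb : ∀ x : M, (MulAction.orbit GQ x).Finite)
    (hdiv : ∀ n : ℕ, 0 < n → ∀ x : M, ∃ y, n • y = x) (f : M →+ M)
    (hf : ∀ (σ : GQ) (x : M), f (σ • x) = σ • f x) (hft : ∀ x, IsOfFinAddOrder x → f x = 0)
    (x : M) : f x = 0 := by
  classical
  have key : ∀ (x : M) (n : ℕ), 0 < n → ∃ z, n • f z = f x ∧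
      Nat.card (MulAction.orbit GQ (f z)) ≤ Nat.card (MulAction.orbit GQ x) := by
    intro x n hn
    obtain ⟨z, hz⟩ := hdiv n hn x
    refine ⟨z, by rw [← map_nsmul, hz], ?_⟩
    have hle : MulAction.stabilizer GQ x ≤ MulAction.stabilizer GQ (f z) := fun σ hσ => by
      have h1 : f (σ • z - z) = 0 := hft _ (isOfFinAddOrder_iff_nsmul_eq_zero.mpr ⟨n, hn, by
        rw [nsmul_sub, smul_comm n σ, hz, MulAction.mem_stabilizer_iff.mp hσ, sub_self]⟩)
      rwa [map_sub, sub_eq_zero, hf] at h1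
    have : Finite (MulAction.orbit GQ x) := (horb x).to_subtype
    rw [Nat.card_coe_set_eq, Nat.card_coe_set_eq, ← MulAction.index_stabilizer,
      ← MulAction.index_stabilizer]
    refine Nat.le_of_dvd ?_ (Subgroup.index_dvd_of_le hle)
    rw [MulAction.index_stabilizer, ← Nat.card_coe_set_eq]
    have : Nonempty (MulAction.orbit GQ x) := (MulAction.nonempty_orbit x).to_subtype
    exact Nat.card_pos
  have htor : ∀ x, IsOfFinAddOrder (f x) := fun x => by
    choose z hz hzd using fun k : ℕ => key x (2 ^ k) (Nat.two_pow_pos k)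
    have hle : ∀ k, h (f (z k)) ≤ |h (f x)| + C := fun k => by
      have h1 := abs_pow_four_mul_sub_le hC (f (z k)) k
      rw [hz, abs_le] at h1
      have hC0 : 0 ≤ C := (abs_nonneg _).trans (hC x)
      have h5 : (1 : ℝ) ≤ 4 ^ k := one_le_pow₀ (by norm_num)
      nlinarith [h1.1, h1.2, le_abs_self (h (f x)), abs_nonneg (h (f x))]
    obtain ⟨k, -, m, -, hkm, he⟩ :=
      Set.infinite_univ.exists_lt_map_eq_of_mapsTo (f := fun k => f (z k))
        (fun k _ => show f (z k) ∈ {w | Nat.card (MulAction.orbit GQ w) ≤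
          Nat.card (MulAction.orbit GQ x) ∧ h w ≤ |h (f x)| + C} from ⟨hzd k, hle k⟩) (hN _ _)
    have h2 : 2 ^ m • f (z k) = 2 ^ k • f (z k) := by
      replace he : f (z k) = f (z m) := he
      rw [hz, he, hz]
    obtain ⟨j, hj⟩ : ∃ j, 2 ^ m = 2 ^ k + (j + 1) :=
      ⟨2 ^ m - 2 ^ k - 1, by have := Nat.pow_lt_pow_right one_lt_two hkm; omega⟩
    rw [hj, add_nsmul, add_eq_left] at h2
    rw [← hz k]
    exact IsOfFinAddOrder.nsmul (isOfFinAddOrder_iff_nsmul_eq_zero.mpr ⟨j + 1, Nat.succ_pos j, h2⟩)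
  have hT := hN (Nat.card (MulAction.orbit GQ x)) C
  set n := ∏ w ∈ hT.toFinset.filter (fun w => IsOfFinAddOrder w), addOrderOf w
  have hn : 0 < n := Finset.prod_pos fun w hw => (Finset.mem_filter.mp hw).2.addOrderOf_pos
  obtain ⟨z, hz, hzd⟩ := key x n hn
  rw [← hz]
  refine addOrderOf_dvd_iff_nsmul_eq_zero.mp (Finset.dvd_prod_of_mem _ ?_)
  exact Finset.mem_filter.mpr
    ⟨hT.mem_toFinset.mpr ⟨hzd, height_le_of_isOfFinAddOrder hC (htor z)⟩, htor z⟩

end Module

variable {N : ℕ} [NeZero N] {S : Set ℕ} (hNS : ∀ q : ℕ, q.Prime → q ∣ N → q ∈ S)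

/-- **A formal operator vanishing on cusp forms kills `J₀(N)`.** -/
theorem toHeckeAlg_smul_eq_zero {P : AwayPoly S} (hP : evalForms hNS P = 0) (x : JZero N) :
    (letI := heckeModuleBar N; toHeckeAlg S P • x) = 0 := by
  let := heckeModuleBar N
  have hcomm := HeckeCommute.heckeOperatorsCommuteBar N
  have hgal : ∀ (P : AwayPoly S) (σ : GQ) (y : JZero N),
      toHeckeAlg S P • (σ • y) = σ • (toHeckeAlg S P • y) := by
    intro P
    induction P using MvPolynomial.induction_on with
    | C a =>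
      intro σ y
      rw [show toHeckeAlg S (MvPolynomial.C a) = MvPolynomial.C a by simp [toHeckeAlg],
        heckeModuleBar_C_smul, heckeModuleBar_C_smul]
      exact (map_zsmul (DistribSMul.toAddMonoidHom (JZero N) σ) a y).symm
    | add P P' hP hP' =>
      intro σ y
      rw [map_add, add_smul, add_smul, hP, hP', smul_add]
    | mul_X P i hP =>
      intro σ y
      rw [map_mul, mul_smul, mul_smul,
        show toHeckeAlg S (MvPolynomial.X i) = heckeGen i.1 by simp [toHeckeAlg, heckeGen],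
        heckeModuleBar_heckeGen_smul hcomm, heckeModuleBar_heckeGen_smul hcomm,
        ← EisensteinDescent.galois_smul_heckeOperatorBar, hP]
  have htors : ∀ n : ℕ, 0 < n → ∀ y : JZero N, n • y = 0 → toHeckeAlg S P • y = 0 := by
    intro n
    induction n using Nat.recOnPosPrimePosCoprime with
    | prime_pow l k hl hk =>
      intro _ y hy
      exact (JacCompare.jacobianFaithful_all hNS hl).smul_eq_zero P hP k y hy
    | zero => intro h; exact absurd h (lt_irrefl 0)
    | one => intro _ y hy; rw [one_nsmul] at hy; rw [hy, smul_zero]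
    | coprime a b ha hb hab iha ihb =>
      intro _ y hy
      obtain ⟨u, v, huv⟩ := Nat.isCoprime_iff_coprime.mpr hab
      have h1 : toHeckeAlg S P • (a • y) = 0 :=
        ihb (by omega) _ (by rw [← mul_smul, mul_comm, hy])
      have h2 : toHeckeAlg S P • (b • y) = 0 := iha (by omega) _ (by rw [← mul_smul, hy])
      rw [smul_comm] at h1 h2
      calc toHeckeAlg S P • y = (u * (a : ℤ) + v * (b : ℤ)) • (toHeckeAlg S P • y) := by
            rw [huv, one_zsmul]
        _ = 0 := by
          rw [add_zsmul, mul_zsmul, mul_zsmul, natCast_zsmul, natCast_zsmul, h1, h2, zsmul_zero,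
            zsmul_zero, add_zero]
  obtain ⟨h, C, hC, hfin⟩ := exists_classHeight (MW.Modular.curveBasisQ N)
  set e := MW.Modular.jzeroEquiv N
  have he := MW.Modular.jzeroEquiv_smul N
  have himg : ∀ y, MulAction.orbit GQ (e y) = e '' MulAction.orbit GQ y := fun y => by
    ext w
    constructor
    · rintro ⟨σ, rfl⟩
      exact ⟨σ • y, MulAction.mem_orbit y σ, he σ y⟩
    · rintro ⟨_, ⟨σ, rfl⟩, rfl⟩
      exact ⟨σ, (he σ y).symm⟩
  refine endo_eq_zero_of_torsion (h := fun y => h (e y)) (C := C) (fun y => ?_) (fun d B => ?_)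
    (fun y => ?_) (fun n hn y => EisensteinDescent.exists_nsmul_eq_jZero N hn y)
    (DistribSMul.toAddMonoidHom (JZero N) (toHeckeAlg S P)) (hgal P) (fun y hy => ?_) x
  · show |h (e (2 • y)) - 4 * h (e y)| ≤ C
    rw [map_nsmul]
    exact hC (e y)
  · refine ((hfin d B).preimage e.injective.injOn).subset ?_
    rintro y ⟨hy, hyB⟩
    refine ⟨?_, hyB⟩
    rwa [himg, Nat.card_image_of_injective e.injective]
  · refine Set.Finite.of_finite_image ?_ e.injective.injOn
    rw [← himg]
    exact MW.Global.finite_orbit_class (MW.Modular.curveBasisQ N) _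
  · obtain ⟨n, hn, hny⟩ := isOfFinAddOrder_iff_nsmul_eq_zero.mp hy
    exact htors n hn y hny

end Fermat.Agent.LevelLowering.Away
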