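import Fermat.Agent.LevelLowering.Away.Defs
import Fermat.Agent.LevelLowering.Away.WordFaithful
import Fermat.Agent.HeckeEigen.Lift
import Fermat.Agent.HeckeEigen.Integral
import Fermat.Agent.CuspIntStr.Main
import Fermat.Agent.HeckeCommute

/-!
# Eigen elements of Hecke stable quotients of `J₀(X)`

An element of `J₀(X)` outside a Hecke stable subgroup `K`, killed by `p` modulo `K` and with the
eigenvalues `a_ℓ(W)` modulo `K`, gives a character of the Hecke algebra of cusp forms to `ℤ/p`,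
hence an eigenform of level `X` congruent to `W`.
-/

set_option autoImplicit false

noncomputable section

open ModularCurve
open Fermat.Agent.HeckeDatum (AwayPoly AwayPrimes toHeckeAlg evalForms evalForms_surjective)

namespace Fermat.Agent.LevelLowering.Away

section Character

variable {p X : ℕ} [Fact p.Prime] [NeZero X] {S : Set ℕ}
  (hXS : ∀ q : ℕ, q.Prime → q ∣ X → q ∈ S) (K : AddSubgroup (JZero X)) (x : JZero X)
  (a : AwayPrimes S → ℤ)

/-- An eigen element modulo a Hecke stable subgroup gives a character of the Hecke algebra. -/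
theorem exists_ringHom_of_eigenQuotient
    (hK : ∀ ℓ : AwayPrimes S, ∀ y ∈ K, heckeOperatorBar X ℓ.1 y ∈ K)
    (hx : x ∉ K) (hpx : p • x ∈ K)
    (ha : ∀ ℓ : AwayPrimes S, heckeOperatorBar X ℓ.1 x - a ℓ • x ∈ K) :
    ∃ ψ : CuspForm.heckeAlgebra X 2 S →+* ZMod p, Function.Surjective ψ ∧
      ∀ ℓ : AwayPrimes S, ψ (CuspForm.heckeAlgebra.T ℓ.1.2
        (fun h => ℓ.2 (hXS _ ℓ.1.2 h)) ℓ.2) = (a ℓ : ZMod p) := by
  let := heckeModuleBar X
  have hcomm := HeckeCommute.heckeOperatorsCommuteBar X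
  let θ : AwayPoly S →+* ZMod p :=
    MvPolynomial.eval₂Hom (Int.castRingHom _) fun ℓ => ((a ℓ : ℤ) : ZMod p)
  have hgen : ∀ (ℓ : AwayPrimes S) (y : JZero X),
      toHeckeAlg S (MvPolynomial.X ℓ) • y = heckeOperatorBar X ℓ.1 y := fun ℓ y => by
    rw [show toHeckeAlg S (MvPolynomial.X ℓ) = heckeGen ℓ.1 by simp [toHeckeAlg, heckeGen],
      heckeModuleBar_heckeGen_smul hcomm]
  have hkey : ∀ P : AwayPoly S, (∀ y ∈ K, toHeckeAlg S P • y ∈ K) ∧
      ∃ m : ℤ, (m : ZMod p) = θ P ∧ toHeckeAlg S P • x - m • x ∈ K := by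
    intro P
    induction P using MvPolynomial.induction_on with
    | C c =>
      have e : ∀ y : JZero X, toHeckeAlg S (MvPolynomial.C c) • y = c • y := fun y => by
        rw [show toHeckeAlg S (MvPolynomial.C c) = MvPolynomial.C c by simp [toHeckeAlg],
          heckeModuleBar_C_smul]
      refine ⟨fun y hy => e y ▸ K.zsmul_mem hy c, c, by simp [θ], ?_⟩
      rw [e, sub_self]
      exact K.zero_mem
    | add P Q hP hQ =>
      obtain ⟨hP1, m, hm, hPm⟩ := hP
      obtain ⟨hQ1, n, hn, hQn⟩ := hQ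
      refine ⟨fun y hy => ?_, m + n, by rw [Int.cast_add, map_add, hm, hn], ?_⟩
      · rw [map_add, add_smul]
        exact K.add_mem (hP1 y hy) (hQ1 y hy)
      · rw [map_add, add_smul, add_zsmul, add_sub_add_comm]
        exact K.add_mem hPm hQn
    | mul_X P ℓ hP =>
      obtain ⟨hP1, m, hm, hPm⟩ := hP
      refine ⟨fun y hy => ?_, a ℓ * m, ?_, ?_⟩
      · rw [map_mul, mul_smul, hgen]
        exact hP1 _ (hK ℓ y hy)
      · rw [Int.cast_mul, map_mul, hm, mul_comm (θ P)]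
        simp [θ]
      · rw [map_mul, mul_smul, hgen,
          show toHeckeAlg S P • heckeOperatorBar X ℓ.1 x - (a ℓ * m) • x =
            toHeckeAlg S P • (heckeOperatorBar X ℓ.1 x - a ℓ • x) +
              a ℓ • (toHeckeAlg S P • x - m • x) by
            rw [smul_sub, zsmul_sub, mul_zsmul, smul_comm (toHeckeAlg S P) (a ℓ)]; abel]
        exact K.add_mem (hP1 _ (ha ℓ)) (K.zsmul_mem hPm _)
  have hker : ∀ P : AwayPoly S, evalForms hXS P = 0 → θ P = 0 := by
    intro P hP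
    obtain ⟨-, m, hm, hPm⟩ := hkey P
    rw [toHeckeAlg_smul_eq_zero hXS hP x, zero_sub, neg_mem_iff] at hPm
    rw [← hm, ZMod.intCast_zmod_eq_zero_iff_dvd]
    by_contra hdvd
    obtain ⟨u, v, huv⟩ :=
      ((Nat.prime_iff_prime_int.mp (Fact.out : p.Prime)).coprime_iff_not_dvd).mpr hdvd
    refine hx ?_
    have : x = u • ((p : ℤ) • x) + v • (m • x) := by
      rw [← mul_zsmul, ← mul_zsmul, ← add_zsmul, huv, one_zsmul]
    rw [this, natCast_zsmul]
    exact K.add_mem (K.zsmul_mem hpx u) (K.zsmul_mem hPm v)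
  let ψ : CuspForm.heckeAlgebra X 2 S →+* ZMod p :=
    RingHom.liftOfRightInverse (evalForms hXS) _
      (Function.rightInverse_surjInv (evalForms_surjective hXS))
      ⟨θ, fun P hP => RingHom.mem_ker.mpr (hker P (RingHom.mem_ker.mp hP))⟩
  have hψ : ∀ P, ψ (evalForms hXS P) = θ P := fun P =>
    RingHom.liftOfRightInverse_comp_apply _ _ _ _ P
  refine ⟨ψ, fun z => ⟨(z.val : CuspForm.heckeAlgebra X 2 S), by
    rw [map_natCast, ZMod.natCast_zmod_val]⟩, fun ℓ => ?_⟩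
  simpa [θ, evalForms] using hψ (MvPolynomial.X ℓ)

end Character

/-- An eigen element of a Hecke stable quotient of `J₀(X)` gives a congruence at level `X`. -/
theorem eigenQuotient : EigenQuotient := by
  intro W p X _ _ _ hp _ _ S K hK x hx hpx ha
  have := Fact.mk hp
  set T : Finset ℕ := S ∪ X.primeFactors
  have hXT : ∀ q : ℕ, q.Prime → q ∣ X → q ∈ (T : Set ℕ) := fun q hq h =>
    Finset.mem_union_right _ (Nat.mem_primeFactors.mpr ⟨hq, h, NeZero.ne X⟩)
  have hS : ∀ ℓ : AwayPrimes (T : Set ℕ), ((ℓ.1 : ℕ)) ∉ S := fun ℓ h =>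
    ℓ.2 (Finset.mem_union_left _ h)
  obtain ⟨ψ, hψ, hψT⟩ := exists_ringHom_of_eigenQuotient (S := (T : Set ℕ)) hXT K x
    (fun ℓ => W.apOfModel ℓ.1)
    (fun ℓ => hK ℓ.1 (fun h => ℓ.2 (hXT _ ℓ.1.2 h)) (hS ℓ)) hx hpx
    (fun ℓ => ha ℓ.1 (fun h => ℓ.2 (hXT _ ℓ.1.2 h)) (hS ℓ))
  obtain ⟨f, hf, Q, hQ, hchar, hT, -⟩ :=
    HeckeEigen.exists_eigenform_congruent (CuspIntStr.hasIntegralStructure X 2) ψ hψ
  refine ⟨f, Q, hf, hQ, by simpa using hchar (p : ℤ) (by simp), T, fun ℓ hℓ hℓT => ?_⟩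
  exact hT ℓ hℓ (fun h => hℓT (hXT ℓ hℓ h)) hℓT _ (hψT ⟨⟨ℓ, hℓ⟩, hℓT⟩)

end Fermat.Agent.LevelLowering.Away
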