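import Fermat.Agent.Carayol.Upper
import Fermat.Agent.CarayolReduction.Degeneracy
import Fermat.Agent.CarayolReduction.Core
import Fermat.Agent.TwoComp.Export
import Fermat.Agent.TwoComp.FibreDegree
import Fermat.Agent.Conn.SheetsPoint

/-!
# The model of level `q²Z` and the functions of level `Zq`

A function of level `Zq` read on the three components, Gauss units and units on the components,
and the centre on the reduced model of a place of the reduced curve at which `j` is finite.
-/

set_option autoImplicit false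

noncomputable section

attribute [-instance] IsLocalRing.ResidueField.algebraOfIsIntegral
attribute [local instance 2000] SubalgebraClass.toAlgebra

open ModularCurve AlgebraicCurve
open Fermat.Agent.CarayolFF
open Fermat.Agent.Carayol (inertiaField unramInt levelField model toModel coe_toModel threeSheet)
open Fermat.Agent.TwoComp (Conj gres jR upα upβ)

namespace Fermat.Agent.LevelLowering.Away.Finite

local notation "Qb" => AlgebraicClosure ℚ
local notation "FB" => modularFunctionFieldBar

variable {A : ValuationSubring Qb} {q Z : ℕ} [NeZero Z]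

/-- `Zq` divides `q²Z`. -/
theorem mul_dvd_sq (q Z : ℕ) : Z * q ∣ q ^ 2 * Z := ⟨q, by ring⟩

theorem mul_dvd_swap (q Z : ℕ) : Z * q ∣ q * Z := ⟨1, by ring⟩

section Incl

variable [NeZero q]

theorem level_le_sq (q Z : ℕ) [NeZero q] [NeZero Z] : FB (Z * q) ≤ FB (q ^ 2 * Z) :=
  CarayolReduction.bar_mono (mul_dvd_sq q Z)

/-- A function of level `Zq` at level `q²Z`. -/
def incl : FB (Z * q) →ₐ[Qb] FB (q ^ 2 * Z) := IntermediateField.inclusion (level_le_sq q Z)

/-- `incl` leaves the expansion unchanged. -/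
theorem coe_incl (f : FB (Z * q)) : (incl f : LaurentSeries Qb) = f := by
  rw [incl]
  exact IntermediateField.coe_inclusion _ f

/-- On the middle component a function of level `Zq` keeps its expansion. -/
theorem compHom_one_incl (hq : q.Prime) (hqZ : ¬ q ∣ Z) (f : FB (Z * q)) :
    compHom hq hqZ 1 (incl f) = (f : LaurentSeries Qb) := by
  let z : FB (q * Z) := IntermediateField.inclusion (CarayolReduction.bar_mono (mul_dvd_swap q Z)) f
  have e : alphaIncl q Z z = incl f :=
    Subtype.ext ((coe_alphaIncl q Z z).trans ((IntermediateField.coe_inclusion _ f).trans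
      (coe_incl f).symm))
  rw [compHom_one, ← e, middle_alphaIncl]
  exact IntermediateField.coe_inclusion _ f

/-- On the last component a function of level `Zq` is `qExpand q` of its image under `w_q`. -/
theorem compHom_two_incl (hq : q.Prime) (hqZ : ¬ q ∣ Z) (C : Conj Z q) (f : FB (Z * q)) :
    compHom hq hqZ 2 (incl f) = qExpand Qb q (C.w f : LaurentSeries Qb) := by
  let ι : FB (Z * q) →ₐ[Qb] FB (q ^ 2 * Z) := incl
  refine DFunLike.congr_fun (baseExt
    (φ := (FB (q ^ 2 * Z)).val.comp ((atkin hq hqZ).comp ι))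
    (ψ := (qExpandHom q).comp ((FB (Z * q)).val.comp C.w.toAlgHom)) fun d => ?_) f
  show (atkin hq hqZ (ι (ModCurveGenus.gen (Z * q) d)) : LaurentSeries Qb) =
    qExpand Qb q (C.w (ModCurveGenus.gen (Z * q) d) : LaurentSeries Qb)
  have hd := ModCurveGenus.Dvs.dvd d
  by_cases hqd : q ∣ d.1
  · obtain ⟨e, he⟩ := hqd
    have heZ : e ∣ Z := by
      rw [he, mul_comm Z] at hd
      exact Nat.dvd_of_mul_dvd_mul_left hq.pos hd
    let x : FB Z := ModCurveGenus.gen Z ⟨e, Nat.mem_divisors.mpr ⟨heZ, NeZero.ne Z⟩⟩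
    have : NeZero e := ⟨fun h0 => by simp [h0] at heZ; exact NeZero.ne Z heZ⟩
    have h1 : ModCurveGenus.gen (Z * q) d = upβ Z q x := by
      refine Subtype.ext ((Eq.trans ?_ (coe_heckeBetaBar Z q x).symm))
      show coeffEmb Qb (qExpand ℚ d.1 jq) = qExpand Qb q (coeffEmb Qb (qExpand ℚ e jq))
      rw [coeffEmb, ModularFunctionField.coeffMap_qExpand', ModularFunctionField.coeffMap_qExpand',
        qExpand_qExpand]
      exact qExpand_congr he _
    have h2 : ι (upβ Z q x) = raiseHom q Z 1 x := by
      refine Subtype.ext ?_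
      rw [coe_raiseHom]
      exact (coe_incl _).trans ((coe_heckeBetaBar Z q x).trans (qExpand_congr (pow_one q).symm _))
    rw [h1, h2, atkin_raiseHom, C.w_beta, coe_heckeAlphaBar, coe_raiseHom]
    exact qExpand_congr (pow_one q) _
  · have hdZ : d.1 ∣ Z :=
      (Nat.Coprime.symm (hq.coprime_iff_not_dvd.mpr hqd)).dvd_of_dvd_mul_right hd
    let x : FB Z := ModCurveGenus.gen Z ⟨d.1, Nat.mem_divisors.mpr ⟨hdZ, NeZero.ne Z⟩⟩
    have h1 : ModCurveGenus.gen (Z * q) d = upα Z q x :=
      Subtype.ext (Eq.trans rfl (coe_heckeAlphaBar Z q x).symm)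
    have h2 : ι (upα Z q x) = raiseHom q Z 0 x := by
      refine Subtype.ext ?_
      rw [coe_raiseHom]
      exact (coe_incl _).trans ((coe_heckeAlphaBar Z q x).trans
        ((qExpand_congr (pow_zero q) _).trans (qExpand_one_apply _)).symm)
    rw [h1, h2, atkin_raiseHom, C.w_alpha, coe_raiseHom, coe_heckeBetaBar, qExpand_qExpand]
    exact qExpand_congr (sq q) _

/-- The expansions of the level field on the three components. -/
def expo (hq : q.Prime) (hqZ : ¬ q ∣ Z) (i : Fin 3) :
    levelField (inertiaField A) (q ^ 2 * Z) →+* LaurentSeries Qb :=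
  (compHom hq hqZ i).toRingHom.comp (Carayol.Local.levelToBar (q ^ 2 * Z) A)

/-- Constants keep their value on every component. -/
theorem expo_C (hq : q.Prime) (hqZ : ¬ q ∣ Z) (i : Fin 3) {y : Qb}
    {c : levelField (inertiaField A) (q ^ 2 * Z)}
    (hc : (c : LaurentSeries Qb) = HahnSeries.C y) : expo hq hqZ i c = HahnSeries.C y := by
  have e : Carayol.Local.levelToBar (q ^ 2 * Z) A c = algebraMap Qb (FB (q ^ 2 * Z)) y :=
    Subtype.ext (hc.trans (algebraMap_laurentSeries_eq_single Qb y).symm)
  show compHom hq hqZ i (Carayol.Local.levelToBar (q ^ 2 * Z) A c) = _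
  rw [e, AlgHom.commutes, algebraMap_laurentSeries_eq_single, ← HahnSeries.C_apply]

end Incl

/-- An element of the Gauss ring with nonzero residue is a Gauss unit. -/
theorem isGaussUnit_gres {x : LaurentSeries Qb} (h : x ∈ gaussRing A) (h0 : gres A x ≠ 0) :
    IsGaussUnit A x :=
  ⟨h, fun h' => h0 ((TwoComp.gres_of_mem h).trans h')⟩

theorem isGaussUnit_pow {x : LaurentSeries Qb} (h : IsGaussUnit A x) (m : ℕ) :
    IsGaussUnit A (x ^ m) := by
  induction m with
  | zero => rw [pow_zero]; exact IsGaussUnit.one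
  | succ m ih => rw [pow_succ]; exact ih.mul h

theorem gres_natCast_self (hA : A.LiesOverPrime q) :
    (q : LaurentSeries Qb) ∈ gaussRing A ∧ gres A (q : LaurentSeries Qb) = 0 := by
  have hqA : (q : Qb) ∈ A := _root_.natCast_mem A q
  obtain ⟨h1, h2⟩ := TwoComp.gres_C (A := A) hqA
  rw [map_natCast] at h1 h2
  refine ⟨h1, h2.trans ?_⟩
  rw [show (⟨(q : Qb), hqA⟩ : A) = (q : A) from Subtype.ext (by push_cast; rfl), map_natCast,
    residue_natCast_self hA, map_zero]

theorem eq_zero_of_isGaussUnit_zpow (hA : A.LiesOverPrime q) {a : ℤ}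
    (h : IsGaussUnit A ((q : LaurentSeries Qb) ^ a)) : a = 0 := by
  have key : ∀ m : ℕ, IsGaussUnit A ((q : LaurentSeries Qb) ^ m) → m = 0 := fun m hm => by
    by_contra h0
    obtain ⟨hmem, hres⟩ := gres_natCast_self hA
    apply hm.2
    rw [← TwoComp.gres_of_mem, TwoComp.gres_pow hmem, hres, zero_pow h0]
  obtain ⟨m, rfl | rfl⟩ := a.eq_nat_or_neg
  · rw [zpow_natCast] at h
    rw [key m h, Nat.cast_zero]
  · rw [zpow_neg, zpow_natCast] at h
    have h' := h.inv
    rw [inv_inv] at h'
    rw [key m h', Nat.cast_zero, neg_zero]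

section Sheet

variable [NeZero q] {hA : A.LiesOverPrime q} {hq : q.Prime} {hqZ : ¬ q ∣ Z}
  (D : Carayol.BaseData A q Z hA hq) [IsIntegrallyClosed (redBase A Z)]
  (U : Carayol.UpperData hqZ D) [IsLocalRing (unramInt A)] [IsNoetherianRing (unramInt A)]

omit [IsNoetherianRing ↥(unramInt A)] in
/-- On the model, the residue of an expansion is the reduction on that component. -/
theorem gres_expo (i : Fin 3) (b : (threeSheet D U).B) :
    expo hq hqZ i (b : levelField (inertiaField A) (q ^ 2 * Z)) ∈ gaussRing A ∧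
      gres A (expo hq hqZ i (b : levelField (inertiaField A) (q ^ 2 * Z))) =
        ((threeSheet D U).r i b : LaurentSeries (IsLocalRing.ResidueField A)) := by
  set m : model A (q ^ 2 * Z) := toModel A (q ^ 2 * Z) b
  have hm : expo hq hqZ i (b : levelField (inertiaField A) (q ^ 2 * Z)) =
      compHom hq hqZ i (m : FB (q ^ 2 * Z)) := rfl
  have h1 : (TwoComp.resData A).redSeries 1 ≠ 0 := by rw [map_one]; exact one_ne_zero
  obtain ⟨h, e⟩ := TwoComp.gres_of_intSeries
    (x := compHom hq hqZ i (m : FB (q ^ 2 * Z)))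
    (a := ⟨compHom hq hqZ i (m : FB (q ^ 2 * Z)), compHom_mem_intSeries hA hq hqZ i m.2⟩) (b := 1)
    h1 (mul_one _)
  rw [hm]
  refine ⟨h, e.trans ?_⟩
  rw [map_one, div_one]
  rfl

omit [IsNoetherianRing ↥(unramInt A)] in
theorem isGaussUnit_expo_of_unitAt {i : Fin 3} {x : levelField (inertiaField A) (q ^ 2 * Z)}
    (h : (threeSheet D U).UnitAt i x) : IsGaussUnit A (expo hq hqZ i x) := by
  obtain ⟨s, t, hs, ht, e⟩ := h
  have key : ∀ b, (threeSheet D U).r i b ≠ 0 →
      IsGaussUnit A (expo hq hqZ i (b : levelField (inertiaField A) (q ^ 2 * Z))) := fun b hb =>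
    isGaussUnit_gres (gres_expo D U i b).1 fun h0 =>
      hb (Subtype.ext ((gres_expo D U i b).2.symm.trans h0))
  have e' := congrArg (expo hq hqZ i) e
  rw [map_mul] at e'
  have hx := (key t ht).mul (key s hs).inv
  rwa [← e', mul_comm (expo hq hqZ i (s : levelField (inertiaField A) (q ^ 2 * Z))),
    mul_inv_cancel_right₀ (key s hs).ne_zero] at hx

omit [IsNoetherianRing ↥(unramInt A)] in
/-- A function whose expansion is a Gauss unit is a unit on that component. -/
theorem unitAt_of_isGaussUnit {i : Fin 3} {x : levelField (inertiaField A) (q ^ 2 * Z)}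
    (h : IsGaussUnit A (expo hq hqZ i x)) : (threeSheet D U).UnitAt i x := by
  have hx : x ≠ 0 := fun h0 => h.ne_zero (by rw [h0, map_zero])
  obtain ⟨a, ha, hu⟩ := (threeSheet D U).exists_hasOrd i hx
  refine hu ?_
  suffices hz : IsGaussUnit A ((q : LaurentSeries Qb) ^ (-a)) by
    have := eq_zero_of_isGaussUnit_zpow hA hz
    omega
  by_cases hi : i = 1
  · subst hi
    rw [(threeSheet D U).hasOrd_mid] at ha
    have h' := isGaussUnit_expo_of_unitAt D U ha
    rw [map_mul, map_pow, map_zpow₀, map_natCast] at h'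
    have hp := isGaussUnit_pow h (q - 1)
    have h'' := hp.inv.mul h'
    rwa [inv_mul_cancel_left₀ hp.ne_zero] at h''
  · rw [(threeSheet D U).hasOrd_outer hi] at ha
    have h' := isGaussUnit_expo_of_unitAt D U ha
    rw [map_mul, map_zpow₀, map_natCast] at h'
    have h'' := h.inv.mul h'
    rwa [inv_mul_cancel_left₀ h.ne_zero] at h''

end Sheet

local notation "k" => IsLocalRing.ResidueField A

/-- The reduced model lies in the reduced curve. -/
theorem redBase_le (hA : A.LiesOverPrime q) (hq : q.Prime) (hqZ : ¬ q ∣ Z) (hZ : 2 ∣ Z ∨ 3 ∣ Z) :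
    redBase A Z ≤ (modularFunctionFieldFullC k Z).toSubfield.toSubring := by
  intro y hy
  obtain ⟨x, hx, h, rfl⟩ := mem_redBase.mp hy
  obtain ⟨HN, -⟩ := TwoComp.hasGoodModel_split hq hqZ hZ hA
  have h1 : (TwoComp.resData A).redSeries 1 ≠ 0 := by rw [map_one]; exact one_ne_zero
  obtain ⟨hg, e⟩ := TwoComp.gres_of_intSeries (x := (x : LaurentSeries Qb))
    (a := ⟨(x : LaurentSeries Qb), h⟩) (b := 1) h1 (mul_one _)
  have hm := TwoComp.gres_mem_of_input HN x hg
  rw [e, map_one, div_one] at hm
  exact hm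

/-- An element integral over a ring landing in a valuation ring lands there too. -/
theorem mem_of_isIntegralElem {R B F : Type*} [CommRing R] [CommRing B] [Field F] (φ : R →+* B)
    (θ : B →+* F) (O : ValuationSubring F) (h : ∀ r, θ (φ r) ∈ O) {x : B}
    (hx : φ.IsIntegralElem x) : θ x ∈ O := by
  obtain ⟨p, hp, hpx⟩ := hx
  let θ' : R →+* O := (θ.comp φ).codRestrict O h
  have hint : IsIntegral O (θ x) := by
    refine ⟨p.map θ', hp.map _, ?_⟩
    rw [Polynomial.eval₂_map]
    have h' := congrArg θ hpx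
    rw [map_zero, Polynomial.hom_eval₂] at h'
    exact h'
  obtain ⟨z, hz⟩ := IsIntegrallyClosed.isIntegral_iff.mp hint
  rw [← hz]
  exact z.2

theorem coe_const_redBase (c : unramInt A) :
    (algebraMap (unramInt A) (redBase A Z) c : LaurentSeries k) =
      algebraMap k (LaurentSeries k)
        (IsLocalRing.residue A ⟨(c : Qb), (Carayol.mem_unramInt_iff.mp c.2).1⟩) := by
  rw [coe_algebraMap_redBase, HahnSeries.C_apply]
  exact (algebraMap_laurentSeries_eq_single k _).symm

theorem const_mem_redBase (hA : A.LiesOverPrime q) (hq : q.Prime) (c : k) :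
    algebraMap k (LaurentSeries k) c ∈ redBase A Z := by
  obtain ⟨x, hx, rfl⟩ := Carayol.Local.exists_unramInt_residue hA hq c
  have e := coe_const_redBase (Z := Z) (⟨(x : Qb), hx⟩ : unramInt A)
  rw [← e]
  exact SetLike.coe_mem _

/-- Reduction of an integral series, as a Gauss residue. -/
theorem redSeries_eq_gres {x : LaurentSeries Qb} (hx : x ∈ (Carayol.resData A).intSeries) :
    (Carayol.resData A).redSeries ⟨x, hx⟩ = gres A x := by
  have h1 : (TwoComp.resData A).redSeries 1 ≠ 0 := by rw [map_one]; exact one_ne_zero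
  obtain ⟨-, e⟩ := TwoComp.gres_of_intSeries (x := x) (a := ⟨x, hx⟩) (b := 1) h1 (mul_one _)
  rw [map_one, div_one] at e
  exact e.symm

theorem jqModCd_mem_redBase (hA : A.LiesOverPrime q) (hq : q.Prime) {d : ℕ} [NeZero d]
    (hd : d ∣ Z) : qExpand k d (jqModC k) ∈ redBase A Z := by
  have hx := Carayol.coeffEmb_qExpand_jq_mem_model A hd
  refine mem_redBase.mpr ⟨_, hx, coe_mem_intSeries_of_model hA hq hx, ?_⟩
  rw [redSeries_eq_gres]
  show gres A (coeffEmb Qb (qExpand ℚ d jq)) = _
  rw [coeffEmb, ModularFunctionField.coeffMap_qExpand', ← jqModC_rat,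
    ModularFunctionField.coeffMap_jqC]
  exact (TwoComp.gres_jd d).2

theorem redModel_jModel (hA : A.LiesOverPrime q) (hq : q.Prime) :
    (redModel hA hq (toModel A Z (Carayol.Local.jModel Z A)) : LaurentSeries k) = jqModC k := by
  rw [coe_redModel, redSeries_eq_gres]
  show gres A Carayol.jBar = _
  rw [jBar_eq, TwoComp.gres_jqModC.2]

theorem redModel_const (hA : A.LiesOverPrime q) (hq : q.Prime) (c : unramInt A) :
    redModel hA hq (algebraMap (unramInt A) (model A Z) c) =
      algebraMap (unramInt A) (redBase A Z) c :=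
  (Carayol.r0Model hA hq).commutes c

/-- The reduced model is integral over polynomials in `j`. -/
theorem mem_of_redModel (hA : A.LiesOverPrime q) (hq : q.Prime)
    (ψ : redBase A Z →+* modularFunctionFieldFullC k Z)
    (hψ : ∀ y, (ψ y : LaurentSeries k) = (y : LaurentSeries k))
    (v : Place k (modularFunctionFieldFullC k Z)) (hv : 0 ≤ v.ord (jR k Z)) (y : redBase A Z) :
    ψ y ∈ v.toValuationSubring := by
  obtain ⟨x, rfl⟩ := redModel_surjective hA hq y
  obtain ⟨b, rfl⟩ : ∃ b, toModel A Z b = x := ⟨(toModel A Z).symm x, AlgEquiv.apply_symm_apply _ x⟩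
  let θ : Carayol.Local.modelAlg Z A →+* modularFunctionFieldFullC k Z :=
    ψ.comp ((redModel hA hq).comp (toModel A Z).toAlgHom.toRingHom)
  have hθ : ∀ z, θ z = ψ (redModel hA hq (toModel A Z z)) := fun _ => rfl
  have hC : ∀ c : unramInt A,
      θ (algebraMap (unramInt A) (Carayol.Local.modelAlg Z A) c) ∈ v.toValuationSubring := by
    intro c
    rw [hθ, AlgEquiv.commutes, redModel_const hA hq]
    have e : ψ (algebraMap (unramInt A) (redBase A Z) c) =
        algebraMap k (modularFunctionFieldFullC k Z)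
          (IsLocalRing.residue A ⟨(c : Qb), (Carayol.mem_unramInt_iff.mp c.2).1⟩) := by
      apply Subtype.ext
      rw [hψ, coe_const_redBase]
      exact (IntermediateField.coe_algebraMap_apply _ _).symm
    rw [e]
    exact v.algebraMap_mem' _
  have hj : θ (Carayol.Local.jModel Z A) = jR k Z := by
    apply Subtype.ext
    rw [hθ, hψ, redModel_jModel hA hq]
    rfl
  refine mem_of_isIntegralElem (Carayol.Local.jAlgHom Z A).toRingHom θ v.toValuationSubring
    (fun p => ?_) ((Carayol.Local.jAlgHom_finite Z hA hq).to_isIntegral b)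
  show θ (Carayol.Local.jAlgHom Z A p) ∈ v.toValuationSubring
  induction p using Polynomial.induction_on with
  | C c =>
    rw [show Carayol.Local.jAlgHom Z A (Polynomial.C c) =
      algebraMap (unramInt A) _ c from (Carayol.Local.jAlgHom Z A).commutes c]
    exact hC c
  | add p p' hp hp' => rw [map_add, map_add]; exact add_mem hp hp'
  | monomial m c hc =>
    rw [pow_succ, ← mul_assoc, map_mul, map_mul]
    refine mul_mem hc ?_
    rw [show Carayol.Local.jAlgHom Z A Polynomial.X = Carayol.Local.jModel Z A from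
      Polynomial.aeval_X _, hj]
    exact (FFPlaces.mem_iff v).mpr hv

/-- Not every nonzero element of the reduced model has order zero. -/
theorem exists_ord_ne_zero (hA : A.LiesOverPrime q) (hq : q.Prime)
    (ψ : redBase A Z →+* modularFunctionFieldFullC k Z)
    (hψ : ∀ y, (ψ y : LaurentSeries k) = (y : LaurentSeries k))
    (v : Place k (modularFunctionFieldFullC k Z)) : ∃ y, v.ord (ψ y) ≠ 0 := by
  by_contra! hz
  let S : Subalgebra k (LaurentSeries k) :=
    { (redBase A Z).toSubsemiring with algebraMap_mem' := const_mem_redBase hA hq }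
  have hS : Algebra.adjoin k (divisorExpansionsC k Z) ≤ S := by
    refine Algebra.adjoin_le ?_
    rintro _ ⟨d, _, hd, rfl⟩
    exact jqModCd_mem_redBase hA hq hd
  obtain ⟨z, hz0, hz1⟩ := FunctionField.exists_ord_eq v 1
  obtain ⟨a, ha, b, hb, hab⟩ := IntermediateField.mem_adjoin_iff_div.mp z.2
  let ya : redBase A Z := ⟨a, hS ha⟩
  let yb : redBase A Z := ⟨b, hS hb⟩
  have hzab : z = ψ ya / ψ yb := by
    refine Subtype.ext (hab.trans ?_)
    rw [IntermediateField.coe_div, hψ, hψ]
  obtain ⟨hna, hnb⟩ := div_ne_zero_iff.mp (hzab ▸ hz0)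
  rw [hzab, FFPlaces.ord_div v hna hnb, hz, hz, sub_zero] at hz1
  exact zero_ne_one hz1

/-- The centre on the reduced model of a place at which `j` is finite. -/
theorem exists_centre (hA : A.LiesOverPrime q) (hq : q.Prime) [IsDedekindDomain (redBase A Z)]
    (ψ : redBase A Z →+* modularFunctionFieldFullC k Z)
    (hψ : ∀ y, (ψ y : LaurentSeries k) = (y : LaurentSeries k))
    (v : Place k (modularFunctionFieldFullC k Z)) (hv : 0 ≤ v.ord (jR k Z)) :
    ∃ P : Ideal (redBase A Z), P.IsMaximal ∧ ∀ y, y ∉ P → v.ord (ψ y) = 0 := by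
  have hO := mem_of_redModel hA hq ψ hψ v hv
  let χ : redBase A Z →+* v.toValuationSubring := ψ.codRestrict v.toValuationSubring hO
  have hunit : ∀ y, IsUnit (χ y) → v.ord (ψ y) = 0 := by
    intro y hy
    obtain ⟨z, hz⟩ := isUnit_iff_exists_inv.mp hy
    have hz' : ψ y * (z : modularFunctionFieldFullC k Z) = 1 := congrArg Subtype.val hz
    have h1 := (FFPlaces.mem_iff v).mp (hO y)
    have h2 := (FFPlaces.mem_iff v).mp z.2
    rw [eq_inv_of_mul_eq_one_right hz', v.ord_inv] at h2
    omega
  set P := (IsLocalRing.maximalIdeal v.toValuationSubring).comap χ with hP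
  have hnot : ∀ y, y ∉ P → v.ord (ψ y) = 0 := fun y hy =>
    hunit y (IsLocalRing.notMem_maximalIdeal.mp fun h => hy h)
  have hPp : P.IsPrime := Ideal.comap_isPrime _ _
  refine ⟨P, Ideal.IsPrime.isMaximal hPp fun hbot => ?_, hnot⟩
  obtain ⟨y, hy⟩ := exists_ord_ne_zero hA hq ψ hψ v
  refine hy (hnot y fun h => hy ?_)
  rw [hbot, Ideal.mem_bot] at h
  rw [h, map_zero, v.ord_zero]

end Fermat.Agent.LevelLowering.Away.Finite
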