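import Fermat.Agent.LevelLowering.Away.Defs
import Fermat.Agent.LevelLowering.Away.FinitePlacesAux

/-!
# The residue at the finite places of a rigidified level

The model of level `q²Z` is locally factorial, so near a closed point of the component through
`∞` the scaled Kummer function is a unit times an `n`-th power.  Reducing this relation shows the
divisibility by `n` of the orders of the residue.
-/

set_option autoImplicit false

noncomputable section

open ModularCurve AlgebraicCurve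
open Fermat.Agent.CarayolFF
open Fermat.Agent.Carayol (inertiaField unramInt levelField threeSheet)
open Fermat.Agent.TwoComp (Conj gres jR)

namespace Fermat.Agent.LevelLowering.Away

local notation "Qb" => AlgebraicClosure ℚ
local notation "FB" => modularFunctionFieldBar

open Fermat.Agent.LevelLowering.Away.Finite

section Generic

variable {W F R Rb : Type*} [CommRing W] [IsLocalRing W] [IsNoetherianRing W] [Field F]
  [Algebra W F] [CommRing R] [Algebra W R] [CommRing Rb] [IsDomain Rb] [Algebra W Rb] {q : ℕ}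
  (T : Conn.ThreeSheet W F R Rb q)

omit [IsDomain Rb] in
/-- A root at a point of the first component, for a function which is a unit up to `n`-th powers
on all components. -/
theorem exists_root_pt {n : ℕ} (hn : 0 < n) {x c c' : F} (hc : c ≠ 0) (hc' : c' ≠ 0)
    (hU0 : T.UnitAt 0 (x * c ^ n)) (hU1 : T.UnitAt 1 (x * c ^ n))
    (hU2 : T.UnitAt 2 (x * c' ^ n))
    (hdiv : ∀ p : Ideal T.B, p.IsPrime → (q : T.B) ∉ p → ∃ (g : F) (s t : T.B),
      s ∉ p ∧ t ∉ p ∧ (s : F) * x = (t : F) * g ^ n)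
    {P : Ideal Rb} (hP : P.IsMaximal) :
    ∃ (G : F) (s t : T.B), T.r 0 s ∉ P ∧ T.r 0 t ∉ P ∧ T.UnitAt 0 G ∧
      (s : F) * (x * c ^ n) = (t : F) * G ^ n := by
  set X := x * c ^ n with hX
  obtain ⟨d, hd, hdX⟩ := T.frac X
  have hdF : (d : F) ≠ 0 := T.ne_zero_of_coe hd
  set b : T.B := d ^ (n - 1) * ⟨_, hdX⟩ with hb
  have hbF : (b : F) = (d : F) ^ n * X := by
    rw [hb, MulMemClass.coe_mul, SubmonoidClass.coe_pow]
    show (d : F) ^ (n - 1) * ((d : F) * X) = _
    rw [← mul_assoc, pow_sub_one_mul hn.ne']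
  have hb0 : b ≠ 0 := fun h =>
    mul_ne_zero (pow_ne_zero n hdF) hU0.ne_zero (hbF ▸ congrArg Subtype.val h)
  have hm : (T.pt 0 P).IsMaximal := T.pt_isMaximal 0 hP
  have hqm : (q : T.B) ∈ T.pt 0 P := by
    rw [T.mem_pt, T.r_q]
    exact zero_mem P
  obtain ⟨g, s, t, hs, ht, e⟩ := T.exists_root_at hm hqm hn hb0 (fun i => by
    fin_cases i
    · obtain ⟨s, t, hs, ht, e⟩ := hU0
      exact ⟨(d : F), s, t, hs, ht, by rw [hbF, ← e]; ring⟩
    · obtain ⟨s, t, hs, ht, e⟩ := hU1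
      exact ⟨(d : F), s, t, hs, ht, by rw [hbF, ← e]; ring⟩
    · obtain ⟨s, t, hs, ht, e⟩ := hU2
      refine ⟨(d : F) * (c / c'), s, t, hs, ht, ?_⟩
      rw [hbF, hX, ← e, mul_pow, div_pow]
      field_simp
      ) (fun p hp hqp => by
    obtain ⟨g, s, t, hs, ht, e⟩ := hdiv p hp hqp
    refine ⟨(d : F) * c * g, s, t, hs, ht, ?_⟩
    rw [hbF, hX, mul_pow, mul_pow]
    linear_combination ((d : F) ^ n * c ^ n) * e)
  rw [hbF] at e
  have hs' : T.r 0 s ∉ P := fun h => hs (T.mem_pt.mpr h)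
  have ht' : T.r 0 t ∉ P := fun h => ht (T.mem_pt.mpr h)
  have e' : (s : F) * X = (t : F) * (g / (d : F)) ^ n := by
    rw [div_pow, ← mul_div_assoc, ← e, eq_div_iff (pow_ne_zero n hdF)]
    ring
  have hsi : T.r 0 s ≠ 0 := fun h => hs' (h ▸ zero_mem P)
  have hti : T.r 0 t ≠ 0 := fun h => ht' (h ▸ zero_mem P)
  refine ⟨g / (d : F), s, t, hs', ht', T.unitAt_of_pow hn ?_, e'⟩
  rw [← mul_div_cancel_left₀ ((g / (d : F)) ^ n)
    (T.ne_zero_of_coe (b := t) fun h => hti (by rw [h, map_zero])), ← e', div_eq_mul_inv]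
  exact ((T.unitAt_of_r 0 hsi).mul hU0).mul (T.unitAt_of_r 0 hti).inv

end Generic

section Sheet

variable {A : ValuationSubring Qb} {q Z n : ℕ} [NeZero q] [NeZero Z]
variable {hA : A.LiesOverPrime q} {hq : q.Prime} {hqZ : ¬ q ∣ Z}
  (D : Carayol.BaseData A q Z hA hq) [IsIntegrallyClosed (redBase A Z)]
  (U : Carayol.UpperData hqZ D) [IsLocalRing (unramInt A)] [IsNoetherianRing (unramInt A)]

local notation "k" => IsLocalRing.ResidueField A

omit [IsIntegrallyClosed (redBase A Z)] [IsLocalRing (unramInt A)]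
  [IsNoetherianRing (unramInt A)] in
theorem levelToBar_eq_incl {x : levelField (inertiaField A) (q ^ 2 * Z)} {f : FB (Z * q)}
    (h : (x : LaurentSeries Qb) = f) : Carayol.Local.levelToBar (q ^ 2 * Z) A x = incl f :=
  Subtype.ext ((Carayol.Local.coe_levelToBar _ x).trans (h.trans (coe_incl f).symm))

omit [IsIntegrallyClosed (redBase A Z)] [IsLocalRing (unramInt A)]
  [IsNoetherianRing (unramInt A)] in
theorem expo_eq_incl (hq : q.Prime) (hqZ : ¬ q ∣ Z) (i : Fin 3)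
    {x : levelField (inertiaField A) (q ^ 2 * Z)} {f : FB (Z * q)}
    (h : (x : LaurentSeries Qb) = f) : expo hq hqZ i x = compHom hq hqZ i (incl f) := by
  rw [expo, RingHom.comp_apply, levelToBar_eq_incl h]
  rfl

/-- The scaled function is locally a unit times an `n`-th power at every closed point of the
component through `∞`. -/
theorem exists_root (hn : 0 < n) {C : Conj Z q} {f : FB (Z * q)}
    (hord : ∀ v : Place Qb (FB (Z * q)), (n : ℤ) ∣ v.ord f)
    (hlev : (f : LaurentSeries Qb) ∈ levelField (inertiaField A) (Z * q))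
    {y₀ y₁ : Qb} (hy₀ : y₀ ∈ inertiaField A) (hy₁ : y₁ ∈ inertiaField A) (h₀ : y₀ ≠ 0)
    (h₁ : y₁ ≠ 0) (hu₀ : IsGaussUnit A ((f : LaurentSeries Qb) * HahnSeries.C y₀ ^ n))
    (hu₁ : IsGaussUnit A ((C.w f : LaurentSeries Qb) * HahnSeries.C y₁ ^ n))
    {P : Ideal (redBase A Z)} (hP : P.IsMaximal) :
    ∃ (X G : levelField (inertiaField A) (q ^ 2 * Z)) (s t : (threeSheet D U).B),
      expo hq hqZ 0 X = (f : LaurentSeries Qb) * HahnSeries.C y₀ ^ n ∧
      (threeSheet D U).r 0 s ∉ P ∧ (threeSheet D U).r 0 t ∉ P ∧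
      (threeSheet D U).UnitAt 0 G ∧
      (s : levelField (inertiaField A) (q ^ 2 * Z)) * X =
        (t : levelField (inertiaField A) (q ^ 2 * Z)) * G ^ n := by
  set T := threeSheet D U
  let x : levelField (inertiaField A) (q ^ 2 * Z) :=
    ⟨f, CarayolReduction.levelField_mono _ (mul_dvd_sq q Z) hlev⟩
  let c₀ : levelField (inertiaField A) (q ^ 2 * Z) :=
    ⟨HahnSeries.C y₀, Carayol.Local.C_mem_levelField _ hy₀⟩
  let c₁ : levelField (inertiaField A) (q ^ 2 * Z) :=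
    ⟨HahnSeries.C y₁, Carayol.Local.C_mem_levelField _ hy₁⟩
  have hbar : Carayol.Local.levelToBar (q ^ 2 * Z) A x = incl f := levelToBar_eq_incl rfl
  have hx : ∀ i, expo hq hqZ i x = compHom hq hqZ i (incl f) := fun i =>
    expo_eq_incl hq hqZ i rfl
  have hc₀ : ∀ i, expo hq hqZ i c₀ = HahnSeries.C y₀ := fun i => expo_C hq hqZ i rfl
  have hc₁ : ∀ i, expo hq hqZ i c₁ = HahnSeries.C y₁ := fun i => expo_C hq hqZ i rfl
  have hc₀0 : c₀ ≠ 0 := fun h => HahnSeries.C_ne_zero h₀ (congrArg Subtype.val h)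
  have hc₁0 : c₁ ≠ 0 := fun h => HahnSeries.C_ne_zero h₁ (congrArg Subtype.val h)
  have e0 : expo hq hqZ 0 (x * c₀ ^ n) = (f : LaurentSeries Qb) * HahnSeries.C y₀ ^ n := by
    rw [map_mul, map_pow, hx, hc₀, compHom_zero, coe_incl]
  have e1 : expo hq hqZ 1 (x * c₀ ^ n) = (f : LaurentSeries Qb) * HahnSeries.C y₀ ^ n := by
    rw [map_mul, map_pow, hx, hc₀, compHom_one_incl]
  have e2 : expo hq hqZ 2 (x * c₁ ^ n) =
      qExpand Qb q ((C.w f : LaurentSeries Qb) * HahnSeries.C y₁ ^ n) := by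
    rw [map_mul, map_pow, hx, hc₁, compHom_two_incl hq hqZ C, map_mul, map_pow, qExpand_C]
  have hu2 : IsGaussUnit A (expo hq hqZ 2 (x * c₁ ^ n)) := by
    obtain ⟨hm, he⟩ := TwoComp.gres_qExpand q hu₁.mem
    rw [e2]
    refine isGaussUnit_gres hm ?_
    rw [he, map_ne_zero]
    intro h
    exact hu₁.2 ((TwoComp.gres_of_mem hu₁.mem).symm.trans h)
  have hordx : ∀ v : Place Qb (FB (q ^ 2 * Z)),
      (n : ℤ) ∣ v.ord (Carayol.Local.levelToBar (q ^ 2 * Z) A x) := fun v => by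
    rw [hbar, v.ord_restrictAlong incl (Hecke.isIntegral_of_isFunctionField _)]
    exact (hord _).mul_left _
  have hU0 : T.UnitAt 0 (x * c₀ ^ n) := unitAt_of_isGaussUnit D U (e0 ▸ hu₀)
  have hU1 : T.UnitAt 1 (x * c₀ ^ n) := unitAt_of_isGaussUnit D U (e1 ▸ hu₀)
  have hU2 : T.UnitAt 2 (x * c₁ ^ n) := unitAt_of_isGaussUnit D U hu2
  obtain ⟨G, s, t, hs, ht, hG, e⟩ := exists_root_pt T hn hc₀0 hc₁0 hU0 hU1 hU2 (fun p hp hqp =>
    @Carayol.Local.exists_mul_eq_mul_pow A q (q ^ 2 * Z) _ hA hq n hn x hordx p hp hqp) hP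
  exact ⟨x * c₀ ^ n, G, s, t, e0, hs, ht, hG, e⟩

include D U in
theorem dvd_ord_of_data (hn : 0 < n) (hZ : 2 ∣ Z ∨ 3 ∣ Z) {C : Conj Z q} {f : FB (Z * q)}
    {u₀ u₁ : LaurentSeries k} (hK : KummerFun A n C f u₀ u₁)
    (v : Place k (modularFunctionFieldFullC k Z)) (hv : 0 ≤ v.ord (jR k Z)) :
    (n : ℤ) ∣ v.ord ⟨u₀, hK.mem₀⟩ := by
  obtain ⟨hu0, y₀, hy₀, h₀, hm₀, hr₀⟩ := hK.res₀
  obtain ⟨hu1, y₁, hy₁, h₁, hm₁, hr₁⟩ := hK.res₁
  have := D.isDedekindDomain
  let ψ : redBase A Z →+* modularFunctionFieldFullC k Z :=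
    (redBase A Z).subtype.codRestrict (modularFunctionFieldFullC k Z)
      fun y => redBase_le hA hq hqZ hZ y.2
  have hψ : ∀ y, (ψ y : LaurentSeries k) = (y : LaurentSeries k) := fun _ => rfl
  obtain ⟨P, hP, hPv⟩ := exists_centre hA hq ψ hψ v hv
  obtain ⟨X, G, s, t, hX, hs, ht, hG, e⟩ := exists_root D U hn hK.ord hK.level₀ hy₀ hy₁
    h₀ h₁ (isGaussUnit_gres hm₀ (hr₀ ▸ hu0)) (isGaussUnit_gres hm₁ (hr₁ ▸ hu1)) hP
  obtain ⟨s', t', hs', ht', e'⟩ := hG
  -- the relation without denominators, reduced on the component through `∞`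
  have eF : (s : levelField (inertiaField A) (q ^ 2 * Z)) * (s' : levelField _ _) ^ n * X =
      (t : levelField _ _) * (t' : levelField _ _) ^ n := by
    rw [← e']
    linear_combination ((s' : levelField (inertiaField A) (q ^ 2 * Z)) ^ n) * e
  have eS := congrArg (fun z => gres A (expo hq hqZ 0 z)) eF
  simp only [map_mul, map_pow, hX] at eS
  have gm := fun b => (gres_expo D U 0 b).1
  rw [TwoComp.gres_mul (mul_mem (gm s) (pow_mem (gm s') n)) hm₀,
    TwoComp.gres_mul (gm s) (pow_mem (gm s') n), TwoComp.gres_mul (gm t) (pow_mem (gm t') n),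
    TwoComp.gres_pow (gm s'), TwoComp.gres_pow (gm t'), (gres_expo D U 0 s).2,
    (gres_expo D U 0 s').2, (gres_expo D U 0 t).2, (gres_expo D U 0 t').2, hr₀] at eS
  have eψ : ψ ((threeSheet D U).r 0 s) * ψ ((threeSheet D U).r 0 s') ^ n * ⟨u₀, hK.mem₀⟩ =
      ψ ((threeSheet D U).r 0 t) * ψ ((threeSheet D U).r 0 t') ^ n := by
    apply Subtype.ext
    push_cast
    exact eS
  have hne : ∀ {y}, y ≠ 0 → ψ y ≠ 0 := fun {y} hy h => hy (Subtype.ext (by
    rw [← hψ y, h]; rfl))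
  have hsi : (threeSheet D U).r 0 s ≠ 0 := fun h => hs (h ▸ zero_mem P)
  have hti : (threeSheet D U).r 0 t ≠ 0 := fun h => ht (h ▸ zero_mem P)
  have hu : (⟨u₀, hK.mem₀⟩ : modularFunctionFieldFullC k Z) ≠ 0 := fun h =>
    hu0 (congrArg Subtype.val h)
  have h := congrArg v.ord eψ
  rw [v.ord_mul (mul_ne_zero (hne hsi) (pow_ne_zero n (hne hs'))) hu,
    v.ord_mul (hne hsi) (pow_ne_zero n (hne hs')), v.ord_mul (hne hti) (pow_ne_zero n (hne ht')),
    FFPlaces.ord_pow, FFPlaces.ord_pow, hPv _ hs, hPv _ ht] at h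
  exact ⟨v.ord (ψ ((threeSheet D U).r 0 t')) - v.ord (ψ ((threeSheet D U).r 0 s')), by linear_combination h⟩

end Sheet

/-- At a rigidified level the residue has orders divisible by `n` at all finite places. -/
theorem finitePlaces : FinitePlaces := by
  intro Z q n _ _ hq hqZ h4 hn _ C _ A hA f u₀ u₁ hK v hv
  have hZ : 2 ∣ Z ∨ 3 ∣ Z := by
    rcases h4 with ⟨-, h⟩ | ⟨-, h⟩
    · exact Or.inr (dvd_trans (by norm_num) h)
    · exact Or.inl (dvd_trans (by norm_num) h)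
  obtain ⟨M, N', _, _, rfl, H⟩ := Carayol.exists_baseHyp hA hq hqZ h4
  have := Fact.mk hq
  have := (Carayol.baseDataH H).isIntegrallyClosed
  have := Carayol.Local.isDiscreteValuationRing_unramInt hA hq
  exact dvd_ord_of_data (Carayol.baseDataH H) (Carayol.upperDataH H) (Nat.pos_of_ne_zero hn) hZ hK
    v hv

end Fermat.Agent.LevelLowering.Away
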