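import Fermat.Agent.LevelLowering.Away.Defs
import Fermat.Agent.Supersingular.Residual
import Fermat.Agent.OrdinaryExclusion.Eigen
import Fermat.Agent.AtP.ClassQuadratic
import Fermat.Agent.AtP.ClassResidual
import Fermat.Agent.HeckeAlg.EigenCharacter
import Fermat.Agent.EichlerPeriods.HeckeFinite
import Fermat.Agent.TwoComp.Symmetry
import Fermat.Agent.Frobenius.Existence

/-!
# Mazur's principle away from `p`: the eigen package

An eigen class of `W` in `J₀(Xq)[p]` exists by faithfulness of the Hecke action.  By the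
Eichler–Shimura relation Galois acts on the eigen classes through `W[p]`, and `w_q`, which commutes
with Galois, commutes with the good Hecke operators on `J₀(Xq)[p]`.
-/

set_option autoImplicit false

noncomputable section

open AlgebraicCurve ModularCurve
open Fermat.Agent.CarayolReduction (dilHom pushPic pushPic_mk)
open Fermat.Agent.TwoComp (Conj)
open Fermat.Agent.OrdinaryExclusion (eigenPoints frobenius_relation_torsion cayley_hamilton_of_eigen)
open Fermat.Agent.HeckeDatum (AwayPoly toHeckeAlg evalForms)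
open WeierstrassCurve.Affine.Point (galoisRepModuleEnd)

namespace Fermat.Agent.LevelLowering.Away

local notation "Qb" => AlgebraicClosure ℚ
local notation "GQ" => AlgebraicClosure ℚ ≃ₐ[ℚ] AlgebraicClosure ℚ
local notation "FB" => modularFunctionFieldBar

section Eigen

variable (W : WeierstrassCurve ℤ) (p : ℕ) {M : ℕ} [NeZero M]

/-- A congruence at level `M` gives an eigen class in `J₀(M)[p]`. -/
theorem exists_eigenPoint (hΔ : W.Δ ≠ 0) (hp : p.Prime) (hmod : CofiniteResModular W p M) :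
    ∃ S : Finset ℕ, (∀ r : ℕ, r.Prime → (r ∣ M ∨ r = p ∨ ¬ W.IsGoodPrimeFor r) → r ∈ S) ∧
      ∃ z ∈ eigenPoints M p S W.apOfModel, z ≠ 0 := by
  classical
  obtain ⟨f, 𝔪, hf, h𝔪, hp𝔪, S₀, hS₀⟩ := hmod
  set S : Finset ℕ := S₀ ∪ M.primeFactors ∪ {p} ∪ W.Δ.natAbs.primeFactors with hSdef
  have hS : ∀ r : ℕ, r.Prime → (r ∣ M ∨ r = p ∨ ¬ W.IsGoodPrimeFor r) → r ∈ S := by
    intro r hr hcase
    simp only [hSdef, Finset.mem_union, Finset.mem_singleton, Nat.mem_primeFactors]
    rcases hcase with h1 | h1 | h1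
    · exact Or.inl (Or.inl (Or.inr ⟨hr, h1, NeZero.ne _⟩))
    · exact Or.inl (Or.inr h1)
    · exact Or.inr ⟨hr, Int.natCast_dvd.mp (not_not.mp h1), Int.natAbs_ne_zero.mpr hΔ⟩
  have hNS : ∀ r : ℕ, r.Prime → r ∣ M → r ∈ (↑S : Set ℕ) := fun r hr h => hS r hr (Or.inl h)
  let := heckeModuleBar M
  have hcomm := HeckeCommute.heckeOperatorsCommuteBar M
  have := EichlerPeriods.moduleFinite_heckeAlgebra (N := M) 2 (↑S : Set ℕ)
  have : Algebra.IsIntegral ℤ (CuspForm.heckeAlgebra M 2 (↑S : Set ℕ)) :=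
    Algebra.IsIntegral.of_finite ℤ _
  obtain ⟨χ, hχ⟩ := HeckeAlg.exists_eigenCharacter_integral hf (↑S : Set ℕ)
  set θ : AwayPoly (↑S : Set ℕ) →+* integralClosure ℤ ℂ ⧸ 𝔪 :=
    (Ideal.Quotient.mk 𝔪).comp (χ.comp (evalForms hNS)) with hθ
  set m := RingHom.ker θ with hm
  have := h𝔪.isPrime
  have : m.IsPrime := RingHom.ker_isPrime θ
  have hpm : ((p : AwayPoly (↑S : Set ℕ))) ∈ m := by
    rw [hm, RingHom.mem_ker, map_natCast, ← map_natCast (Ideal.Quotient.mk 𝔪),
      Ideal.Quotient.eq_zero_iff_mem]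
    exact hp𝔪
  let : Module (AwayPoly (↑S : Set ℕ)) (JZero M) := Module.compHom _ (toHeckeAlg (↑S : Set ℕ))
  obtain ⟨j, hj⟩ := (JacCompare.jacobianFaithful_all hNS hp).ann_le 1
  let Mj : Submodule (AwayPoly (↑S : Set ℕ)) (JZero M) :=
    { carrier := {x | p ^ j • x = 0}
      zero_mem' := smul_zero _
      add_mem' := fun {a b} ha hb => by
        show p ^ j • (a + b) = 0
        rw [nsmul_add, show p ^ j • a = 0 from ha, show p ^ j • b = 0 from hb, add_zero]
      smul_mem' := fun c x hx => by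
        show p ^ j • (c • x) = 0
        rw [smul_comm, show p ^ j • x = 0 from hx, smul_zero] }
  have : Finite Mj := by
    have hcard := JacCompare.card_torsBy M (p ^ j) (pow_pos hp.pos j)
    have : Finite (JacCompare.torsBy M (p ^ j)) :=
      Nat.finite_of_card_ne_zero (by rw [hcard]; exact pow_ne_zero _ (pow_ne_zero _ hp.ne_zero))
    exact Finite.of_injective (fun x : Mj => (⟨x.1, x.2⟩ : JacCompare.torsBy M (p ^ j)))
      fun x y h => Subtype.ext (congrArg Subtype.val h)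
  obtain ⟨⟨z, hzM⟩, hz0, hzm⟩ :=
    Supersingular.exists_killed_of_finite (M := Mj) m fun P hP => by
      obtain ⟨u, hu⟩ := hj P fun x hx => congrArg Subtype.val (hP ⟨x, hx⟩)
      rw [hm, RingHom.mem_ker, hθ, RingHom.comp_apply, RingHom.comp_apply, hu, pow_one, map_mul,
        map_natCast, map_mul, map_natCast, ← map_natCast (Ideal.Quotient.mk 𝔪),
        Ideal.Quotient.eq_zero_iff_mem.mpr hp𝔪, zero_mul]
  refine ⟨S, hS, z, ⟨?_, fun ℓ hℓ => ?_⟩, fun h => hz0 (Subtype.ext h)⟩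
  · have h := congrArg Subtype.val (hzm _ hpm)
    simp only [SetLike.val_smul, ZeroMemClass.coe_zero] at h
    rwa [Nat.cast_smul_eq_nsmul] at h
  · have hℓS : (ℓ : ℕ) ∉ S₀ := fun h => hℓ (by simp [hSdef, h])
    obtain ⟨a, ha, ha𝔪⟩ := hS₀ ℓ ℓ.2 hℓS
    have hmem : (MvPolynomial.X ⟨ℓ, hℓ⟩ : AwayPoly (↑S : Set ℕ)) -
        ((W.apOfModel ℓ : ℤ) : AwayPoly (↑S : Set ℕ)) ∈ m := by
      rw [hm, RingHom.mem_ker, map_sub, map_intCast, sub_eq_zero,
        ← map_intCast (Ideal.Quotient.mk 𝔪), hθ, RingHom.comp_apply, Ideal.Quotient.mk_eq_mk_iff_sub_mem]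
      have e : χ (evalForms hNS (MvPolynomial.X ⟨ℓ, hℓ⟩)) = a := Subtype.ext (by
        simp only [evalForms, MvPolynomial.eval₂Hom_X']
        rw [hχ, ha])
      rw [RingHom.comp_apply, e]
      exact ha𝔪
    have h := congrArg Subtype.val (hzm _ hmem)
    simp only [SetLike.val_smul, ZeroMemClass.coe_zero] at h
    rw [sub_smul, Int.cast_smul_eq_zsmul, sub_eq_zero] at h
    refine Eq.trans ?_ h
    rw [← heckeModuleBar_heckeGen_smul hcomm]
    show heckeGen ℓ • z = toHeckeAlg _ _ • z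
    congr 1
    simp [toHeckeAlg, heckeGen]

/-- If the system of `W` does not occur at level `M`, `J₀(M)` has no eigen class. -/
theorem eq_zero_of_not_modular (hA1 : EigenQuotient) (hΔ : W.Δ ≠ 0) (hW : W.IsSemistableModel)
    (hp : p.Prime) (hp2 : p ≠ 2) (hirr : W.ModRepIsIrreducible p) (S : Finset ℕ)
    (hM : ¬ CofiniteResModular W p M) (y : JZero M) (hy : p • y = 0)
    (heig : ∀ ℓ : Nat.Primes, ¬ (ℓ : ℕ) ∣ M → (ℓ : ℕ) ∉ S →
      heckeOperatorBar M ℓ y = W.apOfModel ℓ • y) : y = 0 := by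
  by_contra h0
  refine hM (hA1 W p M hΔ hW hp hp2 hirr S ⊥ (fun ℓ _ _ z hz => ?_) y
    (by rwa [AddSubgroup.mem_bot]) (by rw [AddSubgroup.mem_bot, hy]) fun ℓ hℓM hℓS => ?_)
  · rw [AddSubgroup.mem_bot] at hz ⊢
    rw [hz, map_zero]
  · rw [AddSubgroup.mem_bot, sub_eq_zero]
    exact heig ℓ hℓM hℓS

end Eigen

section Involution

variable {X q : ℕ} [NeZero X] [NeZero q] (C : Conj X q)

theorem wPic_wPic (x : JZero (X * q)) : wPic C (wPic C x) = x := by
  obtain ⟨D, rfl⟩ := Pic0.mk_surjective x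
  rw [wPic, pushPic_mk, pushPic_mk]
  refine congrArg Pic0.mk (Subtype.ext ?_)
  have hi := Hecke.isIntegral_of_isFunctionField C.w.toAlgHom
  show Divisor.pushforwardAlong C.w.toAlgHom hi
      (Divisor.pushforwardAlong C.w.toAlgHom hi (D : Divisor Qb (FB (X * q)))) = D
  rw [CarayolReduction.pushforwardAlong_comp (AlgHom.id Qb (FB (X * q))) hi hi
    (Hecke.isIntegral_of_isFunctionField _) (fun y => (C.w_w y).symm)]
  generalize (D : Divisor Qb (FB (X * q))) = E
  induction E using Finsupp.induction with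
  | zero => simp
  | single_add u n E _ _ ih =>
    rw [map_add, ih, CarayolReduction.pushforwardAlong_single']
    rfl

theorem wPic_smul (hq : q.Prime) (σ : GQ) (x : JZero (X * q)) :
    wPic C (σ • x) = σ • wPic C x := by
  set g := arithmeticGalois (modularFunctionFieldFull (X * q)) σ with hg
  obtain ⟨D, rfl⟩ := Pic0.mk_surjective x
  show wPic C (g • Pic0.mk D) = g • wPic C (Pic0.mk D)
  rw [SemilinearAut.pic0_smul_mk, wPic, pushPic_mk, pushPic_mk, SemilinearAut.pic0_smul_mk]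
  refine congrArg Pic0.mk (Subtype.ext ?_)
  have hi := Hecke.isIntegral_of_isFunctionField C.w.toAlgHom
  rw [SemilinearAut.coe_degZeroSMulHom]
  show Divisor.pushforwardAlong C.w.toAlgHom hi (g • (D : Divisor Qb (FB (X * q)))) =
    g • Divisor.pushforwardAlong C.w.toAlgHom hi (D : Divisor Qb (FB (X * q)))
  generalize (D : Divisor Qb (FB (X * q))) = E
  induction E using Finsupp.induction with
  | zero => simp
  | single_add u n E _ _ ih =>
    rw [smul_add, map_add, map_add, smul_add, ih, SemilinearAut.smul_single,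
      CarayolReduction.pushforwardAlong_single', CarayolReduction.pushforwardAlong_single',
      SemilinearAut.smul_single]
    congr 2
    let := algebraAlong C.w.toAlgHom
    have := isScalarTower_along C.w.toAlgHom
    have := isIntegral_along C.w.toAlgHom hi
    exact UnipotentInertia.restrict_smul (K := Qb) (F := FB (X * q)) (F' := FB (X * q))
      (s := g) (s' := g) (fun f => (C.w_galF hq σ f).symm) u

/-- On `J₀(Xq)[p]` the involution commutes with the good Hecke operators. -/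
theorem wPic_hecke (hq : q.Prime) {p : ℕ} (hp : p.Prime) (ℓ : Nat.Primes)
    (hℓ : ¬ (ℓ : ℕ) ∣ X * q) (hℓp : (ℓ : ℕ) ≠ p) {x : JZero (X * q)} (hx : p • x = 0) :
    heckeOperatorBar (X * q) ℓ (wPic C x) = wPic C (heckeOperatorBar (X * q) ℓ x) := by
  obtain ⟨A, hA⟩ := GaloisBasics.exists_liesOverPrime ℓ.2
  obtain ⟨φ, hφ⟩ := Frobenius.exists_isFrobeniusAt ℓ.2 hA
  have hy : p ^ 1 • (φ⁻¹ • x) = 0 := by
    rw [pow_one, OrdinaryExclusion.nsmul_galois_smul, hx]
    exact (DistribSMul.toAddMonoidHom (JZero (X * q)) φ⁻¹).map_zero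
  have h1 := frobenius_relation_torsion hp 1 hy ℓ hℓ hℓp hA hφ
  have hwy : p ^ 1 • wPic C (φ⁻¹ • x) = 0 := by rw [← map_nsmul, hy, map_zero]
  have h2 := frobenius_relation_torsion hp 1 hwy ℓ hℓ hℓp hA hφ
  have h3 := congrArg (wPic C) h1
  rw [map_zero, map_add, map_sub, map_nsmul, wPic_smul C hq] at h3
  simp only [← wPic_smul C hq, smul_inv_smul] at h2 h3
  rw [← h3] at h2
  simpa using h2

end Involution

section Galois

variable (W : WeierstrassCurve ℤ) (p : ℕ) [Fact p.Prime] {M : ℕ} [NeZero M]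

/-- The Galois action on a stable group of classes. -/
def stableAct (E : AddSubgroup (JZero M)) (hgal : ∀ σ : GQ, ∀ x ∈ E, σ • x ∈ E) :
    GQ →* AddMonoid.End E where
  toFun g := AddMonoidHom.mk' (fun z : E => (⟨g • (z : JZero M), hgal g z z.2⟩ : E))
    fun z w => Subtype.ext (smul_add g (z : JZero M) (w : JZero M))
  map_one' := AddMonoidHom.ext fun z => Subtype.ext (one_smul GQ (z : JZero M))
  map_mul' g h := AddMonoidHom.ext fun z => Subtype.ext (mul_smul g h (z : JZero M))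

omit [NeZero M] in
theorem coe_stableAct (E : AddSubgroup (JZero M)) (hgal : ∀ σ : GQ, ∀ x ∈ E, σ • x ∈ E) (g : GQ)
    (z : E) : (stableAct E hgal g z : JZero M) = g • (z : JZero M) := rfl

/-- A quadratic relation with `W[p]` makes the action factor through matrices. -/
theorem exists_matrixHom_of_relation (hΔ : W.Δ ≠ 0) (hp2 : p ≠ 2) (hirr : W.ModRepIsIrreducible p)
    {G : Type} [AddCommGroup G] [Module (ZMod p) G] (act : GQ →* AddMonoid.End G)
    (hrel : ∀ (σ : GQ) (z : G), act σ z + (AtP.curveDet W hΔ p σ).val • act σ⁻¹ z =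
      (AtP.curveRep W hΔ p σ).trace.val • z) :
    ∃ ψ : Matrix (Fin 2) (Fin 2) (ZMod p) →+* AddMonoid.End G,
      ∀ (σ : GQ) (x : G), ψ (AtP.curveRep W hΔ p σ) x = act σ x := by
  have hval : ∀ (c : ZMod p) (w : G), c • w = c.val • w := fun c w => by
    conv_lhs => rw [← ZMod.natCast_zmod_val c, Nat.cast_smul_eq_nsmul]
  let R : GQ →* Module.End (ZMod p) G :=
    { toFun := fun g => AddMonoidHom.toZModLinearMap p (act g : G →+ G)
      map_one' := LinearMap.ext fun z => DFunLike.congr_fun (map_one act) z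
      map_mul' := fun g h => LinearMap.ext fun z => DFunLike.congr_fun (map_mul act g h) z }
  have hrel' : ∀ σ, R σ + AtP.curveDet W hΔ p σ • R σ⁻¹ =
      (AtP.curveRep W hΔ p σ).trace • (1 : Module.End (ZMod p) G) := fun σ =>
    LinearMap.ext fun z => by
      rw [LinearMap.add_apply, LinearMap.smul_apply, LinearMap.smul_apply, Module.End.one_apply,
        hval, hval]
      exact hrel σ z
  obtain ⟨ψ, hψ⟩ := AtP.exists_matrix_algHom hrel' (AtP.span_curveRep W hΔ hp2 hirr)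
    (TWHyp.two_ne_zero_of_ne_two hp2)
  refine ⟨{ toFun := fun A => (ψ A).toAddMonoidHom
            map_one' := by rw [map_one]; rfl
            map_mul' := fun A B => by rw [map_mul]; rfl
            map_zero' := by rw [map_zero]; rfl
            map_add' := fun A B => by rw [map_add]; rfl }, fun σ x => ?_⟩
  show ψ (AtP.curveRep W hΔ p σ) x = _
  rw [hψ]
  rfl

/-- Galois acts on a stable group of eigen classes through `W[p]`. -/
theorem exists_matrixHom (hΔ : W.Δ ≠ 0) (hp2 : p ≠ 2) (hirr : W.ModRepIsIrreducible p)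
    {S : Finset ℕ} (hS : ∀ r : ℕ, r.Prime → (r ∣ M ∨ r = p ∨ ¬ W.IsGoodPrimeFor r) → r ∈ S)
    (E : AddSubgroup (JZero M)) (hE : E ≤ eigenPoints M p S W.apOfModel)
    (hgal : ∀ σ : GQ, ∀ x ∈ E, σ • x ∈ E) :
    ∃ ψ : Matrix (Fin 2) (Fin 2) (ZMod p) →+* AddMonoid.End E,
      ∀ (σ : GQ) (x : E), (ψ (AtP.curveRep W hΔ p σ) x : JZero M) = σ • (x : JZero M) := by
  let : Module (ZMod p) E :=
    AddCommGroup.zmodModule (G := ↥E) fun z => Subtype.ext (hE z.2).1
  obtain ⟨ψ, hψ⟩ := exists_matrixHom_of_relation W p hΔ hp2 hirr (G := ↥E) (stableAct E hgal) fun σ z => Subtype.ext (by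
      have h := cayley_hamilton_of_eigen (a := W.apOfModel) (AtP.curveRep W hΔ p)
        (AtP.curveRep_finiteLevel W hΔ p) (fun ℓ hℓ hℓS A hA φ hφ =>
          AtP.curveRep_frobenius W hΔ p hℓ (fun h => hℓS (hS ℓ hℓ (Or.inr (Or.inl h))))
            (by by_contra h; exact hℓS (hS ℓ hℓ (Or.inr (Or.inr h)))) hA hφ)
        (hE (hgal σ⁻¹ _ z.2)) σ
      rw [smul_inv_smul] at h
      rw [AddSubgroup.coe_add, AddSubgroup.coe_nsmul, AddSubgroup.coe_nsmul, coe_stableAct,
        coe_stableAct]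
      exact h)
  exact ⟨ψ, fun σ x => (congrArg Subtype.val (hψ σ x)).trans (coe_stableAct E hgal σ x)⟩

end Galois

/-- An involution has a sign eigenvector. -/
theorem exists_sign {J : Type*} [AddCommGroup J] (w : J →+ J) {p : ℕ}
    (hp : p.Prime) (hp2 : p ≠ 2) {x : J} (hx : x ≠ 0) (hpx : p • x = 0) :
    ∃ eps : ℤ, (eps = 1 ∨ eps = -1) ∧ x + eps • w x ≠ 0 := by
  by_contra hcon
  push Not at hcon
  have h1 := hcon 1 (Or.inl rfl)
  have h2 := hcon (-1) (Or.inr rfl)
  rw [one_zsmul] at h1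
  rw [neg_one_zsmul] at h2
  have h3 : 2 • x = 0 := by
    rw [two_nsmul]
    calc x + x = x + w x + (x + -w x) := by abel
      _ = 0 := by rw [h1, h2, add_zero]
  have hd2 := addOrderOf_dvd_of_nsmul_eq_zero h3
  have hdp := addOrderOf_dvd_of_nsmul_eq_zero hpx
  rcases (Nat.dvd_prime hp).mp hdp with h | h
  · exact hx (AddMonoid.addOrderOf_eq_one_iff.mp h)
  · rw [h] at hd2
    exact hp2 ((Nat.prime_dvd_prime_iff_eq hp Nat.prime_two).mp hd2)

/-- **The eigen package.** -/
theorem packageStep (hA1 : EigenQuotient) : PackageStep := by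
  intro W p X q _ _ hΔ hW hp hp2 hirr hq _hqp hsq _hadm hunr hmod hX C _hC
  have := Fact.mk hp
  obtain ⟨S, hS, z, hz, hz0⟩ := exists_eigenPoint W p hΔ hp hmod
  have hqX : ¬ q ∣ X := fun h => by
    obtain ⟨t, rfl⟩ := h
    exact hq.ne_one (Nat.isUnit_iff.mp (hsq q ⟨t, by ring⟩))
  set V := eigenPoints (X * q) p S W.apOfModel with hV
  have hnd : ∀ ℓ : Nat.Primes, (ℓ : ℕ) ∉ S → ¬ (ℓ : ℕ) ∣ X * q := fun ℓ hℓ h =>
    hℓ (hS ℓ ℓ.2 (Or.inl h))
  have hwV : ∀ x ∈ V, wPic C x ∈ V := fun x hx => ⟨by rw [← map_nsmul, hx.1, map_zero],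
    fun ℓ hℓ => by
      rw [wPic_hecke C hq hp ℓ (hnd ℓ hℓ) (fun h => hℓ (hS ℓ ℓ.2 (Or.inr (Or.inl h)))) hx.1,
        hx.2 ℓ hℓ, map_zsmul]⟩
  obtain ⟨eps, heps, hzne⟩ := exists_sign (wPic C) hp hp2 hz0 hz.1
  let E : AddSubgroup (JZero (X * q)) :=
    V ⊓ ((wPic C - zsmulAddGroupHom eps : JZero (X * q) →+ JZero (X * q))).ker
  have hmemE : ∀ x, x ∈ E ↔ x ∈ V ∧ wPic C x = eps • x := fun x => by
    simp [E, AddSubgroup.mem_inf, sub_eq_zero]
  have heps2 : eps * eps = 1 := by rcases heps with rfl | rfl <;> norm_num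
  have hz' : z + eps • wPic C z ∈ E := (hmemE _).mpr
    ⟨add_mem hz (zsmul_mem (hwV z hz) eps), by
      rw [map_add, map_zsmul, wPic_wPic, zsmul_add, ← mul_zsmul, heps2, one_zsmul, add_comm]⟩
  have hgal : ∀ σ : GQ, ∀ x ∈ E, σ • x ∈ E := fun σ x hx => by
    obtain ⟨h1, h2⟩ := (hmemE x).mp hx
    refine (hmemE _).mpr ⟨OrdinaryExclusion.smul_mem_eigenPoints σ h1, ?_⟩
    rw [wPic_smul C hq, h2]
    exact map_zsmul (DistribSMul.toAddMonoidHom (JZero (X * q)) σ) eps x
  have hle : E ≤ V := inf_le_left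
  obtain ⟨ψ, hψ⟩ := exists_matrixHom W p hΔ hp2 hirr hS E hle hgal
  have hne : z + eps • wPic C z ≠ 0 := hzne
  have : Nontrivial E := ⟨⟨⟨_, hz'⟩, 0, fun h => hne (congrArg Subtype.val h)⟩⟩
  have : Nontrivial (AddMonoid.End E) :=
    ⟨⟨1, 0, fun h => hne (congrArg Subtype.val (DFunLike.congr_fun h (⟨_, hz'⟩ : E)))⟩⟩
  have hψinj : Function.Injective ψ := RingHom.injective ψ
  have hscal : ∀ (σ : GQ) (c : ℤ), AtP.curveRep W hΔ p σ = (c : ZMod p) • 1 ↔
      galoisRepModuleEnd (K := Qb) ℚ (W.map (Int.castRingHom ℚ)) p σ = (c : ZMod p) • 1 := by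
    intro σ c
    rw [AtP.curveRep, RepTheory.matRep_apply]
    set ρ := TWHyp.residualRep W hΔ p
    set b := TWHyp.basisOf ρ
    rw [show ((c : ZMod p) • (1 : Matrix (Fin 2) (Fin 2) (ZMod p))) =
      LinearMap.toMatrix b b ((c : ZMod p) • LinearMap.id) by rw [map_smul, LinearMap.toMatrix_id],
      (LinearMap.toMatrix b b).injective.eq_iff]
    rfl
  have hkill : ∀ (d : ℕ) [NeZero d], d = 1 ∨ d = q → ∀ (h : X * d ∣ X * q), ∀ x ∈ V,
      pushPic (dilHom X (X * q) d h) x = 0 := by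
    intro d _ hd h x hx
    refine eq_zero_of_not_modular W p hA1 hΔ hW hp hp2 hirr (S ∪ {q}) hX _
      (by rw [← map_nsmul, hx.1, map_zero]) fun ℓ hℓX hℓS => ?_
    simp only [Finset.mem_union, Finset.mem_singleton, not_or] at hℓS
    rw [← BadPrimeFrobenius.pushPic_hecke hq hqX rfl hd h ℓ (hnd ℓ hℓS.1) x, hx.2 ℓ hℓS.1,
      map_zsmul]
  refine ⟨{
    S := S
    bad_mem := hS
    eps := eps
    eps_eq := heps
    E := E
    ne_bot := fun h => hne (AddSubgroup.mem_bot.mp (h ▸ hz'))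
    torsion := fun x hx => (hle hx).1
    galois_mem := hgal
    hecke := fun ℓ hℓ x hx => (hle hx).2 ℓ hℓ
    w_eq := fun x hx => ((hmemE x).mp hx).2
    push_one := fun h x hx => hkill 1 (Or.inl rfl) h x (hle hx)
    push_q := fun h x hx => hkill q (Or.inr rfl) h x (hle hx)
    inertia := fun A hA σ hσ x hx => ?_
    scalar := fun σ c hc => ?_ }⟩
  · have h1 : AtP.curveRep W hΔ p σ = 1 := by
      have := (hscal σ 1).mpr (by rw [hunr A hA σ hσ, Int.cast_one, one_smul])
      rwa [Int.cast_one, one_smul] at this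
    rw [← hψ σ ⟨x, hx⟩, h1, map_one]
    rfl
  · refine (hscal σ c).mp (hψinj ?_)
    refine AddMonoidHom.ext fun x => Subtype.ext ?_
    refine (hψ σ x).trans ((hc _ x.2).trans ?_)
    rw [Int.cast_smul_eq_zsmul, map_zsmul, map_one]
    rfl

end Fermat.Agent.LevelLowering.Away

end
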