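import Fermat.Agent.LevelLowering.General
import Fermat.Agent.BadPrimeFrobenius.Kernel
import Fermat.Agent.TwoComp.Export
import Fermat.Agent.CarayolReduction.Pushforward
import Fermat.Agent.CarayolReduction.Descent
import Fermat.Agent.Carayol.Interface
import Fermat.Agent.ModularFunctionField.Twist

/-!
# Mazur's principle away from `p`: definitions and steps

For a prime `q ≠ p` at which `W[p]` is unramified and a squarefree level `X * q`, the classes in
`J₀(Xq)[p]` with the eigenvalues of `W` that die on both copies of `X₀(X)` give Kummer functions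
on the two components of the fibre at `q`.  The statements below are the steps of the proof:

* `EigenQuotient`: eigen classes in a Hecke stable quotient of `J₀(X)` give congruences;
* `PackageStep`: the Galois stable eigen subgroup on which `w_q` is a sign;
* `KummerStep`, `RaiseStep`: Kummer functions with normalised residues on both components;
* `CuspPlaces`, `FinitePlaces`, `DescendPlaces`: the residues have orders divisible by `p`;
* `ClassStep`: such a residue is a `p`-th power, or the system occurs at level `X`;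
* `SwapRoot`: Frobenius composed with `w_q` acts as `-q` on classes with `p`-th power residues.
-/

set_option autoImplicit false

noncomputable section

open ModularCurve AlgebraicCurve
open Fermat.Agent.CarayolReduction (dilHom pushPic galAct)
open Fermat.Agent.ModularFunctionField (twist)
open Fermat.Agent.TwoComp (Conj NormEq gres jR upα upβ)
open Fermat.Agent.CarayolFF (gaussRing)
open WeierstrassCurve.Affine.Point (galoisRepModuleEnd)

namespace Fermat.Agent.LevelLowering.Away

local notation "Qb" => AlgebraicClosure ℚ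
local notation "GQ" => AlgebraicClosure ℚ ≃ₐ[ℚ] AlgebraicClosure ℚ
local notation "FB" => modularFunctionFieldBar

/-- The levels at which the argument runs directly. -/
def Admissible (p q X : ℕ) : Prop :=
  5 ≤ p ∨ (p = 3 ∧ q ≠ 2 ∧ 2 ∣ X) ∨
    (p = 3 ∧ q = 2 ∧ ∃ r, r.Prime ∧ r ∣ X ∧ r % 3 = 2 ∧ r ≠ 2)

/-- The auxiliary prime of a good model in residue characteristic `q`. -/
def auxPrime (q : ℕ) : ℕ := if q = 2 then 3 else 2

/-- The level carrying a good model above `X`. -/
def auxLevel (q X : ℕ) : ℕ := Nat.lcm X (auxPrime q)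

/-- The auxiliary prime is `2` or `3`. -/
theorem auxPrime_eq (q : ℕ) : auxPrime q = 2 ∨ auxPrime q = 3 := by
  unfold auxPrime
  split_ifs
  · exact Or.inr rfl
  · exact Or.inl rfl

/-- The auxiliary prime is prime. -/
theorem auxPrime_prime (q : ℕ) : (auxPrime q).Prime := by
  rcases auxPrime_eq q with h | h <;> rw [h] <;> norm_num

/-- The auxiliary prime differs from `q`. -/
theorem auxPrime_ne {q : ℕ} : auxPrime q ≠ q := by
  unfold auxPrime
  split_ifs with h <;> omega

/-- The auxiliary level is nonzero. -/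
instance (q X : ℕ) [NeZero X] : NeZero (auxLevel q X) :=
  ⟨Nat.lcm_ne_zero (NeZero.ne X) (auxPrime_prime q).ne_zero⟩

/-- The auxiliary level is a multiple of `X`. -/
theorem dvd_auxLevel (q X : ℕ) : X ∣ auxLevel q X := Nat.dvd_lcm_left _ _

/-- The auxiliary prime divides the auxiliary level. -/
theorem auxPrime_dvd_auxLevel (q X : ℕ) : auxPrime q ∣ auxLevel q X := Nat.dvd_lcm_right _ _

/-- The auxiliary level is divisible by `2` or by `3`. -/
theorem two_or_three_dvd_auxLevel (q X : ℕ) : 2 ∣ auxLevel q X ∨ 3 ∣ auxLevel q X := by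
  rcases auxPrime_eq q with h | h
  · exact Or.inl (h ▸ auxPrime_dvd_auxLevel q X)
  · exact Or.inr (h ▸ auxPrime_dvd_auxLevel q X)

/-- The auxiliary level stays prime to `q`. -/
theorem not_dvd_auxLevel {q X : ℕ} (hq : q.Prime) (hqX : ¬ q ∣ X) : ¬ q ∣ auxLevel q X := fun h =>
  (hq.dvd_mul.mp (h.trans (Nat.lcm_dvd_mul X (auxPrime q)))).elim hqX fun h' =>
    auxPrime_ne ((Nat.prime_dvd_prime_iff_eq hq (auxPrime_prime q)).mp h').symm

/-- The exponent standing for `a_ℓ(W)` modulo `p`. -/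
def aExp (W : WeierstrassCurve ℤ) (p ℓ : ℕ) : ℕ := ((W.apOfModel ℓ : ℤ) : ZMod p).val

section Residues

variable (A : ValuationSubring Qb)

local notation "k" => IsLocalRing.ResidueField A

/-- After scaling by the `n`-th power of a constant of the inertia field, `x` is a Gauss unit with
residue `u`. -/
def HasResidue (n : ℕ) (x : LaurentSeries Qb) (u : LaurentSeries k) : Prop :=
  u ≠ 0 ∧ ∃ y : Qb, y ∈ Carayol.inertiaField A ∧ y ≠ 0 ∧
    x * HahnSeries.C y ^ n ∈ gaussRing A ∧ gres A (x * HahnSeries.C y ^ n) = u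

/-- The Hecke correspondence at `ℓ` raises `u` to the power `a`, up to a constant and `n`-th
powers in level `X`. -/
def HeckeResidue (X n ℓ a : ℕ) [NeZero X] [NeZero ℓ] (u : LaurentSeries k) : Prop :=
  ∃ (z : kˣ) (c : k) (h : modularFunctionFieldFullC k X), IsPrimitiveRoot z ℓ ∧ c ≠ 0 ∧
    qExpand k (ℓ * ℓ) u * ∏ i : Fin ℓ, twist (z ^ (i : ℕ)) u =
      qExpand k ℓ (HahnSeries.C c * u ^ a * (h : LaurentSeries k) ^ n)

variable {X q : ℕ} [NeZero X] [NeZero q]

/-- A function of level `X q` with orders divisible by `n`, constants in the inertia field,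
residues `u₀`, `u₁` on the two components and both norms `n`-th powers up to constants. -/
structure KummerFun (n : ℕ) (C : Conj X q) (f : FB (X * q)) (u₀ u₁ : LaurentSeries k) : Prop where
  ne_zero : f ≠ 0
  ord : ∀ v : Place Qb (FB (X * q)), (n : ℤ) ∣ v.ord f
  level₀ : (f : LaurentSeries Qb) ∈ Carayol.levelField (Carayol.inertiaField A) (X * q)
  level₁ : (C.w f : LaurentSeries Qb) ∈ Carayol.levelField (Carayol.inertiaField A) (X * q)
  res₀ : HasResidue A n (f : LaurentSeries Qb) u₀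
  res₁ : HasResidue A n (C.w f : LaurentSeries Qb) u₁
  mem₀ : u₀ ∈ modularFunctionFieldFullC k X
  mem₁ : u₁ ∈ modularFunctionFieldFullC k X
  normα : ∃ (c : Qb) (h : FB X),
    CarayolFF.normAlong (upα X q) f = algebraMap Qb (FB X) c * h ^ n
  normβ : ∃ (c : Qb) (h : FB X),
    CarayolFF.normAlong (upβ X q) f = algebraMap Qb (FB X) c * h ^ n

/-- `u` is an `n`-th power in level `X`. -/
def IsResiduePow (n X : ℕ) [NeZero X] (u : LaurentSeries k) : Prop :=
  ∃ a : modularFunctionFieldFullC k X, u = (a : LaurentSeries k) ^ n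

end Residues

/-- `f` represents the `n`-torsion class `x`. -/
def IsClassOf {M : ℕ} [NeZero M] (n : ℕ) (f : FB M) (x : JZero M) : Prop :=
  f ≠ 0 ∧ ∃ D : Divisor.degZero (K := Qb) (F := FB M), Pic0.mk D = x ∧
    ∀ v : Place Qb (FB M), (n : ℤ) * (D : Divisor Qb (FB M)) v = v.ord f

/-- The involution `w_q` on divisor classes. -/
def wPic {X q : ℕ} [NeZero X] [NeZero q] (C : Conj X q) : JZero (X * q) →+ JZero (X * q) :=
  pushPic C.w.toAlgHom

/-- A Galois stable group of classes with the eigenvalues of `W`, killed by both pushforwards,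
fixed by inertia at `q`, on which `w_q` is a sign. -/
structure EigenPackage (W : WeierstrassCurve ℤ) (p : ℕ) {X q : ℕ} [NeZero X] [NeZero q]
    (C : Conj X q) where
  S : Finset ℕ
  bad_mem : ∀ r : ℕ, r.Prime → (r ∣ X * q ∨ r = p ∨ ¬ W.IsGoodPrimeFor r) → r ∈ S
  eps : ℤ
  eps_eq : eps = 1 ∨ eps = -1
  E : AddSubgroup (JZero (X * q))
  ne_bot : E ≠ ⊥
  torsion : ∀ x ∈ E, p • x = 0
  galois_mem : ∀ (σ : GQ), ∀ x ∈ E, σ • x ∈ E
  hecke : ∀ ℓ : Nat.Primes, (ℓ : ℕ) ∉ S → ∀ x ∈ E,
    heckeOperatorBar (X * q) ℓ x = W.apOfModel ℓ • x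
  w_eq : ∀ x ∈ E, wPic C x = eps • x
  push_one : ∀ (h : X * 1 ∣ X * q), ∀ x ∈ E, pushPic (dilHom X (X * q) 1 h) x = 0
  push_q : ∀ (h : X * q ∣ X * q), ∀ x ∈ E, pushPic (dilHom X (X * q) q h) x = 0
  inertia : ∀ A : ValuationSubring Qb, A.LiesOverPrime q →
    ∀ σ ∈ A.inertiaSubgroupIn ℚ, ∀ x ∈ E, σ • x = x
  scalar : ∀ (σ : GQ) (c : ℤ), (∀ x ∈ E, σ • x = c • x) →
    galoisRepModuleEnd (K := Qb) ℚ (W.map (Int.castRingHom ℚ)) p σ = (c : ZMod p) • 1

/-- An eigen element of a Hecke stable quotient of `J₀(X)` gives a congruence at level `X`. -/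
def EigenQuotient : Prop :=
  ∀ (W : WeierstrassCurve ℤ) (p X : ℕ) [NeZero X], W.Δ ≠ 0 → W.IsSemistableModel → p.Prime →
    p ≠ 2 → W.ModRepIsIrreducible p → ∀ (S : Finset ℕ) (K : AddSubgroup (JZero X)),
      (∀ ℓ : Nat.Primes, ¬ (ℓ : ℕ) ∣ X → (ℓ : ℕ) ∉ S →
        ∀ y ∈ K, heckeOperatorBar X ℓ y ∈ K) →
      ∀ x : JZero X, x ∉ K → p • x ∈ K →
        (∀ ℓ : Nat.Primes, ¬ (ℓ : ℕ) ∣ X → (ℓ : ℕ) ∉ S →
          heckeOperatorBar X ℓ x - W.apOfModel ℓ • x ∈ K) →
        CofiniteResModular W p X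

/-- The eigen package. -/
def PackageStep : Prop :=
  ∀ (W : WeierstrassCurve ℤ) (p X q : ℕ) [NeZero X] [NeZero q], W.Δ ≠ 0 →
    W.IsSemistableModel → p.Prime → p ≠ 2 → W.ModRepIsIrreducible p → q.Prime → q ≠ p →
    Squarefree (X * q) → Admissible p q X → TorsionUnramified W p q →
    CofiniteResModular W p (X * q) → ¬ CofiniteResModular W p X →
    ∀ C : Conj X q, NormEq C → Nonempty (EigenPackage W p C)

/-- A class of the package has a Kummer function, whose residues satisfy the Hecke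
relations. -/
def KummerStep : Prop :=
  ∀ (W : WeierstrassCurve ℤ) (p X q : ℕ) [NeZero X] [NeZero q], W.Δ ≠ 0 →
    W.IsSemistableModel → p.Prime → p ≠ 2 → W.ModRepIsIrreducible p → q.Prime → q ≠ p →
    Squarefree (X * q) → Admissible p q X →
    ∀ C : Conj X q, NormEq C → ∀ (P : EigenPackage W p C) (A : ValuationSubring Qb),
      A.LiesOverPrime q → ∀ x ∈ P.E,
      ∃ (f : FB (X * q)) (u₀ u₁ : LaurentSeries (IsLocalRing.ResidueField A)),
        IsClassOf p f x ∧ KummerFun A p C f u₀ u₁ ∧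
        ∃ S : Finset ℕ, ∀ (ℓ : ℕ) [NeZero ℓ], ℓ.Prime → ℓ ∉ S →
          HeckeResidue A X p ℓ (aExp W p ℓ) u₀ ∧ HeckeResidue A X p ℓ (aExp W p ℓ) u₁

/-- Kummer functions at a larger level prime to `q`. -/
def RaiseStep : Prop :=
  ∀ (X X' q n : ℕ) [NeZero X] [NeZero X'] [NeZero q], q.Prime → n ≠ 0 → X ∣ X' → ¬ q ∣ X' →
    ∀ (C : Conj X q) (C' : Conj X' q), NormEq C → NormEq C' →
    ∀ (A : ValuationSubring Qb), A.LiesOverPrime q →
    ∀ (f : FB (X * q)) (u₀ u₁ : LaurentSeries (IsLocalRing.ResidueField A)),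
      KummerFun A n C f u₀ u₁ →
      ∃ f' : FB (X' * q), (f' : LaurentSeries Qb) = f ∧
        (C'.w f' : LaurentSeries Qb) = C.w f ∧ KummerFun A n C' f' u₀ u₁

/-- The residue on the first component has orders divisible by `n` at the poles of `j`. -/
def CuspPlaces : Prop :=
  ∀ (N q n : ℕ) [NeZero N] [NeZero q], q.Prime → ¬ q ∣ N → (2 ∣ N ∨ 3 ∣ N) → n ≠ 0 →
    n.Coprime q → ∀ C : Conj N q, NormEq C → ∀ (A : ValuationSubring Qb), A.LiesOverPrime q →
    ∀ (f : FB (N * q)) (u₀ u₁ : LaurentSeries (IsLocalRing.ResidueField A))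
      (hK : KummerFun A n C f u₀ u₁)
      (v : Place (IsLocalRing.ResidueField A)
        (modularFunctionFieldFullC (IsLocalRing.ResidueField A) N)),
      v.ord (jR (IsLocalRing.ResidueField A) N) < 0 → (n : ℤ) ∣ v.ord ⟨u₀, hK.mem₀⟩

/-- At a rigidified level the residue has orders divisible by `n` at all finite places. -/
def FinitePlaces : Prop :=
  ∀ (Z q n : ℕ) [NeZero Z] [NeZero q], q.Prime → ¬ q ∣ Z →
    (q = 2 ∧ 9 ∣ Z ∨ q ≠ 2 ∧ 4 ∣ Z) → n ≠ 0 → n.Coprime q →
    ∀ C : Conj Z q, NormEq C → ∀ (A : ValuationSubring Qb), A.LiesOverPrime q →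
    ∀ (f : FB (Z * q)) (u₀ u₁ : LaurentSeries (IsLocalRing.ResidueField A))
      (hK : KummerFun A n C f u₀ u₁)
      (v : Place (IsLocalRing.ResidueField A)
        (modularFunctionFieldFullC (IsLocalRing.ResidueField A) Z)),
      0 ≤ v.ord (jR (IsLocalRing.ResidueField A) Z) → (n : ℤ) ∣ v.ord ⟨u₀, hK.mem₀⟩

/-- Divisibility at the finite places descends from `h Y` to `Y`, `h` the auxiliary prime. -/
def DescendPlaces : Prop :=
  ∀ (Y q p : ℕ) [NeZero Y] [NeZero (auxPrime q * Y)], q.Prime → p.Prime → p ≠ 2 → q ≠ p →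
    Squarefree (Y * q) → auxPrime q ∣ Y → Admissible p q Y →
    ∀ (A : ValuationSubring Qb), A.LiesOverPrime q →
    ∀ (u : LaurentSeries (IsLocalRing.ResidueField A))
      (hY : u ∈ modularFunctionFieldFullC (IsLocalRing.ResidueField A) Y)
      (hZ : u ∈ modularFunctionFieldFullC (IsLocalRing.ResidueField A) (auxPrime q * Y)),
      (∀ v : Place (IsLocalRing.ResidueField A)
          (modularFunctionFieldFullC (IsLocalRing.ResidueField A) (auxPrime q * Y)),
        0 ≤ v.ord (jR (IsLocalRing.ResidueField A) (auxPrime q * Y)) →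
          (p : ℤ) ∣ v.ord ⟨u, hZ⟩) →
      ∀ v : Place (IsLocalRing.ResidueField A)
          (modularFunctionFieldFullC (IsLocalRing.ResidueField A) Y),
        0 ≤ v.ord (jR (IsLocalRing.ResidueField A) Y) → (p : ℤ) ∣ v.ord ⟨u, hY⟩

/-- A residue with orders divisible by `p` and the Hecke relations is a `p`-th power, unless
the system occurs at level `X`. -/
def ClassStep : Prop :=
  ∀ (W : WeierstrassCurve ℤ) (p X q : ℕ) [NeZero X] [NeZero q], W.Δ ≠ 0 →
    W.IsSemistableModel → p.Prime → p ≠ 2 → W.ModRepIsIrreducible p → q.Prime → q ≠ p →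
    Squarefree (X * q) → Admissible p q X →
    ∀ (A : ValuationSubring Qb), A.LiesOverPrime q →
    ∀ (S : Finset ℕ) (u : LaurentSeries (IsLocalRing.ResidueField A)), u ≠ 0 →
      u ∈ modularFunctionFieldFullC (IsLocalRing.ResidueField A) X →
      ∀ (hY : u ∈ modularFunctionFieldFullC (IsLocalRing.ResidueField A) (auxLevel q X)),
      (∀ v : Place (IsLocalRing.ResidueField A)
          (modularFunctionFieldFullC (IsLocalRing.ResidueField A) (auxLevel q X)),
        (p : ℤ) ∣ v.ord ⟨u, hY⟩) →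
      (∀ (ℓ : ℕ) [NeZero ℓ], ℓ.Prime → ℓ ∉ S → HeckeResidue A X p ℓ (aExp W p ℓ) u) →
      CofiniteResModular W p X ∨ IsResiduePow A p X u

/-- With `n`-th power residues, `w_q ∘ σ` inverts and multiplies the class by `q`. -/
def SwapRoot : Prop :=
  ∀ (N q n : ℕ) [NeZero N] [NeZero q], q.Prime → ¬ q ∣ N → (2 ∣ N ∨ 3 ∣ N) → n ≠ 0 →
    n.Coprime q → ∀ C : Conj N q, NormEq C → ∀ (A : ValuationSubring Qb), A.LiesOverPrime q →
    ∀ σ : GQ, A.IsFrobeniusAt σ q →
    ∀ (f : FB (N * q)) (u₀ u₁ : LaurentSeries (IsLocalRing.ResidueField A)),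
      KummerFun A n C f u₀ u₁ → IsResiduePow A n N u₀ → IsResiduePow A n N u₁ →
      ∃ s : FB (N * q), s ^ n * (C.w (galAct (N * q) σ • f) * f ^ q) = 1

end Fermat.Agent.LevelLowering.Away
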