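import Fermat.Agent.CarayolReduction.Core
import Fermat.Agent.LevelLowering.Away.Defs

/-!
# Kummer functions at a larger level and on the other component

The inclusion of level `X * q` in level `X' * q` commutes with `w_q` and with the norms to levels
`X`, `X'`, and `w_q` exchanges the two components.
-/

set_option autoImplicit false

noncomputable section

open ModularCurve AlgebraicCurve
open Fermat.Agent.TwoComp (Conj NormEq upα upβ)
open Fermat.Agent.ModularFunctionField (twist)

namespace Fermat.Agent.LevelLowering.Away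

local notation "Qb" => AlgebraicClosure ℚ
local notation "FB" => modularFunctionFieldBar

/-- The inclusion of a smaller level. -/
def levelIncl {N M : ℕ} [NeZero N] [NeZero M] (h : N ∣ M) : FB N →ₐ[Qb] FB M :=
  CarayolReduction.dilHom N M 1 ((mul_one N).symm ▸ h)

@[simp]
theorem coe_levelIncl {N M : ℕ} [NeZero N] [NeZero M] (h : N ∣ M) (x : FB N) :
    (levelIncl h x : LaurentSeries Qb) = x := by
  rw [levelIncl, CarayolReduction.coe_dilHom, qExpand_one_apply]

/-- Divisibility of all orders is preserved by pullback. -/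
theorem dvd_ord_algHom {N M : ℕ} [NeZero N] [NeZero M] (φ : FB N →ₐ[Qb] FB M) {n : ℤ}
    {f : FB N} (hf : ∀ v : Place Qb (FB N), n ∣ v.ord f) (w : Place Qb (FB M)) :
    n ∣ w.ord (φ f) := by
  rw [Place.ord_restrictAlong φ (Hecke.isIntegral_of_isFunctionField φ) w f]
  exact (hf _).mul_left _

variable {X X' q : ℕ} [NeZero X] [NeZero X'] [NeZero q]

/-- `w_q` commutes with the inclusion of level `X * q` in level `X' * q`. -/
theorem w_levelIncl (hq : q.Prime) (h : X ∣ X') (C : Conj X q) (C' : Conj X' q)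
    (x : FB (X * q)) :
    C'.w (levelIncl (mul_dvd_mul_right h q) x) = levelIncl (mul_dvd_mul_right h q) (C.w x) := by
  have hα : ∀ y : FB X, levelIncl (mul_dvd_mul_right h q) (upα X q y) =
      upα X' q (levelIncl h y) := fun y => Subtype.ext (by simp)
  have hβ : ∀ y : FB X, levelIncl (mul_dvd_mul_right h q) (upβ X q y) =
      upβ X' q (levelIncl h y) := fun y => Subtype.ext (by simp)
  refine TwoComp.hom_ext_alpha_beta (L := Qb) hq
    (f := C'.w.toAlgHom.toRingHom.comp (levelIncl (mul_dvd_mul_right h q)).toRingHom)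
    (g := (levelIncl (mul_dvd_mul_right h q)).toRingHom.comp C.w.toAlgHom.toRingHom)
    (fun y => ?_) (fun y => ?_) x
  · show C'.w (levelIncl (mul_dvd_mul_right h q) (upα X q y)) =
      levelIncl (mul_dvd_mul_right h q) (C.w (upα X q y))
    rw [hα, C'.w_alpha, C.w_alpha, hβ]
  · show C'.w (levelIncl (mul_dvd_mul_right h q) (upβ X q y)) =
      levelIncl (mul_dvd_mul_right h q) (C.w (upβ X q y))
    rw [hβ, C'.w_beta, C.w_beta, hα]

/-- The norm along `α` commutes with raising the level. -/
theorem normAlong_levelIncl (hq : q.Prime) (h : X ∣ X') (hqX' : ¬ q ∣ X') (C : Conj X q)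
    (C' : Conj X' q) (x : FB (X * q)) :
    CarayolFF.normAlong (upα X' q) (levelIncl (mul_dvd_mul_right h q) x) =
      levelIncl h (CarayolFF.normAlong (upα X q) x) := by
  have hqX : ¬ q ∣ X := fun h' => hqX' (h'.trans h)
  have : NeZero ((q : ℕ) : Qb) := ⟨Nat.cast_ne_zero.mpr (NeZero.ne q)⟩
  obtain ⟨z₀, hz₀⟩ := HasEnoughRootsOfUnity.exists_primitiveRoot Qb q
  have hz : IsPrimitiveRoot (hz₀.isUnit (NeZero.ne q)).unit q :=
    IsPrimitiveRoot.coe_units_iff.mp (by rwa [IsUnit.unit_spec])
  have hd := Hecke.finrankAlong_alpha X q hq hqX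
  have hd' := Hecke.finrankAlong_alpha X' q hq hqX'
  have hw : ∀ (y : FB (X * q)), TwoComp.wq Qb X q hq hqX hd y = C.w y := fun y =>
    (TwoComp.eq_wq_of_swap hq hqX hd C.w.toAlgHom.toRingHom C.w_alpha C.w_beta y).symm
  have hw' : ∀ (y : FB (X' * q)), TwoComp.wq Qb X' q hq hqX' hd' y = C'.w y := fun y =>
    (TwoComp.eq_wq_of_swap hq hqX' hd' C'.w.toAlgHom.toRingHom C'.w_alpha C'.w_beta y).symm
  refine Subtype.ext (qExpand_injective (R := Qb) q ?_)
  have e := TwoComp.qExpand_normAlong hq hqX hd hz x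
  have e' := TwoComp.qExpand_normAlong hq hqX' hd' hz (levelIncl (mul_dvd_mul_right h q) x)
  simp only [hw'] at e'
  simp only [hw] at e
  rw [w_levelIncl hq h C C', coe_levelIncl, coe_levelIncl] at e'
  rw [coe_levelIncl]
  exact e'.trans e.symm

/-- A Kummer function of level `X * q` is one at level `X' * q`. -/
theorem raiseStep : RaiseStep := by
  intro X X' q n _ _ _ hq _ hXX' hqX' C C' _ _ A _ f u₀ u₁ hK
  set ι := levelIncl (mul_dvd_mul_right hXX' q)
  have hι : (ι f : LaurentSeries Qb) = f := coe_levelIncl _ f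
  have hw : (C'.w (ι f) : LaurentSeries Qb) = C.w f := by
    rw [w_levelIncl hq hXX' C C' f, coe_levelIncl]
  refine ⟨ι f, hι, hw, ?_⟩
  exact
    { ne_zero := (map_ne_zero ι).mpr hK.ne_zero
      ord := dvd_ord_algHom ι hK.ord
      level₀ := hι.symm ▸ CarayolReduction.levelField_mono _ (mul_dvd_mul_right hXX' q) hK.level₀
      level₁ := hw.symm ▸ CarayolReduction.levelField_mono _ (mul_dvd_mul_right hXX' q) hK.level₁
      res₀ := hι.symm ▸ hK.res₀
      res₁ := hw.symm ▸ hK.res₁
      mem₀ := full_degeneracyC_le _ hXX' hK.mem₀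
      mem₁ := full_degeneracyC_le _ hXX' hK.mem₁
      normα := by
        obtain ⟨c, g, e⟩ := hK.normα
        refine ⟨c, levelIncl hXX' g, ?_⟩
        rw [normAlong_levelIncl hq hXX' hqX' C C', e, map_mul, map_pow, AlgHom.commutes]
      normβ := by
        obtain ⟨c, g, e⟩ := hK.normβ
        refine ⟨c, levelIncl hXX' g, ?_⟩
        rw [TwoComp.normAlong_upβ_eq C', w_levelIncl hq hXX' C C',
          normAlong_levelIncl hq hXX' hqX' C C', ← TwoComp.normAlong_upβ_eq C, e, map_mul,
          map_pow, AlgHom.commutes] }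

/-- `w_q` exchanges the two components. -/
theorem KummerFun.swap {A : ValuationSubring Qb} {n : ℕ} {C : Conj X q} {f : FB (X * q)}
    {u₀ u₁ : LaurentSeries (IsLocalRing.ResidueField A)} (h : KummerFun A n C f u₀ u₁) :
    KummerFun A n C (C.w f) u₁ u₀ where
  ne_zero := (map_ne_zero C.w).mpr h.ne_zero
  ord := dvd_ord_algHom C.w.toAlgHom h.ord
  level₀ := h.level₁
  level₁ := (congrArg Subtype.val (C.w_w f)).symm ▸ h.level₀
  res₀ := h.res₁
  res₁ := (congrArg Subtype.val (C.w_w f)).symm ▸ h.res₀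
  mem₀ := h.mem₁
  mem₁ := h.mem₀
  normα := by rw [← TwoComp.normAlong_upβ_eq C]; exact h.normβ
  normβ := by rw [TwoComp.normAlong_upβ_eq C, C.w_w]; exact h.normα

end Fermat.Agent.LevelLowering.Away
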