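import Fermat.Agent.LevelLowering.Away.Defs
import Fermat.Agent.TwoComp.Swap
import Fermat.Agent.TwoComp.ConjExists
import Fermat.Agent.TwoComp.Export

/-!
# Frobenius and `w_q` on classes with `n`-th power residues

Both components carry a Kummer datum and `w_q ∘ σ` exchanges the branches at the nodes, so it
inverts the gluing invariant and acts on it by `c ↦ c ^ q`.
-/

set_option autoImplicit false

noncomputable section

open ModularCurve AlgebraicCurve
open Fermat.Agent.TwoComp (Conj)

namespace Fermat.Agent.LevelLowering.Away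

/-- With `n`-th power residues, `w_q ∘ σ` inverts and multiplies the class by `q`. -/
theorem swapRoot : SwapRoot := by
  intro N q n _ _ hq hqN hN hn0 hn C _ A hA σ hσ f u₀ u₁ hK h₀ h₁
  obtain ⟨C', htr, -⟩ := TwoComp.exists_conj N q hq hqN
  obtain ⟨HN, g, c, Hd, Hb, Gm⟩ := TwoComp.hasGoodModel_split hq hqN hN hA
  have hw := C.w_eq C' hq
  have hpow : ∀ {x : LaurentSeries (AlgebraicClosure ℚ)}
      {u : LaurentSeries (IsLocalRing.ResidueField A)},
      HasResidue A n x u → IsResiduePow A n N u →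
      ∃ (y : AlgebraicClosure ℚ) (a : modularFunctionFieldFullC (IsLocalRing.ResidueField A) N),
        y ≠ 0 ∧ a ≠ 0 ∧ x * HahnSeries.C y ^ n ∈ CarayolFF.gaussRing A ∧
        TwoComp.gres A (x * HahnSeries.C y ^ n) = (a : LaurentSeries _) ^ n := by
    rintro x u ⟨hu, y, -, hy, hmem, hres⟩ ⟨a, ha⟩
    exact ⟨y, a, hy, fun h => hu (by rw [ha, h, ZeroMemClass.coe_zero, zero_pow hn0]), hmem,
      hres.trans ha⟩
  obtain ⟨s, hs⟩ := C'.exists_root_swap hq hA HN Gm hqN htr hσ hn hn0 hK.ne_zero hK.ord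
    (Fin.forall_fin_two.mpr ⟨hpow hK.res₀ h₀, by
      rw [C'.emb_one, ← hw]
      exact hpow hK.res₁ h₁⟩)
  exact ⟨s, by rw [hw]; exact hs⟩

end Fermat.Agent.LevelLowering.Away
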