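import Fermat.Agent.LevelLowering.Away.Assembly
import Fermat.Agent.LevelLowering.Away.DescendMult
import Fermat.Agent.LevelLowering.Away.DescendPlaces
import Fermat.Agent.LevelLowering.Away.EigenQuotient
import Fermat.Agent.LevelLowering.Away.Package
import Fermat.Agent.LevelLowering.Away.Raise
import Fermat.Agent.LevelLowering.Away.CuspPlaces
import Fermat.Agent.LevelLowering.Away.FinitePlaces
import Fermat.Agent.LevelLowering.Away.ClassStep
import Fermat.Agent.LevelLowering.Away.SwapRoot

/-!
# The core of Mazur's principle away from `p`

All the steps of the core are instantiated except the construction of Kummer functions, which is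
taken as an argument.
-/

set_option autoImplicit false

noncomputable section

open ModularCurve AlgebraicCurve
open Fermat.Agent.TwoComp (jR)

namespace Fermat.Agent.LevelLowering.Away

local notation "Qb" => AlgebraicClosure ℚ

/-- The core of Mazur's principle at every odd `p` from the Kummer step. -/
theorem core_of_kummerStep' (hB1 : KummerStep) {W : WeierstrassCurve ℤ} (hΔ : W.Δ ≠ 0)
    (hW : W.IsSemistableModel) {p : ℕ} (hp : p.Prime) (hp2 : p ≠ 2) : Core W p :=
  core_of_steps (packageStep eigenQuotient) hB1 raiseStep cuspPlaces finitePlaces
    (classStep eigenQuotient) swapRoot hΔ hW hp hp2 descendPlaces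

end Fermat.Agent.LevelLowering.Away
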