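import Fermat.Agent.LevelLowering.Away.Core
import Fermat.Agent.Lifting.MinimalData
import Fermat.Agent.TWHyp.Primes

/-!
# Mazur's principle away from `p`: reduction to admissible levels

For `p = 3` the level is raised by `2` (`q` odd) or by an auxiliary prime `r ≡ 2 (mod 3)` with
`a_r ≢ 0` (`q = 2`), and lowered again.
-/

set_option autoImplicit false

noncomputable section

namespace Fermat.Agent.LevelLowering.Away

/-- An auxiliary prime `r ≡ 2 (mod 3)` of good reduction with `a_r ≢ 0 (mod 3)` can be removed. -/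
def RemoveAuxPrime (W : WeierstrassCurve ℤ) : Prop :=
  ∀ X r : ℕ, Squarefree X → r.Prime → r ≠ 2 → ¬ r ∣ 3 * X → W.IsGoodPrimeFor r → r % 3 = 2 →
    ((W.apOfModel r : ℤ) : ZMod 3) ≠ 0 → CofiniteResModular W 3 (X * r) →
      CofiniteResModular W 3 X

variable {W : WeierstrassCurve ℤ} (hΔ : W.Δ ≠ 0) (hW : W.IsSemistableModel)

theorem squarefree_mul_prime {M r : ℕ} (hM : Squarefree M) (hr : r.Prime) (h : ¬ r ∣ M) :
    Squarefree (M * r) :=
  (Nat.squarefree_mul ((hr.coprime_iff_not_dvd.mpr h).symm)).mpr ⟨hM, hr.squarefree⟩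

include hΔ hW in
/-- `W[p]` is unramified at a prime `q ≠ p` outside a level at which it is modular. -/
theorem torsionUnramified_of_not_dvd {p : ℕ} [Fact p.Prime] (hp2 : p ≠ 2)
    (hirr : W.ModRepIsIrreducible p) {M q : ℕ} (hM : M ≠ 0) (hq : q.Prime) (hqp : q ≠ p)
    (hqM : ¬ q ∣ M) (h : CofiniteResModular W p M) : TorsionUnramified W p q := by
  have hu := (Lifting.residualRep_isUnramifiedAt_iff W hΔ p hW hp2 hq hqp).mpr fun hmem =>
    hqM (Lifting.dvd_of_mem_ramifiedPrimes hΔ hW hp2 hirr hM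
      (Lifting.isResiduallyModularOfLevel_of_cofinite hΔ hM h) hmem)
  exact fun A hA σ hσ => hu A hA σ hσ

include hΔ hW in
/-- For `p = 3` the prime `2` can be removed. -/
theorem remove_two (hcore : Core W 3) (haux : RemoveAuxPrime W) (hirr : W.ModRepIsIrreducible 3)
    {X : ℕ} (hsq : Squarefree (X * 2)) (hunr : TorsionUnramified W 3 2)
    (h : CofiniteResModular W 3 (X * 2)) : CofiniteResModular W 3 X := by
  have hne : ((2 : ℕ) : ZMod 3) ≠ 1 := by decide
  by_cases hr : ∃ r, r.Prime ∧ r ∣ X ∧ r % 3 = 2 ∧ r ≠ 2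
  · exact (hcore hirr X 2 Nat.prime_two (by decide) hsq (Or.inr (Or.inr ⟨rfl, rfl, hr⟩)) hunr
      h).resolve_right fun h' => hne h'.1
  obtain ⟨r, hr', hrS, hr3, hgood, hmod, hap⟩ :=
    TWHyp.exists_prime_two_mod_three W hΔ hW hirr (insert 2 (X * 2).primeFactors)
  rw [Finset.mem_insert, not_or] at hrS
  have hr2X : ¬ r ∣ X * 2 := fun hd =>
    hrS.2 (Nat.mem_primeFactors.mpr ⟨hr', hd, hsq.ne_zero⟩)
  have hrX : ¬ r ∣ X := fun hd => hr2X (hd.mul_right 2)
  have hX : Squarefree X := hsq.squarefree_of_dvd (dvd_mul_right X 2)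
  have hsq' : Squarefree (X * r * 2) := by
    rw [mul_right_comm]
    exact squarefree_mul_prime hsq hr' hr2X
  have h1 := (hcore hirr (X * r) 2 Nat.prime_two (by decide) hsq'
    (Or.inr (Or.inr ⟨rfl, rfl, r, hr', dvd_mul_left r X, hmod, hrS.1⟩)) hunr
    (cofiniteResModular_of_dvd hsq' (Dvd.intro r (by ring)) h)).resolve_right fun h' => hne h'.1
  exact haux X r hX hr' hrS.1 (fun hd => (hr'.dvd_mul.mp hd).elim
    (fun h3 => hr3 ((Nat.prime_dvd_prime_iff_eq hr' Nat.prime_three).mp h3)) hrX) hgood hmod hap h1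

include hΔ hW in
/-- **Mazur's principle from its admissible levels.** -/
theorem removeAway_of_core {p : ℕ} [Fact p.Prime] (hp2 : p ≠ 2) (hcore : Core W p)
    (haux : p = 3 → RemoveAuxPrime W) : RemoveAway W p := by
  intro hirr M q hsq hq hqp hunr hmod
  have hpr : p.Prime := Fact.out
  rw [mul_comm q M] at hsq hmod
  by_cases h5 : 5 ≤ p
  · exact hcore hirr M q hq hqp hsq (Or.inl h5) hunr hmod
  obtain rfl : p = 3 := by
    have := hpr.two_le
    rcases (show p = 3 ∨ p = 4 by omega) with h | h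
    · exact h
    · exact absurd (h ▸ hpr) (by decide)
  by_cases hq2 : q = 2
  · subst hq2
    exact Or.inl (remove_two hΔ hW hcore (haux rfl) hirr hsq hunr hmod)
  by_cases h2 : 2 ∣ M
  · exact hcore hirr M q hq hqp hsq (Or.inr (Or.inl ⟨rfl, hq2, h2⟩)) hunr hmod
  have h2Mq : ¬ 2 ∣ M * q := fun hd => (Nat.prime_two.dvd_mul.mp hd).elim h2 fun h =>
    hq2 ((Nat.prime_dvd_prime_iff_eq Nat.prime_two hq).mp h).symm
  have hsq' : Squarefree (M * 2 * q) := by
    rw [mul_right_comm]
    exact squarefree_mul_prime hsq Nat.prime_two h2Mq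
  rcases hcore hirr (M * 2) q hq hqp hsq' (Or.inr (Or.inl ⟨rfl, hq2, dvd_mul_left 2 M⟩)) hunr
      (cofiniteResModular_of_dvd hsq' (Dvd.intro 2 (by ring)) hmod) with h | h
  · exact Or.inl (remove_two hΔ hW hcore (haux rfl) hirr
      (hsq'.squarefree_of_dvd (dvd_mul_right _ q))
      (torsionUnramified_of_not_dvd hΔ hW (by decide) hirr hsq.ne_zero Nat.prime_two (by decide)
        h2Mq hmod) h)
  · exact Or.inr h

end Fermat.Agent.LevelLowering.Away
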