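import Fermat.Agent.LevelLowering.Upgrade
import Fermat.Agent.OrdinaryExclusion.Eigen
import Fermat.Agent.JacCompare.Main
import Fermat.Agent.EigenRep.Residual
import Fermat.Agent.HeckeEigen.Lift

/-!
# An eigen torsion point from a congruence

A proper ideal of the Hecke algebra containing `p` kills a nonzero `p`-torsion point of `J₀(N)`.
Hence an eigenform congruent to `W` modulo `p` gives a `p`-torsion point with the eigenvalues of
`W` at almost all primes.
-/

set_option autoImplicit false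

noncomputable section

open ModularCurve

namespace Fermat.Agent.LevelLowering.Away

open HeckeDatum (AwayPoly toHeckeAlg evalForms evalForms_surjective)

variable {N p : ℕ} [NeZero N]

/-- In a ring that is finite over `ℤ`, powers of an ideal stabilise modulo `p ^ k`. -/
theorem exists_pow_mul_mem_span {R : Type*} [CommRing R] [Module.Finite ℤ R] (hp : p.Prime) (k : ℕ)
    (m : Ideal R) (hpm : (p : R) ∈ m) :
    ∃ (i : ℕ) (t : R), t - 1 ∈ m ∧ ∀ y ∈ m ^ i, t * y ∈ Ideal.span {(p : R) ^ (k + 1)} := by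
  set I := Ideal.span {(p : R) ^ (k + 1)} with hI
  have : Module.IsTorsion ℤ (R ⧸ I) := by
    intro x
    refine ⟨⟨(p : ℤ) ^ (k + 1),
      mem_nonZeroDivisors_of_ne_zero (pow_ne_zero _ (Int.natCast_ne_zero.2 hp.ne_zero))⟩, ?_⟩
    obtain ⟨x, rfl⟩ := Ideal.Quotient.mk_surjective x
    show ((p : ℤ) ^ (k + 1)) • Ideal.Quotient.mk I x = 0
    rw [← map_zsmul, zsmul_eq_mul, Ideal.Quotient.eq_zero_iff_mem]
    push_cast
    exact I.mul_mem_right _ (Ideal.subset_span rfl)
  have : Finite (R ⧸ I) := Module.finite_of_fg_torsion _ this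
  set mb := m.map (Ideal.Quotient.mk I) with hmb
  obtain ⟨i, j, hij, he⟩ := Finite.exists_ne_map_eq_of_infinite (fun n : ℕ => mb ^ n)
  wlog hlt : i < j generalizing i j
  · exact this j i hij.symm he.symm (lt_of_le_of_ne (not_lt.1 hlt) hij.symm)
  have hle : mb ^ i ≤ mb • mb ^ i := by
    rw [smul_eq_mul, ← pow_succ']
    exact he.le.trans (Ideal.pow_le_pow_right hlt)
  obtain ⟨t', ht', ht0⟩ :=
    Submodule.exists_sub_one_mem_and_smul_eq_zero_of_fg_of_le_smul mb (mb ^ i)
      (IsNoetherian.noetherian _) hle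
  obtain ⟨t, rfl⟩ := Ideal.Quotient.mk_surjective t'
  refine ⟨i, t, ?_, fun y hy => ?_⟩
  · rw [← map_one (Ideal.Quotient.mk I), ← map_sub, hmb,
      Ideal.mem_map_iff_of_surjective _ Ideal.Quotient.mk_surjective] at ht'
    obtain ⟨z, hz, hze⟩ := ht'
    have hd : z - (t - 1) ∈ m := (Ideal.span_singleton_le_iff_mem _).2
      (Ideal.pow_mem_of_mem m hpm _ k.succ_pos) (Ideal.Quotient.eq.1 hze)
    simpa using m.sub_mem hz hd
  · have h := ht0 _ (by
      rw [hmb, ← Ideal.map_pow]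
      exact Ideal.mem_map_of_mem _ hy)
    rwa [smul_eq_mul, ← map_mul, Ideal.Quotient.eq_zero_iff_mem] at h

/-- **A proper ideal containing `p` kills a nonzero `p`-torsion point.** -/
theorem exists_killed_torsion (hp : p.Prime) {S : Set ℕ}
    (hNS : ∀ q : ℕ, q.Prime → q ∣ N → q ∈ S) (m : Ideal (CuspForm.heckeAlgebra N 2 S))
    (hm : m ≠ ⊤) (hpm : (p : CuspForm.heckeAlgebra N 2 S) ∈ m) :
    ∃ x : JZero N, x ≠ 0 ∧ p • x = 0 ∧ ∀ P : AwayPoly S, evalForms hNS P ∈ m →
      (letI := heckeModuleBar N; toHeckeAlg S P • x) = 0 := by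
  let := heckeModuleBar N
  have := Fact.mk hp
  have : Module.Finite ℤ (CuspForm.heckeAlgebra N 2 S) :=
    HeckeEigen.moduleFinite_heckeAlgebra (CuspIntStr.hasIntegralStructure N 2) one_le_two S
  have hfaith := JacCompare.jacobianFaithful_all hNS hp
  obtain ⟨k, hk⟩ := hfaith.ann_le 1
  by_contra hnone
  push Not at hnone
  obtain ⟨i, t, ht, hti⟩ := exists_pow_mul_mem_span hp k m hpm
  -- nothing nonzero in the `p`-power torsion is killed by a power of `m`
  have hinj : ∀ (n : ℕ) (x : JZero N), p ^ (k + 1) • x = 0 →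
      (∀ P : AwayPoly S, evalForms hNS P ∈ m ^ n → toHeckeAlg S P • x = 0) → x = 0 := by
    intro n
    induction n with
    | zero =>
      intro x _ h
      have h1 := h 1 (by rw [pow_zero, Ideal.one_eq_top]; trivial)
      rwa [map_one, one_smul] at h1
    | succ n ih =>
      intro x hx h
      refine ih x hx fun Q hQ => ?_
      by_contra hne
      obtain ⟨R, hR⟩ := evalForms_surjective hNS (p : CuspForm.heckeAlgebra N 2 S)
      have hmul : ∀ P : AwayPoly S, evalForms hNS P ∈ m →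
          toHeckeAlg S P • (toHeckeAlg S Q • x) = 0 := fun P hP => by
        rw [← mul_smul, ← map_mul]
        exact h _ (by rw [map_mul, pow_succ']; exact Ideal.mul_mem_mul hP hQ)
      have hpy : p • (toHeckeAlg S Q • x) = 0 := by
        have h2 := hmul (p : AwayPoly S) (by rwa [map_natCast])
        rwa [map_natCast, Nat.cast_smul_eq_nsmul] at h2
      obtain ⟨P, hP, hne'⟩ := hnone _ hne hpy
      exact hne' (hmul P hP)
  -- so a lift of `t` kills the torsion of exponent `p ^ k`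
  obtain ⟨Pt, hPt⟩ := evalForms_surjective hNS t
  have hkill : ∀ x : JZero N, p ^ k • x = 0 → toHeckeAlg S Pt • x = 0 := by
    intro x hx
    have hx' : p ^ (k + 1) • x = 0 := by rw [pow_succ', mul_smul, hx, smul_zero]
    refine hinj i _ (by rw [smul_comm, hx', smul_zero]) fun P hP => ?_
    obtain ⟨u, hu⟩ := Ideal.mem_span_singleton'.1 (hti _ hP)
    obtain ⟨Pu, rfl⟩ := evalForms_surjective hNS u
    have h0 := hfaith.smul_eq_zero (Pt * P - Pu * (p : AwayPoly S) ^ (k + 1)) (by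
      rw [map_sub, map_mul, map_mul, map_pow, map_natCast, hPt, hu, sub_self]) (k + 1) x hx'
    rw [map_sub, sub_smul, map_mul, map_mul, map_pow, map_natCast, mul_smul, mul_smul,
      ← Nat.cast_pow, Nat.cast_smul_eq_nsmul, hx', show toHeckeAlg S Pu • (0 : JZero N) = 0 from
        (DistribSMul.toAddMonoidHom (JZero N) (toHeckeAlg S Pu)).map_zero, sub_zero] at h0
    rw [smul_comm]
    exact h0
  obtain ⟨u, hu⟩ := hk Pt hkill
  refine hm ((Ideal.eq_top_iff_one m).2 ?_)
  have htm : t ∈ m := by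
    rw [← hPt, hu, pow_one]
    exact m.mul_mem_right _ hpm
  simpa using m.sub_mem htm ht

/-- **An eigen torsion point from a congruence.** -/
theorem exists_eigen_torsion [hp : Fact p.Prime] {W : WeierstrassCurve ℤ}
    (h : CofiniteResModular W p N) :
    ∃ T : Finset ℕ, (∀ q : ℕ, q.Prime → q ∣ N → q ∈ T) ∧ p ∈ T ∧
      ∃ x : JZero N, x ≠ 0 ∧ p • x = 0 ∧
        ∀ ℓ : Nat.Primes, (ℓ : ℕ) ∉ T → heckeOperatorBar N ℓ x = W.apOfModel ℓ • x := by
  let := heckeModuleBar N
  obtain ⟨f, 𝔪, hf, hmax, hp𝔪, S₀, hS₀⟩ := h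
  set T : Finset ℕ := S₀ ∪ N.primeFactors ∪ {p} with hT
  have hNT : ∀ q : ℕ, q.Prime → q ∣ N → q ∈ (T : Set ℕ) := fun q hq h =>
    Finset.mem_coe.2 <| Finset.mem_union_left _ (Finset.mem_union_right _
      (Nat.mem_primeFactors.mpr ⟨hq, h, NeZero.ne N⟩))
  have : 𝔪.IsMaximal := hmax
  let θ : CuspForm.heckeAlgebra N 2 (T : Set ℕ) →+* integralClosure ℤ ℂ ⧸ 𝔪 :=
    (Ideal.Quotient.mk 𝔪).comp
      (HeckeEigen.eigenCharInt (CuspIntStr.hasIntegralStructure N 2) hf (T : Set ℕ))
  obtain ⟨x, hx0, hpx, hkill⟩ := exists_killed_torsion hp.out hNT (RingHom.ker θ)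
    (RingHom.ker_ne_top θ) (by
      rw [RingHom.mem_ker, map_natCast, ← map_natCast (Ideal.Quotient.mk 𝔪),
        Ideal.Quotient.eq_zero_iff_mem]
      exact hp𝔪)
  refine ⟨T, hNT, by simp [hT], x, hx0, hpx, fun ℓ hℓT => ?_⟩
  obtain ⟨c, hc, hca⟩ := hS₀ ℓ ℓ.2 fun h => hℓT
    (Finset.mem_union_left _ (Finset.mem_union_left _ h))
  have h0 := hkill (MvPolynomial.X ⟨ℓ, hℓT⟩ - MvPolynomial.C (W.apOfModel ℓ)) (by
    rw [RingHom.mem_ker, map_sub, map_sub]
    simp only [evalForms, MvPolynomial.eval₂Hom_X', eq_intCast, map_intCast]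
    rw [← map_intCast (Ideal.Quotient.mk 𝔪), RingHom.comp_apply, ← map_sub,
      Ideal.Quotient.eq_zero_iff_mem]
    convert hca
    exact Subtype.ext (by rw [HeckeEigen.coe_eigenCharInt, HeckeEigen.eigenChar_T, hc]))
  simp only [toHeckeAlg, map_sub, AlgHom.toRingHom_eq_coe, RingHom.coe_coe,
    MvPolynomial.rename_X, MvPolynomial.rename_C, sub_smul] at h0
  rw [heckeModuleBar_C_smul, ← heckeGen, heckeModuleBar_heckeGen_smul
    (HeckeCommute.heckeOperatorsCommuteBar N), sub_eq_zero] at h0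
  exact h0

end Fermat.Agent.LevelLowering.Away
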