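import Fermat.Agent.LevelLowering.Away.Defs
import Fermat.Agent.LevelLowering.Away.AdmissibleReduction
import Fermat.Agent.LevelLowering.Away.JacEigen
import Fermat.Agent.AtP.ClassResidual
import Fermat.Agent.TwoComp.QuadExport

/-!
# Removing an auxiliary prime `r ≡ 2 (mod 3)`

If `3 ∤ a_r(W)` then an eigen `3`-torsion point of `J₀(X r)` is not killed by both pushforwards
to `J₀(X)`: on their common kernel `(σ² - 1)² = 0` at a Frobenius element `σ` at `r`, while
`σ² = a_r σ + 1`.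
-/

set_option autoImplicit false

noncomputable section

open ModularCurve
open Fermat.Agent.CarayolReduction (dilHom pushPic)

namespace Fermat.Agent.LevelLowering.Away

local notation "Qb" => AlgebraicClosure ℚ
local notation "GQ" => AlgebraicClosure ℚ ≃ₐ[ℚ] AlgebraicClosure ℚ

/-- `(g² - c)(g² - 1) y = 0` and `g² y + 2 y = t g y` on a group of exponent three with
`c ≡ 1`, `t` a unit, force `y = 0`. -/
theorem eq_zero_of_quartic {A G : Type*} [AddCommGroup A] [Group G] [DistribMulAction G A] (g : G)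
    (y : A) (h3 : 3 • y = 0) {t c : ℕ} (ht : ¬ 3 ∣ t) (hc : c % 3 = 1)
    (hq : g • g • (g • g • y - y) - c • (g • g • y - y) = 0)
    (hch : g • g • y + 2 • y = t • (g • y)) : y = 0 := by
  have hgn : ∀ (n : ℕ) (z : A), g • (n • z) = n • (g • z) := fun n z =>
    map_nsmul (DistribSMul.toAddMonoidHom A g) n z
  have hz3 : ∀ z : A, 3 • z = 0 → 3 • (g • z) = 0 := fun z hz => by
    rw [← hgn, hz]
    exact smul_zero g
  have h2 : ∀ z : A, 3 • z = 0 → 2 • z = -z := fun z hz => by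
    rw [eq_neg_iff_add_eq_zero, ← hz]
    abel
  have hu : g • g • y - y = t • (g • y) := by rw [← hch, h2 y h3, sub_eq_add_neg]
  have hc1 : ∀ z : A, 3 • z = 0 → c • z = z := fun z hz => by
    rw [← Nat.div_add_mod c 3, hc, add_smul, mul_comm, mul_smul, hz, smul_zero, zero_add, one_smul]
  have h3t : 3 • (t • (g • y)) = 0 := by rw [smul_comm, hz3 y h3, smul_zero]
  rw [hu, hc1 _ h3t] at hq
  have h1 : t • (g • (g • g • y - y)) = 0 := by
    rw [smul_sub, smul_sub, ← hgn, ← hgn, ← hq]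
  rw [hu, hgn, ← mul_smul] at h1
  have h4 : ∀ z : A, 3 • z = 0 → (t * t) • z = 0 → z = 0 := fun z hz hz' => by
    have htt : (t * t) % 3 = 1 := by
      have : t % 3 = 1 ∨ t % 3 = 2 := by omega
      rcases this with h | h <;> simp [Nat.mul_mod, h]
    rw [← Nat.div_add_mod (t * t) 3, htt, add_smul, mul_comm, mul_smul, hz, smul_zero, zero_add,
      one_smul] at hz'
    exact hz'
  have h5 := h4 _ (hz3 _ (hz3 y h3)) h1
  exact (smul_eq_zero_iff_eq g).1 ((smul_eq_zero_iff_eq g).1 h5)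

/-- **The `r`-lemma.** -/
theorem cofiniteResModular_of_mul_prime (hA : EigenQuotient) {W : WeierstrassCurve ℤ}
    (hΔ : W.Δ ≠ 0) (hW : W.IsSemistableModel) (hirr : W.ModRepIsIrreducible 3) {X r : ℕ}
    (hX : Squarefree X) (hr : r.Prime) (hr3X : ¬ r ∣ 3 * X) (hgood : W.IsGoodPrimeFor r)
    (hr2 : r % 3 = 2) (har : ¬ (3 : ℤ) ∣ W.apOfModel r)
    (hmod : CofiniteResModular W 3 (X * r)) : CofiniteResModular W 3 X := by
  have : Fact (Nat.Prime 3) := ⟨Nat.prime_three⟩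
  have : NeZero X := ⟨hX.ne_zero⟩
  have : NeZero r := ⟨hr.ne_zero⟩
  have hrX : ¬ r ∣ X := fun h => hr3X (dvd_mul_of_dvd_right h 3)
  have hr3 : r ≠ 3 := fun h => hr3X (h ▸ dvd_mul_right 3 X)
  obtain ⟨T₀, hNT₀, -, x, hx0, h3x, hxT₀⟩ := exists_eigen_torsion hmod
  set T : Finset ℕ := T₀ ∪ W.Δ.natAbs.primeFactors ∪ {3} with hTdef
  have hxmem : x ∈ OrdinaryExclusion.eigenPoints (X * r) 3 T (fun ℓ => W.apOfModel ℓ) :=
    ⟨h3x, fun ℓ hℓ => hxT₀ ℓ fun h => hℓ (by simp [hTdef, h])⟩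
  have h₁ : X * 1 ∣ X * r := by rw [mul_one]; exact dvd_mul_right _ _
  have key : ∀ (d : ℕ) [NeZero d] (_ : d = 1 ∨ d = r) (hd : X * d ∣ X * r),
      pushPic (dilHom X (X * r) d hd) x ≠ 0 → CofiniteResModular W 3 X := by
    intro d _ hd1 hd hne
    refine hA W 3 X hΔ hW Nat.prime_three (by norm_num) hirr (T ∪ {r}) ⊥
      (fun ℓ _ _ y hy => ?_) _ (fun h => hne (AddSubgroup.mem_bot.1 h))
      (AddSubgroup.mem_bot.2 (by rw [← map_nsmul, h3x, map_zero])) fun ℓ hℓX hℓT => ?_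
    · rw [AddSubgroup.mem_bot] at hy ⊢
      rw [hy, map_zero]
    · simp only [Finset.mem_union, Finset.mem_singleton, not_or] at hℓT
      have hℓP : ¬ (ℓ : ℕ) ∣ X * r := fun h => (ℓ.2.dvd_mul.1 h).elim hℓX fun h' =>
        hℓT.2 ((Nat.prime_dvd_prime_iff_eq ℓ.2 hr).1 h')
      rw [AddSubgroup.mem_bot, ← BadPrimeFrobenius.pushPic_hecke hr hrX rfl hd1 hd ℓ hℓP,
        hxmem.2 ℓ (by simpa [hTdef] using hℓT.1), map_zsmul, sub_self]
  by_cases e1 : pushPic (dilHom X (X * r) 1 h₁) x = 0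
  swap
  · exact key 1 (Or.inl rfl) h₁ e1
  by_cases e2 : pushPic (dilHom X (X * r) r dvd_rfl) x = 0
  swap
  · exact key r (Or.inr rfl) dvd_rfl e2
  exfalso
  refine hx0 ?_
  obtain ⟨A, hA'⟩ := GaloisBasics.exists_liesOverPrime hr
  obtain ⟨σ, hσ⟩ := GaloisBasics.exists_isFrobeniusAt hA' hr
  have hq := BadPrimeFrobenius.kernelQuartic_of_split
    (fun N q n _ _ hq hqN hN hn hco B hB τ hτ => TwoComp.quadRoot hq hqN hN hn hco hB hτ)
    (k := 1) hr hrX rfl Nat.prime_three (Ne.symm hr3) hA' hσ h₁ dvd_rfl x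
    (by rw [pow_one]; exact h3x) e1 e2
  have hch := OrdinaryExclusion.cayley_hamilton_of_eigen (AtP.curveRep W hΔ 3)
    (AtP.curveRep_finiteLevel W hΔ 3) (fun ℓ hℓ hℓT B hB τ hτ =>
      AtP.curveRep_frobenius W hΔ 3 hℓ (fun h => hℓT (by simp [hTdef, h])) (by
        by_contra hbad
        exact hℓT (Finset.mem_union_left _ (Finset.mem_union_right _ (Nat.mem_primeFactors.2
          ⟨hℓ, Int.natCast_dvd.mp (not_not.mp hbad), Int.natAbs_ne_zero.mpr hΔ⟩))))
        hB hτ) hxmem σ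
  obtain ⟨htr, hdet⟩ := AtP.curveRep_frobenius W hΔ 3 hr hr3 hgood hA' hσ
  rw [show (AtP.curveRep W hΔ 3 σ).det = (r : ZMod 3) from hdet, ZMod.val_natCast, hr2, htr] at hch
  refine eq_zero_of_quartic σ x h3x (fun h => har ?_) (c := r * r) (by simp [Nat.mul_mod, hr2]) hq hch
  have h0 : ((W.apOfModel r : ℤ) : ZMod 3) = 0 := by
    have hlt := ZMod.val_lt ((W.apOfModel r : ℤ) : ZMod 3)
    rw [← ZMod.natCast_zmod_val ((W.apOfModel r : ℤ) : ZMod 3),
      (ZMod.natCast_eq_zero_iff _ 3).2 h]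
  exact (ZMod.intCast_zmod_eq_zero_iff_dvd _ 3).1 h0

/-- The auxiliary prime of the reduction to admissible levels can be removed. -/
theorem removeAuxPrime (hA : EigenQuotient) {W : WeierstrassCurve ℤ} (hΔ : W.Δ ≠ 0)
    (hW : W.IsSemistableModel) (hirr : W.ModRepIsIrreducible 3) : RemoveAuxPrime W :=
  fun _ _ hX hr _ hr3X hgood hr2 har hmod =>
    cofiniteResModular_of_mul_prime hA hΔ hW hirr hX hr hr3X hgood hr2
      (fun h => har ((ZMod.intCast_zmod_eq_zero_iff_dvd _ 3).2 h)) hmod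

end Fermat.Agent.LevelLowering.Away
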