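import Fermat.Agent.LevelLowering.Away.Main
import Fermat.Agent.LevelLowering.Away.AdmissibleReduction
import Fermat.Agent.LevelLowering.Away.RLemma

/-!
# Mazur's principle away from `p` for semistable curves

The core at admissible levels and the removal of the auxiliary prime give the principle at every
squarefree level, given the construction of Kummer functions.
-/

set_option autoImplicit false

noncomputable section

namespace Fermat.Agent.LevelLowering.Away

/-- A prime `q ≠ p` at which `W[p]` is unramified can be removed from the level. -/
theorem removeAway_of_kummerStep (hB1 : KummerStep) {W : WeierstrassCurve ℤ} (hΔ : W.Δ ≠ 0)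
    (hW : W.IsSemistableModel) {p : ℕ} [Fact p.Prime] (hp2 : p ≠ 2) : RemoveAway W p := fun hirr =>
  removeAway_of_core hΔ hW hp2 (core_of_kummerStep' hB1 hΔ hW Fact.out hp2)
    (fun h => by subst h; exact removeAuxPrime eigenQuotient hΔ hW hirr) hirr

end Fermat.Agent.LevelLowering.Away
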