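import Fermat.Agent.LevelLowering.Away.Residues
import Fermat.Agent.TWHyp.Curve
import Fermat.Agent.Lifting.UnramifiedStep

/-!
# Mazur's principle at an admissible level

Kummer functions of the classes in the eigen package have residues which are `p`-th powers, so
Frobenius at `q` acts on `W[p]` as the scalar `-ε q`, and the determinant forces `q ≡ 1 (mod p)`.
-/

set_option autoImplicit false

noncomputable section

open ModularCurve AlgebraicCurve
open Fermat.Agent.CarayolReduction (galAct)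
open Fermat.Agent.TwoComp (Conj NormEq)
open WeierstrassCurve.Affine.Point (galoisRepModuleEnd)

namespace Fermat.Agent.LevelLowering.Away

local notation "Qb" => AlgebraicClosure ℚ
local notation "GQ" => AlgebraicClosure ℚ ≃ₐ[ℚ] AlgebraicClosure ℚ
local notation "FB" => modularFunctionFieldBar

/-- If Frobenius at `q` acts on `W[p]` by the scalar `c`, then `c² = q`. -/
theorem sq_scalar_eq {W : WeierstrassCurve ℤ} (hΔ : W.Δ ≠ 0) {p q : ℕ} [Fact p.Prime]
    (hq : q.Prime) (hqp : q ≠ p) {A : ValuationSubring Qb} (hA : A.LiesOverPrime q) {σ : GQ}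
    (hσ : A.IsFrobeniusAt σ q) {c : ZMod p}
    (h : galoisRepModuleEnd (K := Qb) ℚ (W.map (Int.castRingHom ℚ)) p σ = c • 1) :
    c ^ 2 = (q : ZMod p) := by
  set ρ := TWHyp.residualRep W hΔ p
  have h1 := Lifting.det_frobenius_sub_mem (TWHyp.residualRep_detIsCyclotomic (p := p) W hΔ)
    Fact.out hq hqp hA hσ 1
  rw [pow_one, ZMod.natCast_self, Ideal.mem_span_singleton, zero_dvd_iff, sub_eq_zero] at h1
  have h' : ρ.ρ σ = c • 1 := h
  change LinearMap.det (ρ.ρ σ) = _ at h1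
  rw [h', LinearMap.det_smul, map_one, mul_one, ρ.finrank_eq] at h1
  exact h1

theorem eq_one_of_sq {p q : ℕ} [Fact p.Prime] (hq : (q : ZMod p) ≠ 0) {e : ℤ}
    (he : e = 1 ∨ e = -1) (h : ((-(e * q) : ℤ) : ZMod p) ^ 2 = (q : ZMod p)) :
    (q : ZMod p) = 1 := by
  rcases he with rfl | rfl <;>
  · push_cast at h
    exact mul_left_cancel₀ hq (by linear_combination h)

/-- The steps give Mazur's principle at admissible levels. -/
theorem core_of_steps (hA2 : PackageStep) (hB1 : KummerStep) (hB2 : RaiseStep) (hC : CuspPlaces)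
    (hD : FinitePlaces) (hF : ClassStep) (hG : SwapRoot)
    {W : WeierstrassCurve ℤ} (hΔ : W.Δ ≠ 0) (hW : W.IsSemistableModel) {p : ℕ} (hp : p.Prime)
    (hp2 : p ≠ 2) (hE : DescendPlaces) : Core W p := by
  intro hirr X q hq hqp hsq hadm hunr hmod
  by_cases hX : CofiniteResModular W p X
  · exact Or.inl hX
  right
  have := Fact.mk hp
  have : NeZero X := ⟨left_ne_zero_of_mul hsq.ne_zero⟩
  have : NeZero q := ⟨hq.ne_zero⟩
  have hqX : ¬ q ∣ X :=
    (hq.coprime_iff_not_dvd).mp (Nat.squarefree_mul_iff.mp hsq).1.symm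
  obtain ⟨C, -, hC'⟩ := TwoComp.exists_conj X q hq hqX
  obtain ⟨P⟩ := hA2 W p X q hΔ hW hp hp2 hirr hq hqp hsq hadm hunr hmod hX C hC'
  have hscal : ∀ A : ValuationSubring Qb, A.LiesOverPrime q → ∀ σ : GQ, A.IsFrobeniusAt σ q →
      galoisRepModuleEnd (K := Qb) ℚ (W.map (Int.castRingHom ℚ)) p σ =
        ((-(P.eps * q) : ℤ) : ZMod p) • 1 := by
    intro A hA σ hσ
    refine P.scalar σ _ fun x hx => ?_
    obtain ⟨f, u₀, u₁, hcl, hK, S, hS⟩ :=
      hB1 W p X q hΔ hW hp hp2 hirr hq hqp hsq hadm C hC' P A hA x hx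
    have hres : ∀ (g : FB (X * q)) (v₀ v₁ : LaurentSeries (IsLocalRing.ResidueField A)),
        KummerFun A p C g v₀ v₁ →
        (∀ (ℓ : ℕ) [NeZero ℓ], ℓ.Prime → ℓ ∉ S → HeckeResidue A X p ℓ (aExp W p ℓ) v₀) →
        IsResiduePow A p X v₀ := by
      intro g v₀ v₁ hKg hH
      obtain ⟨hY, hdvd⟩ := dvd_ord_residue hB2 hC hD hE hp hp2 hq hqp hsq hadm hC' hA hKg
      exact (hF W p X q hΔ hW hp hp2 hirr hq hqp hsq hadm A hA S v₀ hKg.res₀.1 hKg.mem₀ hY hdvd
        hH).resolve_left hX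
    have h := wPic_galois_eq hB2 hG hp hp2 hq hqp hqX hC' hA hσ hcl hK
      (hres f u₀ u₁ hK fun ℓ _ hℓ hℓS => (hS ℓ hℓ hℓS).1)
      (hres _ u₁ u₀ hK.swap fun ℓ _ hℓ hℓS => (hS ℓ hℓ hℓS).2)
      (fun u hu => full_degeneracyC_le _ (dvd_auxLevel q X) hu)
    rw [P.w_eq _ (P.galois_mem σ x hx)] at h
    have he : P.eps * P.eps = 1 := by rcases P.eps_eq with e | e <;> rw [e] <;> rfl
    rw [neg_smul, eq_neg_iff_add_eq_zero]
    calc σ • x + (P.eps * (q : ℤ)) • x = P.eps • (P.eps • (σ • x) + (q : ℕ) • x) := by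
          rw [zsmul_add, ← natCast_zsmul x q, ← mul_zsmul, ← mul_zsmul, he, one_zsmul]
      _ = 0 := by rw [h, zsmul_zero]
  obtain ⟨A₀, hA₀⟩ := Frobenius.exists_liesOverPrime (L := Qb) hq
  obtain ⟨σ₀, hσ₀⟩ := Frobenius.exists_isFrobeniusAt hq hA₀
  have hq0 : (q : ZMod p) ≠ 0 := fun h => hqp.symm
    ((Nat.prime_dvd_prime_iff_eq hp hq).mp ((ZMod.natCast_eq_zero_iff q p).mp h))
  exact ⟨eq_one_of_sq hq0 P.eps_eq (sq_scalar_eq hΔ hq hqp hA₀ hσ₀ (hscal A₀ hA₀ σ₀ hσ₀)),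
    fun A hA σ hσ => ⟨_, hscal A hA σ hσ⟩⟩

end Fermat.Agent.LevelLowering.Away
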