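import Fermat.Agent.LevelLowering.Away.Defs
import Fermat.Agent.LevelLowering.Away.Raise
import Fermat.Agent.TwoComp.Symmetry
import Fermat.Agent.CarayolReduction.Core

/-!
# Classes of Kummer functions

`IsClassOf` is compatible with products, powers, Galois and `w_q`; `w_q`, and
`w_q` and Galois commute with the inclusion of levels.
-/

set_option autoImplicit false

noncomputable section

open ModularCurve AlgebraicCurve
open Fermat.Agent.CarayolReduction (dilHom coe_dilHom pushPic galAct nmAlong)
open Fermat.Agent.TwoComp (Conj upα upβ hom_ext_alpha_beta)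

namespace Fermat.Agent.LevelLowering.Away

local notation "Qb" => AlgebraicClosure ℚ
local notation "GQ" => AlgebraicClosure ℚ ≃ₐ[ℚ] AlgebraicClosure ℚ
local notation "FB" => modularFunctionFieldBar

section Class

variable {M : ℕ} [NeZero M] {n : ℕ}

/-- Galois conjugation of a representing function represents the conjugate class. -/
theorem IsClassOf.galois {f : FB M} {x : JZero M} (h : IsClassOf n f x) (σ : GQ) :
    IsClassOf n (galAct M σ • f) (σ • x) := by
  obtain ⟨hf, D, rfl, hD⟩ := h
  refine ⟨(smul_ne_zero_iff_ne _).mpr hf, SemilinearAut.degZeroSMulHom (galAct M σ) D, ?_,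
    fun v => ?_⟩
  · rw [galois_smul_pic0_def, SemilinearAut.pic0_smul_mk]
  · rw [SemilinearAut.coe_degZeroSMulHom, SemilinearAut.divisor_smul_apply, hD,
      ← CarayolReduction.ord_galAct]

/-- A product of representing functions represents the sum of the classes. -/
theorem IsClassOf.mul {f g : FB M} {x y : JZero M} (hf : IsClassOf n f x) (hg : IsClassOf n g y) :
    IsClassOf n (f * g) (x + y) := by
  obtain ⟨hf, D, rfl, hD⟩ := hf
  obtain ⟨hg, E, rfl, hE⟩ := hg
  refine ⟨mul_ne_zero hf hg, D + E, rfl, fun v => ?_⟩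
  rw [AddSubgroup.coe_add, Finsupp.add_apply, mul_add, hD, hE, v.ord_mul hf hg]

/-- A power of a representing function represents the multiple of the class. -/
theorem IsClassOf.pow {f : FB M} {x : JZero M} (hf : IsClassOf n f x) (m : ℕ) :
    IsClassOf n (f ^ m) (m • x) := by
  obtain ⟨hf, D, rfl, hD⟩ := hf
  refine ⟨pow_ne_zero m hf, m • D, map_nsmul (QuotientAddGroup.mk' _) m D, fun v => ?_⟩
  rw [AddSubgroupClass.coe_nsmul, Finsupp.smul_apply, nsmul_eq_mul, FunctionField.ord_pow, ← hD]
  ring

/-- A class represented by a function is killed by `n`. -/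
theorem IsClassOf.nsmul_eq_zero {f : FB M} {x : JZero M} (hf : IsClassOf n f x) : n • x = 0 := by
  obtain ⟨hf, D, rfl, hD⟩ := hf
  rw [Pic0.mk, ← QuotientAddGroup.mk_nsmul, QuotientAddGroup.eq_zero_iff,
    AddSubgroup.mem_addSubgroupOf]
  exact ⟨f, hf, fun v => by
    rw [AddSubgroupClass.coe_nsmul, Finsupp.smul_apply, nsmul_eq_mul, hD]⟩

end Class

section Involution

variable {X q : ℕ} [NeZero X] [NeZero q] (C : Conj X q) {n : ℕ}

/-- The degree of `w_q`. -/
theorem finrankAlong_w : finrankAlong Qb C.w.toAlgHom = 1 := by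
  refine (TwoComp.finrankAlong_comp (AlgHom.id Qb (FB (X * q))) C.w.toAlgHom C.w
    fun x => rfl).trans ?_
  show @Module.finrank (FB (X * q)) (FB (X * q)) _ _
    (algebraAlong (AlgHom.id Qb (FB (X * q)))).toModule = 1
  exact Module.finrank_self (FB (X * q))

theorem nmAlong_w (f : FB (X * q)) : nmAlong C.w.toAlgHom f = C.w f := by
  have h : C.w.toAlgHom (C.w f) = f := C.w_w f
  conv_lhs => rw [← h]
  rw [CarayolReduction.nmAlong_apply, finrankAlong_w, pow_one]

/-- `w_q` of a representing function represents `w_q` of the class. -/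
theorem IsClassOf.w {f : FB (X * q)} {x : JZero (X * q)} (h : IsClassOf n f x) :
    IsClassOf n (C.w f) (wPic C x) := by
  obtain ⟨hf, D, rfl, hD⟩ := h
  refine ⟨(map_ne_zero C.w).mpr hf, CarayolReduction.pushDeg0 C.w.toAlgHom D,
    (CarayolReduction.pushPic_mk C.w.toAlgHom D).symm, fun v => ?_⟩
  have hnD : ∀ u : Place Qb (FB (X * q)),
      (n • (D : Divisor Qb (FB (X * q)))) u = u.ord f := fun u => by
    rw [Finsupp.smul_apply, nsmul_eq_mul, hD]
  have h1 := CarayolReduction.pushforwardAlong_div C.w.toAlgHom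
    (Hecke.isIntegral_of_isFunctionField C.w.toAlgHom) hf hnD v
  rw [map_nsmul, Finsupp.smul_apply, nsmul_eq_mul, nmAlong_w] at h1
  exact h1

variable {X' : ℕ} [NeZero X'] (C' : Conj X' q)

/-- `w_q` commutes with the inclusion of levels. -/
theorem w_dilHom (hq : q.Prime) (hXX' : X ∣ X') (h : X * q * 1 ∣ X' * q) (f : FB (X * q)) :
    C'.w (dilHom (X * q) (X' * q) 1 h f) = dilHom (X * q) (X' * q) 1 h (C.w f) :=
  w_levelIncl hq hXX' C C' f

/-- Galois conjugation commutes with the inclusion of levels. -/
theorem galAct_dilHom {M M' : ℕ} [NeZero M] [NeZero M'] (h : M * 1 ∣ M') (σ : GQ) (f : FB M) :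
    galAct M' σ • dilHom M M' 1 h f = dilHom M M' 1 h (galAct M σ • f) := Subtype.ext (by
  simp only [CarayolReduction.coe_galAct, coe_dilHom, qExpand_one_apply])

end Involution

end Fermat.Agent.LevelLowering.Away
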