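import Fermat.Agent.LevelLowering.Away.Defs

/-!
# The core of Mazur's principle at `q ≠ p`

`Core W p` is Mazur's principle at the admissible levels. Admissibility is inherited by multiples
and the auxiliary level stays squarefree.
-/

set_option autoImplicit false

noncomputable section

namespace Fermat.Agent.LevelLowering.Away

/-- Mazur's principle at an admissible level. -/
def Core (W : WeierstrassCurve ℤ) (p : ℕ) : Prop :=
  W.ModRepIsIrreducible p → ∀ X q : ℕ, q.Prime → q ≠ p → Squarefree (X * q) → Admissible p q X →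
    TorsionUnramified W p q → CofiniteResModular W p (X * q) →
    CofiniteResModular W p X ∨ ((q : ZMod p) = 1 ∧ TorsionFrobeniusScalar W p q)

/-- Admissibility is inherited by multiples of the level. -/
theorem Admissible.mono {p q X Y : ℕ} (h : Admissible p q X) (hXY : X ∣ Y) : Admissible p q Y := by
  rcases h with h | ⟨h1, h2, h3⟩ | ⟨h1, h2, r, hr, hrX, h4, h5⟩
  · exact Or.inl h
  · exact Or.inr (Or.inl ⟨h1, h2, h3.trans hXY⟩)
  · exact Or.inr (Or.inr ⟨h1, h2, r, hr, hrX.trans hXY, h4, h5⟩)

/-- Squarefreeness passes to the auxiliary level times `q`. -/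
theorem squarefree_auxLevel_mul {q X : ℕ} (hq : q.Prime) (h : Squarefree (X * q)) :
    Squarefree (auxLevel q X * q) := by
  obtain ⟨hco, hX, -⟩ := Nat.squarefree_mul_iff.mp h
  have hqX : ¬ q ∣ X := (hq.coprime_iff_not_dvd).mp hco.symm
  refine Nat.squarefree_mul_iff.mpr ⟨((hq.coprime_iff_not_dvd).mpr
    (not_dvd_auxLevel hq hqX)).symm, ?_, hq.squarefree⟩
  by_cases hd : auxPrime q ∣ X
  · rwa [auxLevel, Nat.lcm_eq_left hd]
  · have hco' : X.Coprime (auxPrime q) :=
      (((auxPrime_prime q).coprime_iff_not_dvd).mpr hd).symm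
    rw [auxLevel, hco'.lcm_eq_mul]
    exact Nat.squarefree_mul_iff.mpr ⟨hco', hX, (auxPrime_prime q).squarefree⟩

end Fermat.Agent.LevelLowering.Away
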