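import Fermat.Agent.TwoComp.QuadDatum
import Fermat.Agent.Carayol.FiniteLevel

/-!
# Contents of functions with constants in the inertia field

A nonzero function of level `M` with constants in the inertia field at `q` is a power of `q` times
a Gauss unit; roots of unity of order prime to `q` twist residues by their residues.
-/

set_option autoImplicit false

noncomputable section

open ModularCurve
open Fermat.Agent.TwoComp (gres gres_of_mem)
open Fermat.Agent.CarayolFF (gaussRing IsGaussUnit)
open Fermat.Agent.ModularFunctionField (twist)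

namespace Fermat.Agent.LevelLowering.Away

local notation "Qb" => AlgebraicClosure ℚ
local notation "FB" => modularFunctionFieldBar

variable {A : ValuationSubring Qb} {q : ℕ}

/-- Constant series are the image of `algebraMap`. -/
theorem hahnC_eq (c : Qb) : HahnSeries.C c = algebraMap Qb (LaurentSeries Qb) c :=
  (algebraMap_laurentSeries_eq_single Qb c).symm

/-- The expansion of a constant function. -/
theorem coe_constFB (M : ℕ) [NeZero M] (c : Qb) :
    ((algebraMap Qb (FB M) c : FB M) : LaurentSeries Qb) = HahnSeries.C c :=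
  (hahnC_eq c).symm

/-- The residue of a Gauss unit is nonzero. -/
theorem IsGaussUnit.gres_ne_zero {x : LaurentSeries Qb} (hx : IsGaussUnit A x) :
    gres A x ≠ 0 := by
  rw [gres_of_mem hx.mem]; exact hx.2

/-- Natural powers of a Gauss unit are Gauss units. -/
theorem isGaussUnit_npow {x : LaurentSeries Qb} (hx : IsGaussUnit A x) :
    ∀ n : ℕ, IsGaussUnit A (x ^ n)
  | 0 => by rw [pow_zero]; exact CarayolFF.IsGaussUnit.one
  | n + 1 => by rw [pow_succ]; exact (isGaussUnit_npow hx n).mul hx

theorem isGaussUnit_C {c : Qb} (hc : c ∈ A) (h0 : IsLocalRing.residue A ⟨c, hc⟩ ≠ 0) :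
    IsGaussUnit A (HahnSeries.C c) := by
  obtain ⟨hm, he⟩ := TwoComp.gres_C hc
  exact TwoComp.isGaussUnit_of_gres hm
    (by rw [he]; exact (map_ne_zero_iff _ HahnSeries.C_injective).mpr h0)

/-- Units of the unramified integers have nonzero residue. -/
theorem residue_ne_zero_of_isUnit {u : Carayol.unramInt A} (hu : IsUnit u) :
    IsLocalRing.residue A ⟨(u : Qb), (Carayol.mem_unramInt_iff.mp u.2).1⟩ ≠ 0 := by
  let g : Carayol.unramInt A →+* A :=
    (Carayol.unramInt A).subtype.codRestrict A fun c => (Carayol.mem_unramInt_iff.mp c.2).1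
  exact ((hu.map g).map (IsLocalRing.residue A)).ne_zero

/-- Constants which are units of the unramified integers are Gauss units. -/
theorem isGaussUnit_C_of_isUnit {u : Carayol.unramInt A} (hu : IsUnit u) :
    IsGaussUnit A (HahnSeries.C (u : Qb)) :=
  isGaussUnit_C _ (residue_ne_zero_of_isUnit hu)

/-- The power of `q` in front of a Gauss unit is determined. -/
theorem zpow_eq_zero_of_isGaussUnit (hA : A.LiesOverPrime q) {k : ℤ}
    {x : LaurentSeries Qb} (hx : IsGaussUnit A x)
    (hkx : IsGaussUnit A (HahnSeries.C ((q : Qb) ^ k) * x)) : k = 0 := by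
  have h := CarayolFF.valuation_eq_of_smul_unit (c := (q : Qb) ^ k) (c' := 1) hx hkx
    (by rw [map_one, one_mul, ← hahnC_eq])
  rw [map_zpow₀, map_one] at h
  exact zpow_eq_one_iff_right₀ zero_le (ne_of_lt (A.mem_nonunits_iff.mp hA)) |>.mp h

/-- Nonzero functions with constants in the inertia field have a content. -/
theorem exists_content {M : ℕ} [NeZero M] (hA : A.LiesOverPrime q) (hq : q.Prime)
    {x : LaurentSeries Qb} (hx : x ∈ Carayol.levelField (Carayol.inertiaField A) M)
    (hx0 : x ≠ 0) : ∃ z : ℤ, IsGaussUnit A (HahnSeries.C ((q : Qb) ^ z) * x) := by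
  classical
  set S : Set (LaurentSeries Qb) :=
    algebraMap Qb (LaurentSeries Qb) '' (Carayol.inertiaField A : Set Qb) ∪
      coeffEmb Qb '' divisorExpansions M
  have key : ∀ y ∈ Subring.closure S, y ≠ 0 →
      ∃ z : ℤ, IsGaussUnit A (HahnSeries.C ((q : Qb) ^ z) * y) := by
    intro y hy hy0
    have hb : y ∈ GoodReductionModular.boundedSeries Qb := by
      refine Subring.closure_le.mpr ?_ hy
      rintro _ (⟨c, -, rfl⟩ | ⟨_, ⟨d, hd, -, rfl⟩, rfl⟩)
      · exact GoodReductionModular.algebraMap_mem_boundedSeries c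
      · rw [show coeffEmb Qb (qExpand ℚ d jq) = qExpand Qb d (jqModC Qb) by
          rw [coeffEmb, ModularFunctionField.coeffMap_qExpand', ← coeffEmb,
            ← Hecke.jC_eq_jqModC]; rfl,
          ← ModularFunctionField.coeffMap_jqC (Int.castRingHom Qb),
          ← ModularFunctionField.coeffMap_qExpand']
        exact GoodReductionModular.coeffMap_intCast_mem_boundedSeries _
    obtain ⟨L, ϖ, hd, h⟩ := TwoComp.exists_boundedOver hq hA {y}
      fun z hz => by rw [Finset.mem_singleton.mp hz]; exact hb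
    obtain ⟨-, j, hj⟩ := h y (Finset.mem_singleton_self y)
    have hE : y ∈ Carayol.levelField (Carayol.inertiaField A) M :=
      Subring.closure_le.mpr Subfield.subset_closure hy
    obtain ⟨z, hz⟩ := (Carayol.Local.inertiaDiscrete hA hq).exists_content hy0
      (CarayolFF.levelField_le_overSubfield _ hE) (pow_ne_zero j hd.ne_zero) hj
    obtain ⟨hm, hne⟩ := hz
    obtain ⟨h1, h2⟩ := TwoComp.gres_of_intSeries (A := A)
      (x := HahnSeries.C ((q : Qb) ^ z) * y) (a := ⟨_, hm⟩) (b := 1)
      (by rw [map_one]; exact one_ne_zero) (mul_one _)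
    refine ⟨z, TwoComp.isGaussUnit_of_gres h1 ?_⟩
    rw [h2, map_one, div_one]
    exact hne
  obtain ⟨a, ha, b, hb, rfl⟩ := Subfield.mem_closure_iff.mp hx
  obtain ⟨za, hza⟩ := key a ha (div_ne_zero_iff.mp hx0).1
  obtain ⟨zb, hzb⟩ := key b hb (div_ne_zero_iff.mp hx0).2
  refine ⟨za - zb, ?_⟩
  have e : HahnSeries.C ((q : Qb) ^ (za - zb)) * (a / b) =
      HahnSeries.C ((q : Qb) ^ za) * a * (HahnSeries.C ((q : Qb) ^ zb) * b)⁻¹ := by
    rw [zpow_sub₀ (Nat.cast_ne_zero.mpr hq.ne_zero), map_div₀]
    field_simp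
  rw [e]
  exact hza.mul hzb.inv

/-- Roots of unity of order prime to `q` twist residues by their residues. -/
theorem gres_twist_root (hA : A.LiesOverPrime q) (hq : q.Prime) {ℓ : ℕ} (hℓ : ¬ q ∣ ℓ)
    {z : Qbˣ} (hz : z ^ ℓ = 1) :
    ∃ zb : (IsLocalRing.ResidueField A)ˣ,
      (∀ h : (z : Qb) ∈ A, (zb : IsLocalRing.ResidueField A) = IsLocalRing.residue A ⟨(z : Qb), h⟩) ∧
      ∀ {x : LaurentSeries Qb}, x ∈ gaussRing A → twist z x ∈ gaussRing A ∧
        gres A (twist z x) = twist zb (gres A x) := by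
  have hz' : ((z : Qb)) ^ ℓ = 1 := by rw [← Units.val_pow_eq_pow_val, hz, Units.val_one]
  have hmem : (z : Qb) ∈ A :=
    (Carayol.mem_unramInt_iff.mp (Carayol.Local.rootOfUnity_mem_unramInt hA hq hℓ hz')).1
  have hinv : ((z⁻¹ : Qbˣ) : Qb) ∈ A := by
    refine (Carayol.mem_unramInt_iff.mp (Carayol.Local.rootOfUnity_mem_unramInt hA hq hℓ ?_)).1
    rw [← Units.val_pow_eq_pow_val, inv_pow, hz, inv_one, Units.val_one]
  let uA : Aˣ := ⟨⟨z, hmem⟩, ⟨_, hinv⟩, Subtype.ext z.mul_inv, Subtype.ext z.inv_mul⟩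
  refine ⟨Units.map (IsLocalRing.residue A : A →* IsLocalRing.ResidueField A) uA,
    fun _ => rfl, fun {x} hx => ?_⟩
  obtain ⟨h, e⟩ := CarayolFF.gaussRes_map (twist z) (twist uA)
    (twist (Units.map (IsLocalRing.residue A : A →* IsLocalRing.ResidueField A) uA))
    (fun a => by
      show twist z (coeffMap A.subtype a) = coeffMap A.subtype (twist uA a)
      rw [ModularFunctionField.coeffMap_twist]
      congr 1)
    (fun a => by
      show coeffMap (IsLocalRing.residue A) (twist uA a) = _
      rw [ModularFunctionField.coeffMap_twist]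
      rfl) hx
  exact ⟨h, by rw [gres_of_mem h, gres_of_mem hx]; exact e⟩

/-- A root of unity of order prime to `q` reduces to one of the same order, compatibly with
`twist`. -/
theorem exists_primitive_residue (hA : A.LiesOverPrime q) (hq : q.Prime) {ℓ : ℕ} (hℓ : ℓ.Prime)
    (hql : ¬ q ∣ ℓ) {z : Qbˣ} (hz : IsPrimitiveRoot z ℓ) :
    ∃ zb : (IsLocalRing.ResidueField A)ˣ, IsPrimitiveRoot zb ℓ ∧
      ∀ (i : ℕ) {x : LaurentSeries Qb}, x ∈ gaussRing A → twist (z ^ i) x ∈ gaussRing A ∧
        gres A (twist (z ^ i) x) = twist (zb ^ i) (gres A x) := by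
  obtain ⟨zb, hzb, hx⟩ := gres_twist_root hA hq hql hz.pow_eq_one
  have hz' : ((z : Qb)) ^ ℓ = 1 := by
    rw [← Units.val_pow_eq_pow_val, hz.pow_eq_one, Units.val_one]
  have hmem : (z : Qb) ∈ A :=
    (Carayol.mem_unramInt_iff.mp (Carayol.Local.rootOfUnity_mem_unramInt hA hq hql hz')).1
  have hpow : zb ^ ℓ = 1 := by
    refine Units.ext ?_
    rw [Units.val_pow_eq_pow_val, hzb hmem, ← map_pow, Units.val_one]
    exact (congrArg _ (Subtype.ext (by simpa using hz'))).trans (map_one _)
  have hne : zb ≠ 1 := by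
    intro h1
    have hne' : (z : Qb) ≠ 1 := fun h => hz.ne_one hℓ.one_lt (Units.ext h)
    have hv := Carayol.Local.valuation_rootOfUnity_sub hA hq hql hz' (one_pow ℓ) hne'
    have h0 : IsLocalRing.residue A (⟨(z : Qb), hmem⟩ - 1) = 0 := by
      rw [map_sub, ← hzb hmem, h1, map_one, Units.val_one, sub_self]
    rw [IsLocalRing.residue_eq_zero_iff, ← ValuationSubring.coe_mem_nonunits_iff,
      A.mem_nonunits_iff] at h0
    simp [hv] at h0
  refine ⟨zb, IsPrimitiveRoot.iff_orderOf.mpr (orderOf_eq_prime (hp := ⟨hℓ⟩) hpow hne), ?_⟩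
  intro i
  induction i with
  | zero =>
    intro x hxm
    rw [pow_zero, pow_zero, ModularFunctionField.twist_one, ModularFunctionField.twist_one]
    exact ⟨hxm, rfl⟩
  | succ i ih =>
    intro x hxm
    obtain ⟨h1, e1⟩ := hx hxm
    obtain ⟨h2, e2⟩ := ih h1
    rw [pow_succ, pow_succ, ← ModularFunctionField.twist_twist,
      ← ModularFunctionField.twist_twist]
    exact ⟨h2, by rw [e2, e1]⟩

end Fermat.Agent.LevelLowering.Away
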