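import Fermat.Agent.LevelLowering.Away.Core
import Fermat.Agent.LevelLowering.Away.Classes

/-!
# Residues with orders divisible by `p`

At the auxiliary level the residue of a Kummer function of level `X q` has orders divisible by `p`
at all places; when both residues are `p`-th powers, `w_q ∘ σ` acts on the class as `-q`.
-/

set_option autoImplicit false

noncomputable section

open ModularCurve AlgebraicCurve
open Fermat.Agent.CarayolReduction (dilHom coe_dilHom galAct)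
open Fermat.Agent.TwoComp (Conj NormEq jR upα upβ)

namespace Fermat.Agent.LevelLowering.Away

local notation "Qb" => AlgebraicClosure ℚ
local notation "GQ" => AlgebraicClosure ℚ ≃ₐ[ℚ] AlgebraicClosure ℚ
local notation "FB" => modularFunctionFieldBar

variable {p X q : ℕ} [NeZero X] [NeZero q]

/-- At the level with a good model the residue has orders divisible by `p` at every place. -/
theorem dvd_ord_residue (hB2 : RaiseStep) (hC : CuspPlaces) (hD : FinitePlaces)
    (hE : DescendPlaces) (hp : p.Prime) (hp2 : p ≠ 2) (hq : q.Prime) (hqp : q ≠ p)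
    (hsq : Squarefree (X * q)) (hadm : Admissible p q X) {C : Conj X q} (hC' : NormEq C)
    {A : ValuationSubring Qb} (hA : A.LiesOverPrime q) {f : FB (X * q)}
    {u₀ u₁ : LaurentSeries (IsLocalRing.ResidueField A)} (hK : KummerFun A p C f u₀ u₁) :
    ∃ hY : u₀ ∈ modularFunctionFieldFullC (IsLocalRing.ResidueField A) (auxLevel q X),
      ∀ v : Place (IsLocalRing.ResidueField A)
          (modularFunctionFieldFullC (IsLocalRing.ResidueField A) (auxLevel q X)),
        (p : ℤ) ∣ v.ord ⟨u₀, hY⟩ := by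
  have hqX : ¬ q ∣ X :=
    (hq.coprime_iff_not_dvd).mp (Nat.squarefree_mul_iff.mp hsq).1.symm
  have hqY := not_dvd_auxLevel hq hqX
  have hco : p.Coprime q := (Nat.coprime_primes hp hq).mpr hqp.symm
  set Y := auxLevel q X with hYdef
  have hh := auxPrime_prime q
  have : NeZero (auxPrime q * Y) := ⟨mul_ne_zero hh.ne_zero (NeZero.ne Y)⟩
  have hXY : X ∣ Y := dvd_auxLevel q X
  have hqZ : ¬ q ∣ auxPrime q * Y := fun h => (hq.dvd_mul.mp h).elim
    (fun h' => auxPrime_ne ((Nat.prime_dvd_prime_iff_eq hq hh).mp h').symm) hqY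
  obtain ⟨CY, -, hCY⟩ := TwoComp.exists_conj Y q hq hqY
  obtain ⟨CZ, -, hCZ⟩ := TwoComp.exists_conj (auxPrime q * Y) q hq hqZ
  obtain ⟨fY, -, -, hKY⟩ := hB2 X Y q p hq hp.ne_zero hXY hqY C CY hC' hCY A hA f u₀ u₁ hK
  obtain ⟨fZ, -, -, hKZ⟩ := hB2 X (auxPrime q * Y) q p hq hp.ne_zero (hXY.trans (dvd_mul_left _ _))
    hqZ C CZ hC' hCZ A hA f u₀ u₁ hK
  refine ⟨hKY.mem₀, fun v => ?_⟩
  rcases lt_or_ge (v.ord (jR (IsLocalRing.ResidueField A) Y)) 0 with hv | hv
  · exact hC Y q p hq hqY (two_or_three_dvd_auxLevel q X) hp.ne_zero hco CY hCY A hA fY u₀ u₁ hKY v hv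
  · have hZ4 : q = 2 ∧ 9 ∣ auxPrime q * Y ∨ q ≠ 2 ∧ 4 ∣ auxPrime q * Y := by
      have h2 : auxPrime q * auxPrime q ∣ auxPrime q * Y :=
        mul_dvd_mul_left _ (auxPrime_dvd_auxLevel q X)
      unfold auxPrime at h2 ⊢
      split_ifs with h
      · exact Or.inl ⟨h, by simpa [h] using h2⟩
      · exact Or.inr ⟨h, by simpa [h] using h2⟩
    exact hE Y q p hq hp hp2 hqp (squarefree_auxLevel_mul hq hsq) (auxPrime_dvd_auxLevel q X)
      (hadm.mono hXY) A hA u₀ hKY.mem₀ hKZ.mem₀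
      (hD (auxPrime q * Y) q p hq hqZ hZ4 hp.ne_zero hco CZ hCZ A hA fZ u₀ u₁ hKZ) v hv

/-- With `p`-th power residues, `w_q σ x = -q x`. -/
theorem wPic_galois_eq (hB2 : RaiseStep) (hG : SwapRoot) (hp : p.Prime) (hp2 : p ≠ 2)
    (hq : q.Prime) (hqp : q ≠ p) (hqX : ¬ q ∣ X) {C : Conj X q} (hC' : NormEq C)
    {A : ValuationSubring Qb} (hA : A.LiesOverPrime q) {σ : GQ} (hσ : A.IsFrobeniusAt σ q)
    {f : FB (X * q)} {u₀ u₁ : LaurentSeries (IsLocalRing.ResidueField A)} {x : JZero (X * q)}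
    (hx : IsClassOf p f x) (hK : KummerFun A p C f u₀ u₁) (h₀ : IsResiduePow A p X u₀)
    (h₁ : IsResiduePow A p X u₁) (hle : ∀ u, u ∈ modularFunctionFieldFullC
      (IsLocalRing.ResidueField A) X → u ∈ modularFunctionFieldFullC
      (IsLocalRing.ResidueField A) (auxLevel q X)) :
    wPic C (σ • x) + q • x = 0 := by
  have hqY := not_dvd_auxLevel hq hqX
  set Y := auxLevel q X with hYdef
  have hXY : X ∣ Y := dvd_auxLevel q X
  have hco : p.Coprime q := (Nat.coprime_primes hp hq).mpr hqp.symm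
  have : NeZero (Y * q) := ⟨mul_ne_zero (NeZero.ne Y) hq.ne_zero⟩
  have hXYq : X * q * 1 ∣ Y * q := by rw [mul_one]; exact mul_dvd_mul_right hXY q
  obtain ⟨CY, -, hCY⟩ := TwoComp.exists_conj Y q hq hqY
  obtain ⟨fY, hfY, -, hKY⟩ := hB2 X Y q p hq hp.ne_zero hXY hqY C CY hC' hCY A hA f u₀ u₁ hK
  have hpow : ∀ u, IsResiduePow A p X u → IsResiduePow A p Y u := by
    rintro u ⟨a, ha⟩
    exact ⟨⟨a, hle a a.2⟩, ha⟩
  obtain ⟨s, hs⟩ := hG Y q p hq hqY (two_or_three_dvd_auxLevel q X) hp.ne_zero hco CY hCY A hA σ hσ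
    fY u₀ u₁ hKY (hpow _ h₀) (hpow _ h₁)
  set ι := dilHom (X * q) (Y * q) 1 hXYq
  have hfι : fY = ι f := Subtype.ext (by rw [hfY, coe_dilHom, qExpand_one_apply])
  have hy : IsClassOf p (C.w (galAct (X * q) σ • f) * f ^ q) (wPic C (σ • x) + q • x) :=
    ((hx.galois σ).w C).mul (hx.pow q)
  obtain ⟨hg, D, hDy, hD⟩ := hy
  set g := C.w (galAct (X * q) σ • f) * f ^ q with hgdef
  have hsg : s ^ p * ι g = 1 := by
    rw [← hs, hgdef, map_mul, map_pow, ← w_dilHom C CY hq hXY hXYq, ← galAct_dilHom hXYq, ← hfι]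
  have hstep : GoodReductionS18.TameStep (X * q) (Y * q) p := by
    have hh := auxPrime_prime q
    by_cases hd : auxPrime q ∣ X
    · exact Or.inl (by rw [hYdef, auxLevel, Nat.lcm_eq_left hd])
    · refine Or.inr ⟨auxPrime q, auxPrime_eq q, fun h => ?_, ?_, fun _ h2 => hp2
        ((Nat.prime_dvd_prime_iff_eq Nat.prime_two hp).mp h2).symm⟩
      · exact (hh.dvd_mul.mp h).elim hd fun h' =>
          auxPrime_ne ((Nat.prime_dvd_prime_iff_eq hh hq).mp h')
      · rw [hYdef, auxLevel, ((hh.coprime_iff_not_dvd.mpr hd).symm).lcm_eq_mul]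
        ring
  rw [← hDy]
  refine BadPrimeFrobenius.eq_zero_of_pullPic_eq_zero hXYq hstep hp.ne_zero
    (IsClassOf.nsmul_eq_zero ⟨hg, D, rfl, hD⟩) ?_
  rw [BadPrimeFrobenius.pullPic_mk, Pic0.mk, QuotientAddGroup.eq_zero_iff,
    AddSubgroup.mem_addSubgroupOf, BadPrimeFrobenius.coe_pullDeg0]
  have hs0 : s ≠ 0 := fun h => by simp [h, hp.ne_zero] at hsg
  refine ⟨s⁻¹, inv_ne_zero hs0, fun w => ?_⟩
  have hnD : ∀ v : Place Qb (FB (X * q)),
      ((p • (D : Divisor Qb (FB (X * q)))) : Divisor Qb (FB (X * q))) v = v.ord g := fun v => by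
    rw [Finsupp.smul_apply, nsmul_eq_mul, hD]
  have h1 := CarayolReduction.pullbackAlong_div ι (Hecke.isIntegral_of_isFunctionField ι) hnD w
  rw [map_nsmul, Finsupp.smul_apply, nsmul_eq_mul] at h1
  have h2 := congrArg w.ord hsg
  rw [w.ord_mul (pow_ne_zero _ hs0) ((map_ne_zero ι).mpr hg), FunctionField.ord_pow,
    Place.ord_one] at h2
  refine mul_left_cancel₀ (show (p : ℤ) ≠ 0 by exact_mod_cast hp.ne_zero) ?_
  rw [h1, Place.ord_inv]
  linear_combination h2

end Fermat.Agent.LevelLowering.Away
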